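import Fermat.Agent.CD.Desc

/-!
# Descent of series with character to the fixed field of a group fixing the character
-/

set_option autoImplicit false
set_option linter.unusedSectionVars false

open ModularCurve Fermat.Agent.ModFun Fermat.Agent.ESCore IntermediateField Fermat.Agent.LG
open Fermat.Agent.Geo IsLocalRing UpperHalfPlane
open CongruenceSubgroup (Gamma0)
open scoped MatrixGroups

noncomputable section

namespace Fermat.Agent.PR

open Fermat.Agent.CD

local notation "Qb" => AlgebraicClosure ℚ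
local notation "GQ" => (AlgebraicClosure ℚ ≃ₐ[ℚ] AlgebraicClosure ℚ)

/-- classes fixed by a group `H` are represented by series over the fixed field of `H`. -/
theorem exists_xSer_fix {N m : ℕ} [NeZero N] (hm : 0 < m) (χ : XG N m) (H : Subgroup GQ)
    (hχ : ∀ σ ∈ H, galX N hm σ χ = χ) :
    ∃ y : LaurentSeries (fixedField H), y ≠ 0 ∧ XSer (ιL (fixedField H)) N χ.1 y := by
  classical
  obtain ⟨y₀, hy₀, hx₀⟩ := exists_xSer hm χ
  obtain ⟨n, hn⟩ : ∃ n, y₀.coeff n ≠ 0 := by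
    by_contra hcon
    push Not at hcon
    apply hy₀
    ext n
    exact hcon n
  set y := HahnSeries.C (y₀.coeff n)⁻¹ * y₀ with hy
  have hx : XSer ιC N χ.1 y := xSer_C_mul _ hx₀
  have hyn : y.coeff n = 1 := by
    rw [hy, HahnSeries.C_mul_eq_smul, HahnSeries.coeff_smul, smul_eq_mul, inv_mul_cancel₀ hn]
  obtain ⟨S, hS⟩ : FinCoef y := finCoef_C_mul (hx₀.finCoef hm χ.2.1)
  obtain ⟨T, hST, hT⟩ := exists_stable S
  -- the orbit
  let Ψ : H → LaurentSeries Qb := fun σ =>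
    coeffMap ((σ : GQ).toRingEquiv.toRingHom : Qb →+* Qb) y
  let Φ : H → (S → T) := fun σ s => ⟨(σ : GQ) s, hT _ _ (hST s.2)⟩
  have hΨ : ∀ σ τ : H, Φ σ = Φ τ → Ψ σ = Ψ τ := by
    intro σ τ h
    refine coeffMap_congr hS fun x hx => ?_
    have h1 := congrFun h ⟨x, hx⟩
    exact congrArg Subtype.val h1
  have hfin : (Set.range Ψ).Finite := by
    have h1 : Set.range Ψ ⊆ Set.range (fun f : S → T => Ψ (Function.invFun Φ f)) := by
      rintro _ ⟨σ, rfl⟩
      exact ⟨Φ σ, hΨ _ _ (Function.invFun_eq ⟨σ, rfl⟩)⟩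
    exact (Set.finite_range _).subset h1
  set O := hfin.toFinset with hO
  have hmemO : ∀ w, w ∈ O ↔ ∃ σ : H, Ψ σ = w := by
    intro w
    rw [hO, Set.Finite.mem_toFinset, Set.mem_range]
  set z := ∑ w ∈ O, w with hz
  have hΨmul : ∀ σ τ : H, coeffMap ((σ : GQ).toRingEquiv.toRingHom : Qb →+* Qb) (Ψ τ) =
      Ψ (σ * τ) := by
    intro σ τ
    ext k
    rfl
  have hzσ : ∀ σ : H, coeffMap ((σ : GQ).toRingEquiv.toRingHom : Qb →+* Qb) z = z := by
    intro σ
    rw [hz, map_sum]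
    refine Finset.sum_bij' (fun w _ => coeffMap ((σ : GQ).toRingEquiv.toRingHom : Qb →+* Qb) w)
      (fun w _ => coeffMap ((σ⁻¹ : H) : GQ).toRingEquiv.toRingHom w) ?_ ?_ ?_ ?_ ?_
    · intro w hw
      obtain ⟨τ, rfl⟩ := (hmemO w).mp hw
      rw [hΨmul]
      exact (hmemO _).mpr ⟨_, rfl⟩
    · intro w hw
      obtain ⟨τ, rfl⟩ := (hmemO w).mp hw
      rw [hΨmul]
      exact (hmemO _).mpr ⟨_, rfl⟩
    · intro w hw
      obtain ⟨τ, rfl⟩ := (hmemO w).mp hw
      rw [hΨmul, hΨmul, inv_mul_cancel_left]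
    · intro w hw
      obtain ⟨τ, rfl⟩ := (hmemO w).mp hw
      rw [hΨmul, hΨmul, mul_inv_cancel_left]
    · intro w _
      rfl
  have hzx : XSer ιC N χ.1 z := by
    refine xSer_sum O fun w hw => ?_
    obtain ⟨σ, rfl⟩ := (hmemO w).mp hw
    have h1 := xSer_galX hm (σ : GQ) χ hx
    rwa [hχ σ σ.2] at h1
  have hzn : z.coeff n = (O.card : Qb) := by
    rw [hz, HahnSeries.coeff_sum]
    rw [Finset.sum_congr rfl (g := fun _ => (1 : Qb)), Finset.sum_const, nsmul_eq_mul, mul_one]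
    intro w hw
    obtain ⟨σ, rfl⟩ := (hmemO w).mp hw
    change (σ : GQ) (y.coeff n) = 1
    rw [hyn, map_one]
  have hOne : O.card ≠ 0 := by
    rw [Finset.card_ne_zero]
    exact ⟨Ψ 1, (hmemO _).mpr ⟨1, rfl⟩⟩
  have hzK : ∀ k, z.coeff k ∈ fixedField H := by
    intro k
    rw [mem_fixedField_iff]
    intro σ hσ
    have h1 := congrArg (fun w : LaurentSeries Qb => w.coeff k) (hzσ ⟨σ, hσ⟩)
    exact h1
  obtain ⟨y', hy'1, hy'2⟩ := hzx.descend hzK
  refine ⟨y', ?_, hy'2⟩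
  rintro rfl
  rw [map_zero] at hy'1
  rw [← hy'1] at hzn
  simp only [HahnSeries.coeff_zero] at hzn
  exact hOne (by exact_mod_cast hzn.symm)

end Fermat.Agent.PR
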