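import Fermat.Agent.PR.EisEq
import Fermat.Agent.PR.EisDesc
import Fermat.Agent.MP.SlopeDef
import Fermat.Agent.CA.GMap
import Fermat.Agent.LG.KX4

/-!
# Eisenstein extensions of constants of modular function fields
-/

set_option autoImplicit false
set_option linter.unusedSectionVars false
set_option linter.style.haveILetI false

noncomputable section

namespace Fermat.Agent.PR

open IntermediateField IsLocalRing Fermat.Agent.LG Fermat.Agent.GaloisBasics Fermat.Agent.EC
open Fermat.Agent.CD Fermat.Agent.ESCore Fermat.Agent.ModFun Polynomial ModularCurve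
open scoped Pointwise

local notation "Qb" => AlgebraicClosure ℚ
local notation "GQ" => (AlgebraicClosure ℚ ≃ₐ[ℚ] AlgebraicClosure ℚ)

section Abstract

/-- everything is a polynomial of degree `< p` in `η` -/
theorem span_of {F E L : Type*} [Field F] [Field E] [Field L] [Algebra F E] (a : L →+* E)
    (hcl : ∀ x : E, x ∈ Subfield.closure (Set.range (algebraMap F E) ∪ Set.range a)) {η : E}
    {p : ℕ} (hp : 0 < p) {G : F[X]} (hG : G.Monic) (hdeg : G.natDegree = p)
    (hroot : aeval η G = 0)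
    (hL : ∀ z : L, ∃ b : ℕ → F, a z = ∑ i ∈ Finset.range p, algebraMap F E (b i) * η ^ i)
    (x : E) : ∃ b : ℕ → F, x = ∑ i ∈ Finset.range p, algebraMap F E (b i) * η ^ i := by
  have halg : IsIntegral F η := ⟨G, hG, by rw [← hroot]; rfl⟩
  have hx : x ∈ adjoin F ({η} : Set E) := by
    have h1 : Subfield.closure (Set.range (algebraMap F E) ∪ Set.range a) ≤
        (adjoin F ({η} : Set E)).toSubfield := by
      rw [Subfield.closure_le]
      rintro y (⟨b, rfl⟩ | ⟨z, rfl⟩)
      · exact (adjoin F ({η} : Set E)).algebraMap_mem b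
      · obtain ⟨b, hb⟩ := hL z
        rw [hb]
        refine sum_mem fun i _ => mul_mem ((adjoin F ({η} : Set E)).algebraMap_mem _)
          (pow_mem (mem_adjoin_simple_self F η) _)
    exact h1 (hcl x)
  have hx' : x ∈ (adjoin F ({η} : Set E)).toSubalgebra := hx
  rw [adjoin_simple_toSubalgebra_of_isAlgebraic halg.isAlgebraic,
    Algebra.adjoin_singleton_eq_range_aeval] at hx'
  obtain ⟨P, hP⟩ := hx'
  set R := P %ₘ G with hR
  have hxR : x = aeval η R := by
    have h1 : aeval η P = x := hP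
    rw [← h1, hR]
    conv_lhs => rw [← modByMonic_add_div P G]
    rw [map_add, map_mul, hroot, zero_mul, add_zero]
  have hRdeg : R.natDegree < p := by
    rw [← hdeg]
    refine natDegree_modByMonic_lt P hG ?_
    rintro rfl
    simp only [natDegree_one] at hdeg
    omega
  refine ⟨fun i => R.coeff i, ?_⟩
  rw [hxR, aeval_eq_sum_range' hRdeg]
  exact Finset.sum_congr rfl fun i _ => Algebra.smul_def _ _

/-- the monic polynomial of an equation -/
theorem exists_monic_of_eq {F E : Type*} [Field F] [Field E] [Algebra F E] {η : E} {p : ℕ}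
    {b : ℕ → F} (h : η ^ p = ∑ i ∈ Finset.range p, algebraMap F E (b i) * η ^ i) :
    ∃ G : F[X], G.Monic ∧ G.natDegree = p ∧ aeval η G = 0 := by
  set R : F[X] := ∑ i ∈ Finset.range p, C (b i) * X ^ i with hR
  have hdR : R.degree < (p : ℕ) := by
    have h1 := degree_sum_fin_lt (fun i : Fin p => b i)
    rwa [Fin.sum_univ_eq_sum_range (fun i => C (b i) * X ^ i) p] at h1
  have hd : R.degree < (X ^ p : F[X]).degree := by rwa [degree_X_pow]
  refine ⟨X ^ p - R, (monic_X_pow p).sub_of_left hd, ?_, ?_⟩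
  · rw [natDegree_eq_of_degree_eq (degree_sub_eq_left_of_degree_lt hd), natDegree_X_pow]
  · rw [map_sub, map_pow, aeval_X, hR, map_sum, h, sub_eq_zero]
    refine Finset.sum_congr rfl fun i _ => ?_
    rw [map_mul, aeval_C, map_pow, aeval_X]

end Abstract

section Alg

variable (A : ValuationSubring Qb) {L L' : IntermediateField ℚ Qb} (hle : L ≤ L')
  (N : ℕ) [NeZero N]

/-- change of constants, as an algebra structure -/
@[reducible] def algEF : Algebra (F0 L N) (F0 L' N) :=
  (F0map (inclusion hle : L →+* L') N).toAlgebra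

/-- scalars -/
@[reducible] def algEO : Algebra (OL A L) (F0 L' N) :=
  ((algebraMap L' (F0 L' N)).comp ((algebraMap (OL A L') L').comp (incO A hle))).toAlgebra

theorem coe_algEF (x : F0 L N) :
    letI := algEF hle N
    ((algebraMap (F0 L N) (F0 L' N) x : F0 L' N) : LaurentSeries L') =
      coeffMap (inclusion hle : L →+* L') x := rfl

theorem algEO_eq (x : OL A L) :
    letI := algEO A hle N
    algebraMap (OL A L) (F0 L' N) x =
      algebraMap L' (F0 L' N) ⟨((x : L) : Qb), hle (x : L).2⟩ := rfl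

theorem tower_E :
    letI := algO (OL A L) (F0 L N)
    letI := algEF hle N
    letI := algEO A hle N
    IsScalarTower (OL A L) (F0 L N) (F0 L' N) := by
  letI := algO (OL A L) (F0 L N)
  letI := algEF hle N
  letI := algEO A hle N
  refine IsScalarTower.of_algebraMap_eq fun x => ?_
  exact (F0map_algebraMap (inclusion hle : L →+* L') N (algebraMap (OL A L) L x)).symm

/-- the Gauss rings are compatible -/
theorem coeffMap_gV_le [IsDiscreteValuationRing (OL A L)] [IsDiscreteValuationRing (OL A L')]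
    {y : LaurentSeries L} (hy : y ∈ gV (OL A L) L) :
    coeffMap (inclusion hle : L →+* L') y ∈ gV (OL A L') L' :=
  (CA.coeffMap_gV (i := (inclusion hle : L →+* L')) (i' := incO A hle) (fun _ => rfl) hy).choose

end Alg

/-- The Gauss valuation ring of the function field. -/
def gWF (A : ValuationSubring Qb) (L : IntermediateField ℚ Qb) [IsDiscreteValuationRing (OL A L)]
    (N : ℕ) [NeZero N] : ValuationSubring (F0 L N) :=
  gW (O := OL A L) (L := L) (F0 L N).val.toRingHom (fun x => F0_le_gK x.2)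

theorem mem_gWF {A : ValuationSubring Qb} {L : IntermediateField ℚ Qb}
    [IsDiscreteValuationRing (OL A L)] {N : ℕ} [NeZero N] {x : F0 L N} :
    x ∈ gWF A L N ↔ (x : LaurentSeries L) ∈ gV (OL A L) L := Iff.rfl

section Gau

variable {A : ValuationSubring Qb} {L : IntermediateField ℚ Qb}
    [IsDiscreteValuationRing (OL A L)] {N : ℕ} [NeZero N]

theorem unif_mem_nonunits {ϖ : OL A L} (hϖ : Irreducible ϖ) :
    algebraMap L (F0 L N) (ϖ : L) ∈ (gWF A L N).nonunits := by
  refine C_mul_mem_nonunits (O := OL A L) (L := L) (E := F0 L N) hϖ (y := 1) ?_ ?_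
  · rw [map_one]
    exact one_mem _
  · rw [map_one, mul_one]
    exact coe_algebraMap_L (F0 L N) (ϖ : L)

theorem exists_zpow_unit' {O L E : Type*} [CommRing O] [IsDomain O] [IsDiscreteValuationRing O]
    [Field L] [Algebra O L] [IsFractionRing O L] [Field E] (θ : E →+* LaurentSeries L)
    {ϖ : O} (hϖ : Irreducible ϖ) {a : E} (ha : θ a = HahnSeries.C (algebraMap O L ϖ))
    {x : E} (hxK : θ x ∈ gK O L) (hx : x ≠ 0) :
    ∃ (v : ℤ) (h : E), θ h ∈ gV O L ∧ θ h⁻¹ ∈ gV O L ∧ x = a ^ v * h := by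
  have hx0 : θ x ≠ 0 := (_root_.map_ne_zero θ).mpr hx
  obtain ⟨n, u, hu, hgu, he⟩ := exists_zpow_mul hϖ hxK hx0
  have ha0 : a ≠ 0 := by
    rintro rfl
    rw [map_zero] at ha
    have h1 := congrArg (fun z : LaurentSeries L => z.coeff 0) ha
    simp only [HahnSeries.coeff_zero, HahnSeries.C_apply, HahnSeries.coeff_single_same] at h1
    exact hϖ.ne_zero (IsFractionRing.injective O L (by rw [← h1, map_zero]))
  have hu' : θ ((a ^ n)⁻¹ * x) = u := by
    rw [map_mul, map_inv₀, map_zpow₀, ha, he, inv_mul_cancel_left₀]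
    rw [← ha, ← map_zpow₀]
    exact (_root_.map_ne_zero θ).mpr (zpow_ne_zero n ha0)
  refine ⟨n, (a ^ n)⁻¹ * x, ?_, ?_, ?_⟩
  · rw [hu']
    exact hu
  · rw [map_inv₀, hu']
    exact isUnit_of_gR_ne_zero (x := ⟨u, hu⟩) hgu
  · rw [mul_inv_cancel_left₀ (zpow_ne_zero n ha0)]

/-- every function is a power of the uniformizer times a unit of the Gauss ring -/
theorem exists_zpow_unit {ϖ : OL A L} (hϖ : Irreducible ϖ) {x : F0 L N} (hx : x ≠ 0) :
    ∃ (v : ℤ) (h : F0 L N), h ∈ gWF A L N ∧ h⁻¹ ∈ gWF A L N ∧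
      x = algebraMap L (F0 L N) (ϖ : L) ^ v * h :=
  exists_zpow_unit' (F0 L N).val.toRingHom hϖ (coe_algebraMap_L (F0 L N) (ϖ : L))
    (F0_le_gK x.2) hx

end Gau

namespace EtaData

variable {A : ValuationSubring Qb} {p : ℕ} {H : Subgroup GQ} {η : Qb} (D : EtaData A p H η)
include D

/-- the uniformizer -/
def ηO : OL A (fixedField H) := ⟨⟨η, D.η_mem_L2⟩, mem_OL.mpr D.vη_lt.le⟩

theorem coe_ηO : ((D.ηO : fixedField H) : Qb) = η := rfl

theorem dvr : IsDiscreteValuationRing (OL A (fixedField H)) :=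
  dvr_of_val (π := D.ηO) D.vη_pos.ne' D.vη_lt fun _ hx hx0 => D.exists_zpow_L2 hx hx0

theorem irreducible_ηO : Irreducible D.ηO :=
  irreducible_of_val (π := D.ηO) D.vη_pos.ne' D.vη_lt fun _ hx hx0 => D.exists_zpow_L2 hx hx0

/-- the uniformizer in the function field -/
def ηF (N : ℕ) [NeZero N] : F0 (fixedField H) N :=
  algebraMap (fixedField H) (F0 (fixedField H) N) (D.ηO : fixedField H)

theorem ηF_mem_nonunits (N : ℕ) [NeZero N] :
    haveI := D.dvr
    D.ηF N ∈ (gWF A (fixedField H) N).nonunits :=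
  haveI := D.dvr
  unif_mem_nonunits D.irreducible_ηO

theorem gWF_le (N : ℕ) [NeZero N] [IsDiscreteValuationRing (OL A (KI A))] :
    haveI := D.dvr
    letI := algEF D.KI_le N
    ∀ x ∈ gWF A (KI A) N, algebraMap (F0 (KI A) N) (F0 (fixedField H) N) x ∈
      gWF A (fixedField H) N := by
  haveI := D.dvr
  intro x hx
  exact coeffMap_gV_le A D.KI_le hx

/-- `F₀(L₂)` is an Eisenstein extension of `F₀(K)` -/
theorem exists_eisExt (N : ℕ) [NeZero N] :
    letI := algEF D.KI_le N
    letI := algEO A D.KI_le N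
    ∃ c : ℕ → OL A (KI A), MP.EisExt (OL A (KI A)) (F0 (KI A) N) (E := F0 (fixedField H) N)
      ((p : ℕ) : OL A (KI A)) p (D.ηF N) c := by
  letI := algEF D.KI_le N
  letI := algEO A D.KI_le N
  obtain ⟨c, hcK, hcv, hc0, hc1, heq⟩ := D.exists_eis
  let c' : ℕ → OL A (KI A) := fun i => ⟨⟨c i, hcK i⟩, mem_OL.mpr (hcv i)⟩
  have hp' : algebraMap (OL A (KI A)) (F0 (fixedField H) N) ((p : ℕ) : OL A (KI A)) =
      ((p : ℕ) : F0 (fixedField H) N) := map_natCast _ _
  have heqL : (D.ηO : fixedField H) ^ p = ((p : ℕ) : fixedField H) *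
      ∑ i ∈ Finset.range p, (inclusion D.KI_le (c' i : KI A)) * (D.ηO : fixedField H) ^ i := by
    apply (algebraMap (fixedField H) Qb).injective
    rw [map_pow, map_mul, map_natCast, map_sum]
    exact heq
  have heqF : D.ηF N ^ p = algebraMap (OL A (KI A)) (F0 (fixedField H) N) ((p : ℕ) : OL A (KI A)) *
      ∑ i ∈ Finset.range p, algebraMap (OL A (KI A)) (F0 (fixedField H) N) (c' i) *
        D.ηF N ^ i := by
    have h1 := congrArg (algebraMap (fixedField H) (F0 (fixedField H) N)) heqL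
    rw [map_pow, map_mul, map_natCast, map_sum] at h1
    rw [hp']
    refine h1.trans ?_
    congr 1
    refine Finset.sum_congr rfl fun i _ => ?_
    rw [map_mul, map_pow]
    rfl
  refine ⟨c', ⟨heqF, isUnit_iff.mpr hc0, isUnit_iff.mpr hc1, ?_⟩⟩
  -- the monic polynomial
  letI := algO (OL A (KI A)) (F0 (KI A) N)
  haveI := tower_E A D.KI_le N
  obtain ⟨G, hG, hdeg, hroot⟩ : ∃ G : (F0 (KI A) N)[X], G.Monic ∧ G.natDegree = p ∧
      aeval (D.ηF N) G = 0 := by
    refine exists_monic_of_eq (b := fun i => algebraMap (OL A (KI A)) (F0 (KI A) N)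
      (((p : ℕ) : OL A (KI A)) * c' i)) ?_
    rw [heqF, Finset.mul_sum]
    refine Finset.sum_congr rfl fun i _ => ?_
    rw [← IsScalarTower.algebraMap_apply, map_mul]
    ring
  refine span_of (algebraMap (fixedField H) (F0 (fixedField H) N))
    (mem_closure_F0 (inclusion D.KI_le : KI A →+* fixedField H)) D.hp.pos hG hdeg hroot ?_
  intro z
  obtain ⟨b, hb, hz⟩ := D.exists_poly z.2
  refine ⟨fun i => algebraMap (KI A) (F0 (KI A) N) ⟨b i, hb i⟩, ?_⟩
  have hz' : z = ∑ i ∈ Finset.range p, inclusion D.KI_le (⟨b i, hb i⟩ : KI A) *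
      (D.ηO : fixedField H) ^ i := by
    apply (algebraMap (fixedField H) Qb).injective
    rw [map_sum]
    refine Eq.trans hz ?_
    refine Finset.sum_congr rfl fun i _ => ?_
    rw [map_mul, map_pow]
    rfl
  conv_lhs => rw [hz']
  rw [map_sum]
  refine Finset.sum_congr rfl fun i _ => ?_
  rw [map_mul, map_pow]
  congr 1
  exact (F0map_algebraMap (inclusion D.KI_le : KI A →+* fixedField H) N ⟨b i, hb i⟩).symm

end EtaData

/-- The data of `EtaData` from a class `χ`. -/
theorem etaData_of_char {A : ValuationSubring Qb} {p : ℕ} (hp : p.Prime) (hp2 : p ≠ 2)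
    (hA : A.LiesOverPrime p) {N m : ℕ} [NeZero N] (hm : 0 < m) (χ : XG N m) {η : Qb}
    (S : Finset (XG N m)) (hS : S.card ≤ p)
    (hmem : ∀ σ ∈ A.inertiaSubgroupIn ℚ, galX N hm σ χ ∈ S)
    (hfix : ∀ σ ∈ A.inertiaSubgroupIn ℚ, galX N hm σ χ = χ → σ η = η)
    (hval : A.valuation η ^ p = A.valuation (p : Qb))
    (hmov : ∀ σ ∈ A.inertiaSubgroupIn ℚ, galX N hm σ χ ≠ χ →
      A.valuation (σ η - η) ^ (p - 1) = A.valuation (p : Qb)) :
    EtaData A p (A.inertiaSubgroupIn ℚ ⊓ (MulAction.stabilizer (MulAut (XG N m)) χ).comap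
      (galX N hm)) η where
  hp := hp
  hp2 := hp2
  hA := hA
  le := inf_le_left
  fix := fun σ hσ => hfix σ hσ.1 hσ.2
  val := hval
  mov := fun σ hσ h => hmov σ hσ fun h1 => h ⟨hσ, h1⟩
  fin := by
    refine ⟨XG N m, fun σ => galX N hm σ χ, S, hS, hmem, fun σ hσ τ hτ h => ⟨?_, ?_⟩⟩
    · exact (A.inertiaSubgroupIn ℚ).mul_mem ((A.inertiaSubgroupIn ℚ).inv_mem hτ) hσ
    · change galX N hm (τ⁻¹ * σ) χ = χ
      have h' : galX N hm σ χ = galX N hm τ χ := h
      rw [map_mul, map_inv, MulAut.mul_apply, h', ← MulAut.mul_apply, inv_mul_cancel,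
        MulAut.one_apply]

/-- (D) The package. -/
theorem exists_eta_package {A : ValuationSubring Qb} {p : ℕ} (hp : p.Prime) (hp2 : p ≠ 2)
    (hA : A.LiesOverPrime p) {N m : ℕ} [NeZero N] (hm : 0 < m) (χ : XG N m) {η : Qb}
    (S : Finset (XG N m)) (hS : S.card ≤ p)
    (hmem : ∀ σ ∈ A.inertiaSubgroupIn ℚ, galX N hm σ χ ∈ S)
    (hfix : ∀ σ ∈ A.inertiaSubgroupIn ℚ, galX N hm σ χ = χ → σ η = η)
    (hval : A.valuation η ^ p = A.valuation (p : Qb))
    (hmov : ∀ σ ∈ A.inertiaSubgroupIn ℚ, galX N hm σ χ ≠ χ →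
      A.valuation (σ η - η) ^ (p - 1) = A.valuation (p : Qb)) :
    ∃ (L₂ : IntermediateField ℚ Qb) (hle : KI A ≤ L₂) (ϖ : OL A L₂)
      (_ : IsDiscreteValuationRing (OL A L₂)),
      ((ϖ : L₂) : Qb) = η ∧ Irreducible ϖ ∧
      (∃ y : LaurentSeries L₂, y ≠ 0 ∧ XSer (ιL L₂) N χ.1 y) ∧
      ∀ (N' : ℕ) [NeZero N'],
        letI := algEF hle N'
        letI := algEO A hle N'
        ∃ c : ℕ → OL A (KI A), MP.EisExt (OL A (KI A)) (F0 (KI A) N') (E := F0 L₂ N')
          ((p : ℕ) : OL A (KI A)) p (algebraMap L₂ (F0 L₂ N') (ϖ : L₂)) c := by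
  have D := etaData_of_char hp hp2 hA hm χ S hS hmem hfix hval hmov
  exact ⟨_, D.KI_le, D.ηO, D.dvr, rfl, D.irreducible_ηO,
    exists_xSer_fix hm χ _ (fun σ hσ => hσ.2), fun N' _ => D.exists_eisExt N'⟩

end Fermat.Agent.PR
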