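import Mathlib
import Fermat.Agent.MP.Genus0

/-!
Values of rational functions at places.
-/

set_option autoImplicit false
set_option linter.unusedSectionVars false
set_option linter.unusedVariables false

open IsLocalRing Polynomial

universe u

namespace Fermat.Agent.PR

open Fermat.Agent.Geo Fermat.Agent.CA Fermat.Agent.MP

section

variable {k κ : Type u} [Field k] [Field κ] [Algebra k κ] {V : ValuationSubring κ}

theorem v_const (hc : ∀ b : k, algebraMap k κ b ∈ V) {b : k} (hb : b ≠ 0) :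
    V.valuation (algebraMap k κ b) = 1 := by
  have h1 := (V.valuation_le_one_iff _).mpr (hc b)
  have h2 := (V.valuation_le_one_iff _).mpr (hc b⁻¹)
  refine le_antisymm h1 ?_
  have h3 : V.valuation (algebraMap k κ b) * V.valuation (algebraMap k κ b⁻¹) = 1 := by
    rw [← map_mul, ← map_mul, mul_inv_cancel₀ hb, map_one, map_one]
  calc (1 : V.ValueGroup) = V.valuation (algebraMap k κ b) * V.valuation (algebraMap k κ b⁻¹) :=
        h3.symm
    _ ≤ V.valuation (algebraMap k κ b) * 1 := mul_le_mul_right h2 _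
    _ = _ := mul_one _

theorem v_aeval_le (hc : ∀ b : k, algebraMap k κ b ∈ V) {z : κ} (hz : V.valuation z ≤ 1)
    (Q : k[X]) : V.valuation (aeval z Q) ≤ 1 := by
  rw [V.valuation_le_one_iff] at hz ⊢
  rw [aeval_eq_sum_range]
  refine sum_mem fun i _ => ?_
  rw [Algebra.smul_def]
  exact mul_mem (hc _) (pow_mem hz _)

theorem v_aeval_eq (hc : ∀ b : k, algebraMap k κ b ∈ V) {z : κ} {a : k}
    (hz : V.valuation (z - algebraMap k κ a) < 1) {R : k[X]} (hR : R.eval a ≠ 0) :
    V.valuation (aeval z R) = 1 := by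
  have hz1 : V.valuation z ≤ 1 := by
    have e : z = (z - algebraMap k κ a) + algebraMap k κ a := by ring
    rw [e]
    refine (V.valuation.map_add _ _).trans (max_le hz.le ?_)
    exact (V.valuation_le_one_iff _).mpr (hc a)
  obtain ⟨Q, hQ⟩ : (X - C a) ∣ R - C (R.eval a) := by
    rw [dvd_iff_isRoot, IsRoot, eval_sub, eval_C, sub_self]
  have e : aeval z R = (z - algebraMap k κ a) * aeval z Q + algebraMap k κ (R.eval a) := by
    have h1 := congrArg (aeval z) hQ
    rw [map_sub, map_mul, map_sub, aeval_X, aeval_C, aeval_C] at h1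
    linear_combination h1
  have h1 : V.valuation ((z - algebraMap k κ a) * aeval z Q) < 1 := by
    rw [map_mul]
    calc _ ≤ V.valuation (z - algebraMap k κ a) * 1 := mul_le_mul_right (v_aeval_le hc hz1 Q) _
      _ < 1 := by rw [mul_one]; exact hz
  have h2 := v_const hc hR
  rw [e]
  rw [← h2] at h1
  rw [Valuation.map_add_eq_of_lt_right _ h1, h2]

theorem uc_of_v {z : κ} (h : V.valuation z = 1) : z ≠ 0 ∧ z ∈ V ∧ z⁻¹ ∈ V := by
  refine ⟨?_, ?_, ?_⟩
  · rintro rfl
    rw [map_zero] at h
    exact zero_ne_one h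
  · rw [← V.valuation_le_one_iff, h]
  · rw [← V.valuation_le_one_iff, map_inv₀, h, inv_one]

theorem v_of_pow {z : κ} {n : ℕ} (hn : n ≠ 0) (h : V.valuation (z ^ n) = 1) :
    V.valuation z = 1 := by
  rw [map_pow] at h
  exact (pow_eq_one_iff_of_nonneg zero_le' hn).mp h

theorem v_of_mem {z : κ} (h1 : z ∈ V) (h2 : z⁻¹ ∈ V) (h0 : z ≠ 0) : V.valuation z = 1 := by
  have h3 := (V.valuation_le_one_iff _).mpr h1
  have h4 := (V.valuation_le_one_iff _).mpr h2
  refine le_antisymm h3 ?_
  have h5 : V.valuation z * V.valuation z⁻¹ = 1 := by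
    rw [← map_mul, mul_inv_cancel₀ h0, map_one]
  calc (1 : V.ValueGroup) = V.valuation z * V.valuation z⁻¹ := h5.symm
    _ ≤ V.valuation z * 1 := mul_le_mul_right h4 _
    _ = _ := mul_one _

end

section

variable {k κ : Type u} [Field k] [Field κ] [Algebra k κ] {X' : κ}

/-- at a place with `1/X = 0` -/
theorem v_aeval_inv {V : ValuationSubring κ} (hc : ∀ b : k, algebraMap k κ b ∈ V) (hX : X' ≠ 0)
    (hz : V.valuation X'⁻¹ < 1) {R : k[X]} (hR : R ≠ 0) :
    V.valuation (aeval X' R / X' ^ R.natDegree) = 1 := by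
  have h1 : aeval X' R / X' ^ R.natDegree = aeval X'⁻¹ R.reverse := by
    let := invertibleOfNonzero hX
    have h := eval₂_reverse_mul_pow (algebraMap k κ) X' R
    rw [invOf_eq_inv] at h
    rw [aeval_def, aeval_def, ← h, mul_div_cancel_right₀ _ (pow_ne_zero _ hX)]
  rw [h1]
  refine v_aeval_eq hc (a := 0) (by rwa [map_zero, sub_zero]) ?_
  rw [← coeff_zero_eq_eval_zero, coeff_zero_reverse, Ne, leadingCoeff_eq_zero]
  exact hR

end

end Fermat.Agent.PR
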