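import Mathlib
import Fermat.Agent.CA.Model
import Fermat.Agent.CA.Tri
import Fermat.Agent.CA.Cross
import Fermat.Agent.CA.Cusp2
import Fermat.Agent.CA.CuspV

/-!
Curves with two components: the abstract structure of the reduction of `X₀(qM)`.
-/

set_option autoImplicit false
set_option linter.unusedSectionVars false
set_option linter.style.haveILetI false
set_option linter.unusedVariables false

open IsLocalRing Polynomial

universe u

namespace Fermat.Agent.PR

open Fermat.Agent.Geo Fermat.Agent.LG Fermat.Agent.CA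

/-- The data of a curve with two components `P 0` (`= P_∞`), `P 1` (`= P_0`). -/
structure Duo {O K M F : Type u} [CommRing O] [IsDomain O] [IsDiscreteValuationRing O]
    [Field K] [Field M] [Field F] [Algebra O K] [Algebra O M] [Algebra O F] [Algebra K M]
    [Algebra K F] [Algebra M F] [IsScalarTower O K M] [IsScalarTower O K F]
    {t : K} {π : O} (ht : IsParam O t) (hπ : Prime π) (q : ℕ)
    (c : ℕ → ℤ[X]) (C₀ : ℤ) (P : Fin 2 → ValuationSubring F) (w : F ≃+* F) : Prop where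
  sys : CompSys ht hπ P
  prime : q.Prime
  hq : (q : O) = π
  wO : ∀ a, w (algebraMap O F a) = algebraMap O F a
  ww : ∀ x, w (w x) = x
  wP : ∀ x, w x ∈ P 0 ↔ x ∈ P 1
  res0 : ∀ x ∈ P 0, ∃ f : M, algebraMap M F f ∈ P 0 ∧ x - algebraMap M F f ∈ (P 0).nonunits
  unif0 : ∀ x ∈ (P 0).nonunits, x / algebraMap O F π ∈ P 0
  X1_0 : w (algebraMap K F t) - algebraMap K F t ^ q ∈ (P 0).nonunits
  shape : KShape q c
  rel : MRel q c (w (algebraMap K F t)) (algebraMap K F t)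
  C0 : IsUnit ((C₀ : ℤ) : O)
  relu : MRel q c ((C₀ : F) / w (algebraMap K F t)) ((C₀ : F) / algebraMap K F t)
  gm : GModel ht hπ ((P 0).comap (algebraMap M F))

section

variable {O K M F : Type u} [CommRing O] [IsDomain O] [IsDiscreteValuationRing O] [CharZero O]
  [Field K] [Field M] [Field F] [Algebra O K] [Algebra O M] [Algebra O F] [Algebra K M]
  [Algebra K F] [Algebra M F] [IsScalarTower O K M] [IsScalarTower O K F] [IsScalarTower K M F]
  [IsScalarTower O M F]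
  {t : K} {π : O} [FiniteDimensional K M] [Algebra.IsSeparable K M]
  [FiniteDimensional K F] [Algebra.IsSeparable K F]
  {ht : IsParam O t} {hπ : Prime π} {q : ℕ} {c : ℕ → ℤ[X]} {C₀ : ℤ}
  {P : Fin 2 → ValuationSubring F} {w : F ≃+* F}

namespace Duo

variable (T : Duo (M := M) ht hπ q c C₀ P w)

include T

theorem tF_ne : algebraMap K F t ≠ 0 := by
  rw [Ne, map_eq_zero]; exact ht.ne_zero

theorem O_mem (i : Fin 2) (a : O) : algebraMap O F a ∈ P i :=
  mem_of_intOver (T.sys.ov i).1 (intOver_of_mem_chart ht hπ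
    ((chart O (algebraMap K F t)).algebraMap_mem a))

theorem π_nonunit (i : Fin 2) : algebraMap O F π ∈ (P i).nonunits := by
  have := (T.sys.ov i).2
  rwa [← IsScalarTower.algebraMap_apply] at this

theorem π_ne : algebraMap O F π ≠ 0 := pi_ne_zero ht hπ

theorem q_cast : ((q : ℕ) : F) = algebraMap O F π := by
  rw [← T.hq, map_natCast]

theorem C0F : ((C₀ : ℤ) : F) = algebraMap O F (C₀ : O) := (map_intCast _ _).symm

theorem C0_ne : ((C₀ : ℤ) : F) ≠ 0 := by
  rw [T.C0F]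
  intro h
  have h1 := coe_notMem_nonunits_of_unit (T.O_mem 0) T.C0
  rw [h] at h1
  exact h1 (zero_mem_nonunits _)

theorem C0_inv_mem (i : Fin 2) : ((C₀ : ℤ) : F)⁻¹ ∈ P i := by
  rw [T.C0F]
  exact inv_mem_of_notMem_nonunits (coe_notMem_nonunits_of_unit (T.O_mem i) T.C0)

theorem w0_nonunits (x : F) : w x ∈ (P 0).nonunits ↔ x ∈ (P 1).nonunits := by
  have : P 1 = (P 0).comap (w : F →+* F) := by
    ext x; exact (T.wP x).symm
  rw [this]
  exact (comap_mem_nonunits (P 0) (w : F →+* F) x).symm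

theorem w1_mem (x : F) : w x ∈ P 1 ↔ x ∈ P 0 := by
  rw [← T.wP, T.ww]

theorem w1_nonunits (x : F) : w x ∈ (P 1).nonunits ↔ x ∈ (P 0).nonunits := by
  rw [← T.w0_nonunits, T.ww]

theorem unif1 (x : F) (hx : x ∈ (P 1).nonunits) : x / algebraMap O F π ∈ P 1 := by
  rw [← T.wP, map_div₀, T.wO]
  exact T.unif0 _ ((T.w0_nonunits x).mpr hx)

theorem t_mem (i : Fin 2) : algebraMap K F t ∈ P i :=
  chart_mem_over (T.sys.ov i) (self_mem_chart _)

theorem t_inv_mem (i : Fin 2) : (algebraMap K F t)⁻¹ ∈ P i := by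
  rw [← map_inv₀]
  exact (T.sys.ov i).1 _ (by
    have := aeval_inv_mem_gauss ht hπ (B := X) (by
      intro h
      have h1 := (C_dvd_iff_dvd_coeff _ _).mp h 1
      rw [coeff_X_one] at h1
      exact hπ.not_unit (isUnit_of_dvd_one h1))
    rwa [aeval_X] at this)

theorem X2_ne : w (algebraMap K F t) ≠ 0 := by
  rw [Ne, map_eq_zero_iff w w.injective]; exact T.tF_ne

/-- relations -/
theorem rel' : MRel q c (algebraMap K F t) (w (algebraMap K F t)) := by
  have h := congrArg w T.rel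
  simp only [map_sum, map_mul, map_pow, map_zero, T.ww] at h
  change ∑ i ∈ Finset.range (q + 2), _ = 0
  rw [← h]
  refine Finset.sum_congr rfl fun i _ => ?_
  congr 1
  rw [aeval_def, aeval_def, ← RingEquiv.coe_toRingHom, hom_eval₂]
  congr 1
  exact RingHom.ext_int _ _

theorem wC0 : w ((C₀ : ℤ) : F) = ((C₀ : ℤ) : F) := map_intCast w C₀

theorem relu' : MRel q c ((C₀ : F) / algebraMap K F t) ((C₀ : F) / w (algebraMap K F t)) := by
  have h := congrArg w T.relu
  simp only [map_sum, map_mul, map_pow, map_div₀, T.wC0, map_zero, T.ww] at h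
  change ∑ i ∈ Finset.range (q + 2), _ = 0
  rw [← h]
  refine Finset.sum_congr rfl fun i _ => ?_
  congr 1
  rw [aeval_def, aeval_def, ← RingEquiv.coe_toRingHom, hom_eval₂, RingEquiv.coe_toRingHom,
    map_div₀, T.wC0]
  congr 1
  exact RingHom.ext_int _ _

/-! ### stability of the charts -/

theorem X2_chart : w (algebraMap K F t) ∈ chart O (algebraMap K F t) :=
  MRel.mem_chart T.shape T.rel (self_mem_chart _)

theorem C0_mem_chart (u : F) : ((C₀ : ℤ) : F) ∈ chart O u := by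
  rw [T.C0F]; exact (chart O u).algebraMap_mem _

theorem C0_inv_mem_chart (u : F) : ((C₀ : ℤ) : F)⁻¹ ∈ chart O u := by
  obtain ⟨v, hv⟩ := T.C0
  have : ((C₀ : ℤ) : F)⁻¹ = algebraMap O F (↑v⁻¹ : O) := by
    rw [T.C0F, ← hv]
    apply inv_eq_of_mul_eq_one_right
    rw [← map_mul, Units.mul_inv, map_one]
  rw [this]; exact (chart O u).algebraMap_mem _

theorem X2_inv_chart : (w (algebraMap K F t))⁻¹ ∈ chart O (algebraMap K F t⁻¹) := by
  have h1 : (C₀ : F) / algebraMap K F t ∈ chart O (algebraMap K F t⁻¹) := by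
    rw [div_eq_mul_inv, ← map_inv₀]
    exact mul_mem (T.C0_mem_chart _) (self_mem_chart _)
  have h2 := MRel.mem_chart T.shape T.relu h1
  have h3 := mul_mem (T.C0_inv_mem_chart _) h2
  rwa [div_eq_mul_inv, ← mul_assoc, inv_mul_cancel₀ T.C0_ne, one_mul] at h3

theorem w_aeval (u : F) (r : O[X]) : w (aeval u r) = aeval (w u) r := by
  have h1 : (w : F →+* F).comp ((aeval u : O[X] →ₐ[O] F) : O[X] →+* F) =
      ((aeval (w u) : O[X] →ₐ[O] F) : O[X] →+* F) := by
    apply Polynomial.ringHom_ext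
    · intro a; simp [T.wO]
    · simp
  exact congrArg (fun f : O[X] →+* F => f r) h1

theorem w_eval₂ (u x : F) (p : O[X][X]) :
    w (p.eval₂ ((aeval u : O[X] →ₐ[O] F) : O[X] →+* F) x) =
      p.eval₂ ((aeval (w u) : O[X] →ₐ[O] F) : O[X] →+* F) (w x) := by
  have h1 : (w : F →+* F).comp ((aeval u : O[X] →ₐ[O] F) : O[X] →+* F) =
      ((aeval (w u) : O[X] →ₐ[O] F) : O[X] →+* F) := by
    apply Polynomial.ringHom_ext
    · intro a; simp [T.wO]
    · simp
  rw [← RingEquiv.coe_toRingHom, hom_eval₂, h1]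
  rfl

theorem w_chart_of {s : K} (hs : w (algebraMap K F s) ∈ chart O (algebraMap K F s)) {x : F}
    (hx : x ∈ chart O (algebraMap K F s)) : w x ∈ chart O (algebraMap K F s) := by
  obtain ⟨p, hp, hpx⟩ := hx
  refine chart_trans hs ⟨p, hp, ?_⟩
  rw [← T.w_eval₂, hpx, map_zero]

theorem w_chart {x : F} (hx : x ∈ chart O (algebraMap K F t)) :
    w x ∈ chart O (algebraMap K F t) := T.w_chart_of T.X2_chart hx

theorem w_chart' {x : F} (hx : x ∈ chart O (algebraMap K F t⁻¹)) :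
    w x ∈ chart O (algebraMap K F t⁻¹) := by
  refine T.w_chart_of ?_ hx
  rw [map_inv₀, map_inv₀, ← map_inv₀ (algebraMap K F)]
  exact T.X2_inv_chart

/-! ### normality -/

theorem comapM_nonunits (f : M) : f ∈ ((P 0).comap (algebraMap M F)).nonunits ↔
    algebraMap M F f ∈ (P 0).nonunits := comap_mem_nonunits _ _ _

theorem aevalM (r : O[X]) {s : K} : algebraMap M F (aeval (algebraMap K M s) r) =
    aeval (algebraMap K F s) r := by
  rw [← aeval_algebraMap_apply, ← IsScalarTower.algebraMap_apply]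

theorem eval₂M (p : O[X][X]) (s : K) (f : M) :
    algebraMap M F (p.eval₂ ((aeval (algebraMap K M s) : O[X] →ₐ[O] M) : O[X] →+* M) f) =
      p.eval₂ ((aeval (algebraMap K F s) : O[X] →ₐ[O] F) : O[X] →+* F) (algebraMap M F f) := by
  rw [hom_eval₂]
  congr 1
  apply Polynomial.ringHom_ext
  · intro a; simp [← IsScalarTower.algebraMap_apply]
  · simp [← IsScalarTower.algebraMap_apply]

theorem chartM {s : K} {b : M} (hb : b ∈ chart O (algebraMap K M s)) :
    algebraMap M F b ∈ chart O (algebraMap K F s) := chart_up hb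

/-- normality along `P 0` -/
theorem normal0 {x : F} (hx : x ∈ P 0) (p : O[X][X]) (hp : p.Monic)
    (hpx : p.eval₂ ((aeval (algebraMap K F t) : O[X] →ₐ[O] F) : O[X] →+* F) x ∈
      (P 0).nonunits) :
    ∃ b ∈ chart O (algebraMap K M t), x - algebraMap M F b ∈ (P 0).nonunits := by
  obtain ⟨f, hf, hxf⟩ := T.res0 x hx
  have h1 := eval₂_congr_mod (T.O_mem 0) (T.t_mem 0) hx (u' := algebraMap K F t)
    (by rw [sub_self]; exact zero_mem_nonunits _) hxf p hpx
  rw [← T.eval₂M, ← T.comapM_nonunits] at h1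
  obtain ⟨b, hb, hfb⟩ := T.gm.normal p hp h1
  refine ⟨b, hb, ?_⟩
  rw [T.comapM_nonunits, map_sub] at hfb
  have := nonunits_add hxf hfb
  rwa [sub_add_sub_cancel] at this

/-- substitution of `X ^ n` in the coefficients -/
theorem eval₂_expand (n : ℕ) (u x : F) (p : O[X][X]) :
    (p.map ((expand O n : O[X] →ₐ[O] O[X]) : O[X] →+* O[X])).eval₂
      ((aeval u : O[X] →ₐ[O] F) : O[X] →+* F) x =
      p.eval₂ ((aeval (u ^ n) : O[X] →ₐ[O] F) : O[X] →+* F) x := by
  rw [eval₂_map]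
  congr 1
  apply Polynomial.ringHom_ext
  · intro a; simp
  · simp

theorem normal1 {x : F} (hx : x ∈ P 1) (p : O[X][X]) (hp : p.Monic)
    (hpx : p.eval₂ ((aeval (algebraMap K F t) : O[X] →ₐ[O] F) : O[X] →+* F) x ∈
      (P 1).nonunits) :
    ∃ b ∈ chart O (algebraMap K M t), x - w (algebraMap M F b) ∈ (P 1).nonunits := by
  have hwx : w x ∈ P 0 := (T.wP x).mpr hx
  rw [← T.w0_nonunits, T.w_eval₂] at hpx
  have h1 := eval₂_congr_mod (T.O_mem 0) ((T.wP _).mpr (T.t_mem 1)) hwx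
    (u' := algebraMap K F t ^ q) T.X1_0 (x' := w x)
    (by rw [sub_self]; exact zero_mem_nonunits _) p hpx
  rw [← T.eval₂_expand] at h1
  obtain ⟨b, hb, hxb⟩ := T.normal0 hwx _ (hp.map _) h1
  refine ⟨b, hb, ?_⟩
  rw [← T.w0_nonunits, map_sub, T.ww]
  exact hxb

/-! the chart at infinity -/

theorem normal0' {x : F} (hx : x ∈ P 0) (p : O[X][X]) (hp : p.Monic)
    (hpx : p.eval₂ ((aeval (algebraMap K F t⁻¹) : O[X] →ₐ[O] F) : O[X] →+* F) x ∈
      (P 0).nonunits) :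
    ∃ s : O[X], IsUnit (s.coeff 0) ∧ ∃ b ∈ chart O (algebraMap K M t⁻¹),
      aeval (algebraMap K F t⁻¹) s * x - algebraMap M F b ∈ (P 0).nonunits := by
  obtain ⟨f, hf, hxf⟩ := T.res0 x hx
  have hti : algebraMap K F t⁻¹ ∈ P 0 := by rw [map_inv₀]; exact T.t_inv_mem 0
  have h1 := eval₂_congr_mod (T.O_mem 0) hti hx (u' := algebraMap K F t⁻¹)
    (by rw [sub_self]; exact zero_mem_nonunits _) hxf p hpx
  rw [← T.eval₂M, ← T.comapM_nonunits] at h1
  obtain ⟨s, hs, b, hb, hfb⟩ := T.gm.normal_inv ht.inv p hp h1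
  refine ⟨s, hs, b, hb, ?_⟩
  rw [T.comapM_nonunits, map_sub, map_mul, T.aevalM] at hfb
  have hsP : aeval (algebraMap K F t⁻¹) s ∈ P 0 := by
    rw [aeval_eq_sum_range]
    refine sum_mem fun i _ => ?_
    rw [Algebra.smul_def]
    exact (P 0).mul_mem _ _ (T.O_mem 0 _) (pow_mem hti _)
  have := nonunits_add (mul_mem_nonunits hsP hxf) hfb
  rwa [mul_sub, sub_add_sub_cancel] at this

theorem X2inv_sub : w (algebraMap K F t⁻¹) - algebraMap K F t⁻¹ ^ q ∈ (P 0).nonunits := by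
  rw [map_inv₀, map_inv₀]
  have h1 := T.X1_0
  have h2 : (w (algebraMap K F t))⁻¹ ∈ P 0 := by
    rw [← map_inv₀, T.wP]; exact T.t_inv_mem 1
  have h3 := mul_mem_nonunits (mul_mem h2 (pow_mem (T.t_inv_mem 0) q)) (nonunits_neg h1)
  have h4 := T.X2_ne
  have h5 := T.tF_ne
  have e : (w (algebraMap K F t))⁻¹ * (algebraMap K F t)⁻¹ ^ q *
      -(w (algebraMap K F t) - algebraMap K F t ^ q) =
      (w (algebraMap K F t))⁻¹ - (algebraMap K F t)⁻¹ ^ q := by
    rw [inv_pow]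
    field_simp
    ring
  rwa [e] at h3

theorem normal1' {x : F} (hx : x ∈ P 1) (p : O[X][X]) (hp : p.Monic)
    (hpx : p.eval₂ ((aeval (algebraMap K F t⁻¹) : O[X] →ₐ[O] F) : O[X] →+* F) x ∈
      (P 1).nonunits) :
    ∃ s : O[X], IsUnit (s.coeff 0) ∧ ∃ b ∈ chart O (algebraMap K M t⁻¹),
      w (aeval (algebraMap K F t⁻¹) s) * x - w (algebraMap M F b) ∈ (P 1).nonunits := by
  have hwx : w x ∈ P 0 := (T.wP x).mpr hx
  rw [← T.w0_nonunits, T.w_eval₂] at hpx
  have hti : algebraMap K F t⁻¹ ∈ P 1 := by rw [map_inv₀]; exact T.t_inv_mem 1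
  have h1 := eval₂_congr_mod (T.O_mem 0) ((T.wP _).mpr hti) hwx
    (u' := algebraMap K F t⁻¹ ^ q) T.X2inv_sub (x' := w x)
    (by rw [sub_self]; exact zero_mem_nonunits _) p hpx
  rw [← T.eval₂_expand] at h1
  obtain ⟨s, hs, b, hb, hxb⟩ := T.normal0' hwx _ (hp.map _) h1
  refine ⟨s, hs, b, hb, ?_⟩
  rw [← T.w0_nonunits, map_sub, map_mul, T.ww, T.ww]
  exact hxb

theorem sys' : CompSys ht.inv hπ P where
  ov i := by rw [gaussVal_inv ht ht.inv hπ]; exact T.sys.ov i
  all W hW := T.sys.all W (by rwa [gaussVal_inv ht ht.inv hπ] at hW)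
  rank := T.sys.rank

theorem X2_mem (i : Fin 2) : w (algebraMap K F t) ∈ P i :=
  chart_mem_over (T.sys.ov i) T.X2_chart

theorem X2_inv_mem (i : Fin 2) : (w (algebraMap K F t))⁻¹ ∈ P i :=
  chart_mem_over (T.sys'.ov i) T.X2_inv_chart

theorem C0_mem (i : Fin 2) : ((C₀ : ℤ) : F) ∈ P i := by
  rw [T.C0F]; exact T.O_mem i _

theorem q_nonunit (i : Fin 2) : ((q : ℕ) : F) ∈ (P i).nonunits := by
  rw [T.q_cast]; exact T.π_nonunit i

/-! ### valuation rings at points -/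

theorem valAt {y : Ideal (chart O (algebraMap K F t))} [hy : y.IsPrime] (i : Fin 2)
    (hm : Meets y (P i)) : ValAt y (P i) := by
  refine valAt_of_normal (T.sys.ov i) hm fun x hx p hp hpx => ?_
  match i with
  | 0 =>
    obtain ⟨b, hb, hxb⟩ := T.normal0 hx p hp hpx
    exact ⟨_, mem_locS_of_mem (T.chartM hb), hxb⟩
  | 1 =>
    obtain ⟨b, hb, hxb⟩ := T.normal1 hx p hp hpx
    exact ⟨_, mem_locS_of_mem (T.w_chart (T.chartM hb)), hxb⟩

theorem aeval_unit {C : Subalgebra O F} {y : Ideal C} [hy : y.IsPrime] {u : F}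
    (hu : locM y u) {s : O[X]} (hs : IsUnit (s.coeff 0)) :
    aeval u s ∈ locS y ∧ ¬ locM y (aeval u s) := by
  have hO : ∀ a : O, algebraMap O F a ∈ locS y := fun a =>
    mem_locS_of_mem (C.algebraMap_mem a)
  have h1 : aeval u s = algebraMap O F (s.coeff 0) + u * aeval u s.divX := by
    conv_lhs => rw [← divX_mul_X_add s]
    rw [map_add, map_mul, aeval_X, aeval_C]
    ring
  have h2 : aeval u s.divX ∈ locS y := by
    rw [aeval_eq_sum_range]
    refine Subring.sum_mem _ fun i _ => ?_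
    rw [Algebra.smul_def]
    exact Subring.mul_mem _ (hO _) (Subring.pow_mem _ hu.mem _)
  have h3 : locM y (u * aeval u s.divX) := hu.mul_right h2
  rw [h1]
  refine ⟨Subring.add_mem _ (hO _) h3.mem, fun h => ?_⟩
  have h4 := h.sub h3
  rw [add_sub_cancel_right] at h4
  obtain ⟨v, hv⟩ := hs
  have h5 := h4.mul_right (hO (↑v⁻¹ : O))
  rw [← map_mul, ← hv, Units.mul_inv, map_one] at h5
  exact not_locM_one h5

end Duo

/-- the functions `t`, `t_q` (or `C₀/t`, ...) near a cusp -/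
structure CDuo {F : Type u} [Field F] (q : ℕ) (c : ℕ → ℤ[X]) (P : Fin 2 → ValuationSubring F)
    (X₀ X₁ : F) : Prop where
  rel01 : MRel q c X₁ X₀
  rel10 : MRel q c X₀ X₁
  n0 : X₀ ≠ 0
  n1 : X₁ ≠ 0
  m0 : ∀ i, X₀⁻¹ ∈ P i
  m1 : ∀ i, X₁⁻¹ ∈ P i
  c10 : X₁ - X₀ ^ q ∈ (P 0).nonunits
  c01 : X₀ - X₁ ^ q ∈ (P 1).nonunits

namespace CDuo

section

variable {O K F : Type u} [CommRing O] [IsDomain O] [IsDiscreteValuationRing O]
  [Field K] [Field F] [Algebra O K] [Algebra O F] [Algebra K F] [IsScalarTower O K F]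
  {s : K} {π : O} [FiniteDimensional K F] [Algebra.IsSeparable K F]
  {hs : IsParam O s} {hπ : Prime π} {P : Fin 2 → ValuationSubring F} {q : ℕ} {c : ℕ → ℤ[X]}
  {y : Ideal (chart O (algebraMap K F s))} [hy : y.IsPrime] {X₀ X₁ : F}
  (h : CDuo q c P X₀ X₁) (hc : KShape q c) (hS : CompSys hs hπ P)

include h hc in
theorem locs (hq : locM y ((q : ℕ) : F)) (hM : locM y X₀⁻¹) :
    locM y X₁⁻¹ ∧ X₁ / X₀ ^ q ∈ locS y ∧ X₀ / X₁ ^ q ∈ locS y := by
  have h1 := hc.inv_locM hq h.n1 h.n0 h.rel01 hM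
  exact ⟨h1, hc.quot_locS h.n0 h.rel01 hM.mem, hc.quot_locS h.n1 h.rel10 h1.mem⟩

include h hc hS in
theorem unit0 (hq : locM y ((q : ℕ) : F)) (hM : locM y X₀⁻¹) (hm : Meets y (P 0)) :
    ¬ locM y (X₁ / X₀ ^ q) :=
  unit_of_cong (hS.ov 0) hm (pow_ne_zero _ h.n0) (by rw [← inv_pow]; exact pow_mem (h.m0 0) _)
      h.c10 (h.locs hc hq hM).2.1

include h hc hS in
theorem unit1 (hq : locM y ((q : ℕ) : F)) (hM : locM y X₀⁻¹) (hm : Meets y (P 1)) :
    ¬ locM y (X₀ / X₁ ^ q) :=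
  unit_of_cong (hS.ov 1) hm (pow_ne_zero _ h.n1) (by rw [← inv_pow]; exact pow_mem (h.m1 1) _)
      h.c01 (h.locs hc hq hM).2.2

include h hc hS in
theorem disj (hq : locM y ((q : ℕ) : F)) (hM : locM y X₀⁻¹) :
    Meets y (P 0) → Meets y (P 1) → False := by
  intro m0 m1
  obtain ⟨h1, l1, l2⟩ := h.locs hc hq hM
  exact cusp_contra hc.two_le h.n1 h.n0 h.n0 hM l1 (h.unit0 hc hS hq hM m0) l2
    (h.unit1 hc hS hq hM m1)

end

end CDuo

namespace Duo

variable (T : Duo (M := M) ht hπ q c C₀ P w)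

include T

theorem cduo : CDuo q c P (algebraMap K F t) (w (algebraMap K F t)) where
  rel01 := T.rel
  rel10 := T.rel'
  n0 := T.tF_ne
  n1 := T.X2_ne
  m0 := T.t_inv_mem
  m1 := T.X2_inv_mem
  c10 := T.X1_0
  c01 := by
    have := (T.w1_nonunits _).mpr T.X1_0
    rwa [map_sub, map_pow, T.ww] at this

theorem cduo' : CDuo q c P ((C₀ : F) / algebraMap K F t) ((C₀ : F) / w (algebraMap K F t)) where
  rel01 := T.relu
  rel10 := T.relu'
  n0 := div_ne_zero T.C0_ne T.tF_ne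
  n1 := div_ne_zero T.C0_ne T.X2_ne
  m0 i := by rw [inv_div, div_eq_mul_inv]; exact mul_mem (T.t_mem i) (T.C0_inv_mem i)
  m1 i := by rw [inv_div, div_eq_mul_inv]; exact mul_mem (T.X2_mem i) (T.C0_inv_mem i)
  c10 := inv_cong T.X2_ne T.tF_ne (T.X2_inv_mem 0) (T.t_inv_mem 0) (T.C0_mem 0)
    (int_pow_sub T.prime (T.q_nonunit 0) _) T.cduo.c10
  c01 := inv_cong T.tF_ne T.X2_ne (T.t_inv_mem 1) (T.X2_inv_mem 1) (T.C0_mem 1)
    (int_pow_sub T.prime (T.q_nonunit 1) _) T.cduo.c01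

theorem valAt' {y : Ideal (chart O (algebraMap K F t⁻¹))} [hy : y.IsPrime]
    (hty : locM y (algebraMap K F t)⁻¹) (i : Fin 2)
    (hm : Meets y (P i)) : ValAt y (P i) := by
  have hqM : locM y ((q : ℕ) : F) := locM_of_nonunits (T.sys'.ov i) hm
    (natCast_mem _ _) (T.q_nonunit i)
  obtain ⟨h1, -⟩ := T.cduo.locs T.shape hqM hty
  refine valAt_of_normal (T.sys'.ov i) hm fun x hx p hp hpx => ?_
  have hti : algebraMap K F t⁻¹ = (algebraMap K F t)⁻¹ := map_inv₀ _ _
  match i with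
  | 0 =>
    obtain ⟨s, hs, b, hb, hxb⟩ := T.normal0' hx p hp hpx
    obtain ⟨u1, u2⟩ := T.aeval_unit hty hs
    rw [← hti] at u1 u2
    refine ⟨(aeval (algebraMap K F t⁻¹) s)⁻¹ * algebraMap M F b, Subring.mul_mem _
      (inv_mem_of_not_locM u1 u2) (mem_locS_of_mem (T.chartM hb)), ?_⟩
    obtain ⟨v1, v2, v3⟩ := meets_notMem (T.sys'.ov 0) hm u1 u2
    have hs0 : aeval (algebraMap K F t⁻¹) s ≠ 0 := fun h => by
      rw [h] at v3; exact v3 (zero_mem_nonunits _)
    have e : x - (aeval (algebraMap K F t⁻¹) s)⁻¹ * algebraMap M F b =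
      (aeval (algebraMap K F t⁻¹) s)⁻¹ * (aeval (algebraMap K F t⁻¹) s * x -
        algebraMap M F b) := inv_sub_eq hs0 _ _
    rw [e]
    exact mul_mem_nonunits v2 hxb
  | 1 =>
    obtain ⟨s, hs, b, hb, hxb⟩ := T.normal1' hx p hp hpx
    have h3 : locM y (w (algebraMap K F t⁻¹)) := by
      have e : w (algebraMap K F t⁻¹) = (w (algebraMap K F t))⁻¹ := by rw [hti, map_inv₀]
      rw [e]; exact h1
    obtain ⟨u1, u2⟩ := T.aeval_unit h3 hs
    rw [← T.w_aeval] at u1 u2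
    refine ⟨(w (aeval (algebraMap K F t⁻¹) s))⁻¹ * w (algebraMap M F b), Subring.mul_mem _
      (inv_mem_of_not_locM u1 u2) (mem_locS_of_mem (T.w_chart' (T.chartM hb))), ?_⟩
    obtain ⟨v1, v2, v3⟩ := meets_notMem (T.sys'.ov 1) hm u1 u2
    have hs0 : w (aeval (algebraMap K F t⁻¹) s) ≠ 0 := fun h => by
      rw [h] at v3; exact v3 (zero_mem_nonunits _)
    have e : x - (w (aeval (algebraMap K F t⁻¹) s))⁻¹ * w (algebraMap M F b) =
      (w (aeval (algebraMap K F t⁻¹) s))⁻¹ * (w (aeval (algebraMap K F t⁻¹) s) * x -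
        w (algebraMap M F b)) := inv_sub_eq hs0 _ _
    rw [e]
    exact mul_mem_nonunits v2 hxb

end Duo

end

end Fermat.Agent.PR
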