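import Mathlib
import Fermat.Agent.PR.Duo
import Fermat.Agent.LG.Conc3
import Fermat.Agent.CB5.Kron
import Fermat.Agent.CA.TriC

/-!
The two components of the reduction of `X₀(qM)`, seen over the `t`-line.
-/

set_option autoImplicit false
set_option linter.unusedSectionVars false
set_option linter.style.haveILetI false
set_option linter.unusedVariables false

open IsLocalRing Polynomial ModularCurve

noncomputable section

universe u

namespace Fermat.Agent.PR

open Fermat.Agent.Geo Fermat.Agent.LG Fermat.Agent.CA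

section Alg

/-- An element which is integral over the ring generated by an element algebraic over the residue
field is not residually transcendental. -/
theorem over_of_chart {O K₁ K F : Type u} [CommRing O] [IsDomain O] [IsDiscreteValuationRing O]
    [Field K₁] [Field K] [Field F] [Algebra O K₁] [Algebra O K] [Algebra O F] [Algebra K₁ F]
    [Algebra K F] [IsScalarTower O K₁ F] [IsScalarTower O K F] {t : K₁} {z : K} {π : O}
    [FiniteDimensional K F] [Algebra.IsSeparable K F]
    (ht : IsParam O t) (hz : IsParam O z) (hπ : Prime π)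
    (hzt : algebraMap K F z ∈ chart O (algebraMap K₁ F t))
    (htz : algebraMap K₁ F t ∈ chart O (algebraMap K F z))
    {W : ValuationSubring F} [FiniteDimensional K₁ F] [Algebra.IsSeparable K₁ F]
    (hW : Over (gaussVal ht hπ) (algebraMap O K₁ π) W) :
    Over (gaussVal hz hπ) (algebraMap O K π) W := by
  have hOW : ∀ a : O, algebraMap O F a ∈ W := fun a =>
    chart_mem_over hW ((chart O (algebraMap K₁ F t)).algebraMap_mem a)
  have hzW : algebraMap K F z ∈ W := chart_mem_over hW hzt
  have htW : algebraMap K₁ F t ∈ W := chart_mem_over hW (self_mem_chart _)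
  have hπW : algebraMap O F π ∈ W.nonunits := by
    have := hW.2
    rwa [← IsScalarTower.algebraMap_apply] at this
  -- polynomials in `z` are in `W`
  have hPW : ∀ B : O[X], aeval (algebraMap K F z) B ∈ W := by
    intro B
    rw [aeval_eq_sum_range]
    refine sum_mem fun i _ => ?_
    rw [Algebra.smul_def]
    exact W.mul_mem _ _ (hOW _) (pow_mem hzW _)
  -- the residue field
  let j : O →+* W := (algebraMap O F).codRestrict W.toSubring hOW
  let ρ : W →+* ResidueField W := residue W
  have hk : ∀ a ∈ maximalIdeal O, ρ (j a) = 0 := by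
    intro a ha
    obtain ⟨c, rfl⟩ : π ∣ a := by
      rw [hπ.irreducible.maximalIdeal_eq, Ideal.mem_span_singleton] at ha
      exact ha
    rw [map_mul, map_mul]
    have h1 : ρ (j π) = 0 := by
      rw [residue_eq_zero_iff]
      have h2 : ((j π : W) : F) ∈ W.nonunits := hπW
      rw [ValuationSubring.mem_nonunits_iff_exists_mem_maximalIdeal] at h2
      obtain ⟨_, h3⟩ := h2
      exact h3
    rw [h1, zero_mul]
  let φ : ResidueField O →+* ResidueField W := Ideal.Quotient.lift (maximalIdeal O) (ρ.comp j) hk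
  have hφ : ∀ a, φ (residue O a) = ρ (j a) := fun a => Ideal.Quotient.lift_mk _ _ _
  letI : Algebra (ResidueField O) (ResidueField W) := φ.toAlgebra
  have hval : ∀ (u : F) (hu : u ∈ W) (B : O[X]) (hB : aeval u B ∈ W),
      ρ ⟨aeval u B, hB⟩ = aeval (ρ ⟨u, hu⟩) (B.map (residue O)) := by
    intro u hu B hB
    have h1 : (⟨aeval u B, hB⟩ : W) = B.eval₂ j ⟨u, hu⟩ := by
      apply Subtype.ext
      change aeval u B = W.toSubring.subtype _
      rw [hom_eval₂]
      rfl
    rw [h1, hom_eval₂, aeval_def, eval₂_map]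
    congr 1
  have hnu : ∀ (x : W), ρ x = 0 ↔ (x : F) ∈ W.nonunits := by
    intro x
    rw [residue_eq_zero_iff, ValuationSubring.mem_nonunits_iff_exists_mem_maximalIdeal]
    exact ⟨fun h => ⟨x.2, h⟩, fun ⟨_, h⟩ => h⟩
  -- `z` is residually transcendental
  have key : ∀ B : O[X], ¬ C π ∣ B → aeval (algebraMap K F z) B ∉ W.nonunits := by
    intro B hB hBW
    have hB0 : B.map (residue O) ≠ 0 := by
      intro h0
      apply hB
      rw [C_dvd_iff_dvd_coeff]
      intro i
      have h1 : residue O (B.coeff i) = 0 := by rw [← coeff_map, h0, coeff_zero]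
      rw [residue_eq_zero_iff, hπ.irreducible.maximalIdeal_eq, Ideal.mem_span_singleton] at h1
      exact h1
    have hzint : IsIntegral (ResidueField O) (ρ ⟨algebraMap K F z, hzW⟩) := by
      rw [← isAlgebraic_iff_isIntegral]
      refine ⟨B.map (residue O), hB0, ?_⟩
      rw [← hval _ hzW B (hPW B)]
      exact (hnu _).mpr hBW
    let Az := Algebra.adjoin (ResidueField O) {ρ ⟨algebraMap K F z, hzW⟩}
    haveI : Algebra.IsIntegral (ResidueField O) Az := by
      refine ⟨fun x => ?_⟩
      have h1 : (Az : Subalgebra (ResidueField O) (ResidueField W)) ≤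
          integralClosure (ResidueField O) (ResidueField W) := by
        refine Algebra.adjoin_le ?_
        rintro _ rfl
        exact hzint
      have h2 : IsIntegral (ResidueField O) (x : ResidueField W) := h1 x.2
      exact (isIntegral_algHom_iff Az.val Subtype.val_injective).mp h2
    have htint : IsIntegral Az (ρ ⟨algebraMap K₁ F t, htW⟩) := by
      obtain ⟨p, hp, hpt⟩ := htz
      -- the reduction of the coefficients
      let jz : O[X] →+* W := eval₂RingHom j ⟨algebraMap K F z, hzW⟩
      have hjz : ∀ B : O[X], ((jz B : W) : F) = aeval (algebraMap K F z) B := by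
        intro B
        change W.toSubring.subtype (B.eval₂ j ⟨algebraMap K F z, hzW⟩) = _
        rw [hom_eval₂]
        rfl
      have hmem : ∀ B : O[X], ρ (jz B) ∈ Az := by
        intro B
        have h1 : jz B = ⟨aeval (algebraMap K F z) B, hPW B⟩ := Subtype.ext (hjz B)
        rw [h1, hval _ hzW B]
        exact aeval_mem_adjoin_singleton _ _
      let ψ : O[X] →+* Az := (ρ.comp jz).codRestrict Az.toSubring hmem
      refine ⟨p.map ψ, hp.map _, ?_⟩
      rw [eval₂_map]
      have h2 : (algebraMap Az (ResidueField W)).comp ψ = ρ.comp jz := RingHom.ext fun _ => rfl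
      rw [h2, ← hom_eval₂]
      have h3 : p.eval₂ jz ⟨algebraMap K₁ F t, htW⟩ = 0 := by
        apply Subtype.ext
        change W.toSubring.subtype _ = _
        rw [hom_eval₂]
        refine Eq.trans ?_ hpt
        congr 1
        exact RingHom.ext fun B => hjz B
      rw [h3, map_zero]
    have htint' : IsIntegral (ResidueField O) (ρ ⟨algebraMap K₁ F t, htW⟩) :=
      isIntegral_trans _ htint
    obtain ⟨Q, hQ, hQ0⟩ := htint'
    obtain ⟨Q', hQ'⟩ := Polynomial.map_surjective (residue O) residue_surjective Q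
    have hQ'ne : ¬ C π ∣ Q' := by
      rintro ⟨R, rfl⟩
      have h4 : residue O π = 0 := by
        rw [residue_eq_zero_iff, hπ.irreducible.maximalIdeal_eq]
        exact Ideal.mem_span_singleton_self _
      rw [Polynomial.map_mul, map_C, h4, C_0, zero_mul] at hQ'
      exact hQ.ne_zero hQ'.symm
    have hPt : aeval (algebraMap K₁ F t) Q' ∈ W :=
      chart_mem_over hW (aeval_mem_chart _ Q')
    refine aeval_notMem_nonunits hW hQ'ne ?_
    have h5 : ρ ⟨aeval (algebraMap K₁ F t) Q', hPt⟩ = 0 := by
      rw [hval _ htW Q' hPt, hQ', aeval_def]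
      exact hQ0
    exact (hnu _).mp h5
  refine ⟨fun x hx => ?_, ?_⟩
  · obtain ⟨s, a, hs, hsa⟩ := (mem_placeVal_iff hz _).mp hx
    have h1 := key s hs
    have h2 : (aeval (algebraMap K F z) s)⁻¹ ∈ W := inv_mem_of_notMem_nonunits h1
    have h3 : aeval (algebraMap K F z) s ≠ 0 := by
      intro h0
      rw [h0] at h1
      exact h1 (zero_mem_nonunits _)
    have h4 : aeval (algebraMap K F z) s * algebraMap K F x = aeval (algebraMap K F z) a := by
      rw [aeval_algebraMap_apply, aeval_algebraMap_apply, ← map_mul, hsa]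
    have h5 : algebraMap K F x = (aeval (algebraMap K F z) s)⁻¹ * aeval (algebraMap K F z) a := by
      rw [← h4, inv_mul_cancel_left₀ h3]
    rw [h5]
    exact W.mul_mem _ _ h2 (hPW a)
  · rwa [← IsScalarTower.algebraMap_apply]

end Alg

section Data

variable {O L K₁ M K F : Type u} [CommRing O] [IsDomain O] [IsDiscreteValuationRing O]
  [CharZero O]
  [Field L] [Algebra O L] [IsFractionRing O L] [Field K₁] [Field M] [Field K] [Field F]
  [Algebra O K₁] [Algebra O M] [Algebra O K] [Algebra O F] [Algebra K₁ M] [Algebra M F]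
  [Algebra K F] [Algebra K₁ F] {q : ℕ} [NeZero q] {t : K₁} {z : K} {T : LaurentSeries O}
  {θ : F →+* LaurentSeries L} {w : F ≃+* F} {π : O}
  [IsScalarTower O K F] [IsScalarTower O K₁ M] [IsScalarTower O M F] [IsScalarTower O K₁ F]
  [IsScalarTower K₁ M F]
  [FiniteDimensional K F] [Algebra.IsSeparable K F] [FiniteDimensional K₁ M]
  [Algebra.IsSeparable K₁ M] [FiniteDimensional K₁ F] [Algebra.IsSeparable K₁ F]

theorem isEmbT (h : LData M q t z T θ w) : IsEmb (K := K₁) θ t T where
  map_C := h.θC
  map_z := by rw [IsScalarTower.algebraMap_apply K₁ M F]; exact h.θt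
  trans := h.trans

theorem isEmbT₂ (h : LData M q t z T θ w) :
    IsEmb (K := K₁) (θ.comp (w : F →+* F)) t (qExpand O q T) where
  map_C a := by
    change θ (w (algebraMap O F a)) = _
    rw [h.wC, h.θC]
  map_z := by
    rw [IsScalarTower.algebraMap_apply K₁ M F]
    change θ (w (algebraMap M F (algebraMap K₁ M t))) = _
    rw [h.θw, h.θt, qExpand_toL]
  trans P hP := by
    rw [← qExpand_toK, h.Tq] at hP
    have h1 : (expand (ResidueField O) q P).eval₂ HahnSeries.C (toK O T) = 0 := by
      rw [expand_eq_comp_X_pow, eval₂_comp, eval₂_X_pow]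
      exact hP
    exact (expand_eq_zero (NeZero.pos q)).mp (h.trans _ h1)

/-- the components -/
def PP (h : LData M q t z T θ w) : Fin 2 → ValuationSubring F := ![h.P₁, h.P₂]

theorem unif₁ (h : LData M q t z T θ w) (hπ : Prime π) {x : F} (hx : x ∈ h.P₁.nonunits) :
    x / algebraMap O F π ∈ h.P₁ := by
  obtain ⟨y, hy, hxy⟩ := exists_smul_of_mem_nonunits (hθ := h.hgK) h.θC hπ.irreducible hx
  have hπF : algebraMap O F π ≠ 0 := by
    intro h0
    have h2 := h.θC π
    rw [h0, map_zero] at h2
    have h3 : algebraMap O L π = 0 := HahnSeries.C_injective (by rw [← h2, map_zero])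
    rw [IsFractionRing.to_map_eq_zero_iff] at h3
    exact hπ.ne_zero h3
  rw [hxy, Algebra.smul_def, mul_div_cancel_left₀ _ hπF]
  exact hy

theorem unif₂ (h : LData M q t z T θ w) (hπ : Prime π) {x : F} (hx : x ∈ h.P₂.nonunits) :
    x / algebraMap O F π ∈ h.P₂ := by
  rw [h.mem_P₂, map_div₀, h.wC]
  exact unif₁ h hπ (h.mem_P₂_nonunits.mp hx)

theorem duo_of (h : LData M q t z T θ w) {ht : IsParam O t} {hz : IsParam O z}
    {hπ : Prime π} (hg : LGood h ht hz hπ) (hqπ : (q : O) = π) (hqp : q.Prime)
    {c : ℕ → ℤ[X]} (hc : KShape q c) {C₀ : ℤ}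
    (rel : MRel q c (w (algebraMap K₁ F t)) (algebraMap K₁ F t))
    (C0 : IsUnit ((C₀ : ℤ) : O))
    (relu : MRel q c ((C₀ : F) / w (algebraMap K₁ F t)) ((C₀ : F) / algebraMap K₁ F t))
    (huniq : ∀ W : ValuationSubring M, Over (gaussVal ht hπ) (algebraMap O K₁ π) W →
      ∀ x : M, x ∈ W ↔ θ (algebraMap M F x) ∈ gV O L) :
    Duo (M := M) ht hπ q c C₀ (PP h) w := by
  have hX2 : w (algebraMap K₁ F t) ∈ chart O (algebraMap K₁ F t) :=
    MRel.mem_chart hc rel (self_mem_chart _)
  have hzz : algebraMap K F z = algebraMap K₁ F t + w (algebraMap K₁ F t) := by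
    rw [IsScalarTower.algebraMap_apply K₁ M F]
    exact h.zz
  have hzt : algebraMap K F z ∈ chart O (algebraMap K₁ F t) := by
    rw [hzz]
    exact add_mem (self_mem_chart _) hX2
  have htz : algebraMap K₁ F t ∈ chart O (algebraMap K F z) := by
    rw [IsScalarTower.algebraMap_apply K₁ M F]
    exact h.t_mem_chart hg
  have o1 : Over (gaussVal ht hπ) (algebraMap O K₁ π) h.P₁ := (isEmbT h).over ht hπ
  have o2 : Over (gaussVal ht hπ) (algebraMap O K₁ π) h.P₂ := (isEmbT₂ h).over ht hπ
  refine
    { sys := ⟨?_, ?_, ?_⟩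
      prime := hqp
      hq := hqπ
      wO := h.wC
      ww := h.ww
      wP := fun x => h.mem_P₂.symm
      res0 := ?_
      unif0 := fun x hx => unif₁ h hπ hx
      X1_0 := ?_
      shape := hc
      rel := rel
      C0 := C0
      relu := relu
      gm := ?_ }
  · rw [Fin.forall_fin_two]
    exact ⟨o1, o2⟩
  · intro W hW
    rcases h.complete hz hπ W (over_of_chart ht hz hπ hzt htz hW) with h1 | h1
    · exact ⟨0, h1⟩
    · exact ⟨1, h1⟩
  · rw [Fin.forall_fin_two]
    exact ⟨fun c hc => ⟨1, by rw [pow_one]; exact unif₁ h hπ hc⟩,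
      fun c hc => ⟨1, by rw [pow_one]; exact unif₂ h hπ hc⟩⟩
  · intro x hx
    obtain ⟨f, h1, h2⟩ := h.exists_M hz hπ (x := x) hx
    exact ⟨f, h2, h1⟩
  · have := h.sub_mem₁
    rwa [← IsScalarTower.algebraMap_apply K₁ M F] at this
  · refine ⟨hg.gr, ?_, ?_, ?_⟩
    · refine ⟨fun x hx => ?_, ?_⟩
      · change algebraMap M F (algebraMap K₁ M x) ∈ h.P₁
        rw [← IsScalarTower.algebraMap_apply K₁ M F]
        exact o1.1 x hx
      · rw [comap_mem_nonunits, ← IsScalarTower.algebraMap_apply K₁ M F]
        exact o1.2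
    · intro W hW
      ext x
      rw [huniq W hW x]
      rfl
    · intro x hx
      rw [comap_mem_nonunits] at hx
      have := unif₁ h hπ (x := algebraMap M F x) hx
      change algebraMap M F (x / algebraMap O M π) ∈ h.P₁
      rw [map_div₀, ← IsScalarTower.algebraMap_apply O M F]
      exact this

end Data

end Fermat.Agent.PR
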