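import Mathlib
import Fermat.Agent.LG.Conc3
import Fermat.Agent.LG.GRConcrete

/-!
The Hauptmodul of level 4.
-/

set_option autoImplicit false
set_option linter.unusedSectionVars false
set_option linter.style.haveILetI false
set_option linter.unusedVariables false

open Matrix.SpecialLinearGroup CongruenceSubgroup ModularGroup
open scoped MatrixGroups ModularForm Manifold
open UpperHalfPlane hiding I J
open Complex (I)
open Fermat.Agent.ModFun IntermediateField Fermat.Agent.Geo IsLocalRing Fermat.Agent.LG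
open Fermat.Agent.Eis16 (up coe_up)
open Fermat.Agent.ESCore (HauptFn haupt2 uF vF E4p Dp t2 vF2_ne t2_eq J_mul_t2 Dp_eq_vu2 E4p_eq hκ2 D_eq_v2u)
open ModularCurve (qExpand coeffMap)

noncomputable section

universe u

namespace Fermat.Agent.PR

local notation "Δ" => ModularForm.discriminant

theorem uF2_ne (τ : ℍ) : uF 2 τ ≠ 0 := by
  intro h
  have h1 := D_eq_v2u τ
  rw [h] at h1
  apply ModularForm.discriminant_ne_zero τ
  rw [h1]; ring

theorem tI_eq (τ : ℍ) : tI haupt2 τ = vF 2 τ / uF 2 τ := by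
  rw [tI]
  change (uF 2 τ / vF 2 τ)⁻¹ = _
  rw [inv_div]

/-- `j(2τ) t(τ) = (t(τ) + 16)³` -/
theorem J_up_mul (τ : ℍ) : J (up 2 τ) * tI haupt2 τ = (tI haupt2 τ + 16) ^ 3 := by
  have h1 := Dp_eq_vu2 τ
  have h2 := E4p_eq 2 hκ2 τ
  have h3 := vF2_ne τ
  have h4 := uF2_ne τ
  have h5 : Dp 2 τ ≠ 0 := ModularForm.discriminant_ne_zero _
  have h6 : J (up 2 τ) = E4p 2 τ ^ 3 / Dp 2 τ := rfl
  rw [h6, h2, tI_eq, h1]
  push_cast
  field_simp

theorem J_mul_sq (τ : ℍ) : J τ * tI haupt2 τ ^ 2 = (tI haupt2 τ + 256) ^ 3 := by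
  have h := J_mul_t2 τ
  have h0 : t2 τ ≠ 0 := haupt2.ne_zero τ
  have h1 : tI haupt2 τ = (t2 τ)⁻¹ := rfl
  rw [h1]
  field_simp
  linear_combination h

/-- the modular relation between `t(τ)` and `t(2τ)`, with an extraneous factor -/
theorem rel_fun (τ : ℍ) : (tI haupt2 τ + 16) ^ 3 * tI haupt2 (up 2 τ) ^ 2 =
    tI haupt2 τ * (tI haupt2 (up 2 τ) + 256) ^ 3 := by
  rw [← J_mul_sq (up 2 τ), ← J_up_mul τ]
  ring

/-- `t` over `ℤ` -/
abbrev tZ' : LaurentSeries ℤ := tS ℤ 2 16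

/-- `t(2τ)` over `ℤ` -/
abbrev t2Z : LaurentSeries ℤ := qExpand ℤ 2 (tS ℤ 2 16)

theorem hasExp_up {R : Type*} [CommRing R] {φ : R →+* ℂ} {f : ℍ → ℂ} {F : LaurentSeries R}
    (h : HasExp φ (qN 1) f F) : HasExp φ (qN 1) (fun τ => f (up 2 τ)) (qExpand R 2 F) := by
  refine h.qExpand (s' := qN 1) 2 (fun τ => up 2 τ) fun τ => ?_
  rw [qN_apply, qN_apply]
  rw [Function.Periodic.qParam, Function.Periodic.qParam, ← Complex.exp_nat_mul]
  congr 1
  have : ((up 2 τ : ℍ) : ℂ) = 2 * (τ : ℂ) := by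
    rw [coe_up]; push_cast; ring
  rw [this]
  push_cast
  ring

theorem hasExp_const' {R : Type*} [CommRing R] {φ : R →+* ℂ} (n : ℕ) :
    HasExp φ (qN 1) (fun _ => (n : ℂ)) ((n : LaurentSeries R)) := by
  have h := HasExp.const (s := qN 1) (φ := φ) (n : R)
  have e1 : (fun _ : ℍ => φ (n : R)) = fun _ => (n : ℂ) := by
    funext τ; rw [map_natCast]
  have e2 : (HahnSeries.C (n : R) : LaurentSeries R) = (n : LaurentSeries R) := map_natCast _ n
  rw [e1, e2] at h
  exact h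

theorem rel_ser : (tZ' + 16) ^ 3 * t2Z ^ 2 = tZ' * (t2Z + 256) ^ 3 := by
  have h1 : HasExp (Int.castRingHom ℂ) (qN 1) (tI haupt2) tZ' := hasExp_tI haupt2 _
  have h2 : HasExp (Int.castRingHom ℂ) (qN 1) (fun τ => tI haupt2 (up 2 τ)) t2Z := hasExp_up h1
  have h3 := ((h1.add (hasExp_const' 16)).pow 3).mul (h2.pow 2)
  have h4 := h1.mul ((h2.add (hasExp_const' 256)).pow 3)
  have h5 : ((tI haupt2 + fun _ => ((16 : ℕ) : ℂ)) ^ 3 * (fun τ => tI haupt2 (up 2 τ)) ^ 2 : ℍ → ℂ) =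
      (tI haupt2 * ((fun τ => tI haupt2 (up 2 τ)) + fun _ => ((256 : ℕ) : ℂ)) ^ 3) := by
    funext τ
    have := rel_fun τ
    simp only [Pi.mul_apply, Pi.pow_apply, Pi.add_apply]
    push_cast
    exact this
  rw [h5] at h3
  have h6 := h3.unique (RingHom.injective_int _) (isParam_qN 1) h4
  exact_mod_cast h6

theorem leadU_t {R : Type*} [CommRing R] : LeadU (tS R 2 16) (-1) :=
  ⟨fun n hn => coeff_tS_of_lt hn, by rw [coeff_tS_neg_one]; exact isUnit_one⟩

theorem LeadU.add_const {R : Type*} [CommRing R] {F : LaurentSeries R} {m : ℤ} (hF : LeadU F m)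
    (hm : m < 0) (a : ℕ) : LeadU (F + (a : LaurentSeries R)) m := by
  have e2 : (a : LaurentSeries R) = (HahnSeries.C (a : R) : LaurentSeries R) := by
    rw [map_natCast]
  refine ⟨fun k hk => ?_, ?_⟩
  · rw [e2, HahnSeries.coeff_add, hF.1 k hk, HahnSeries.C_apply,
      HahnSeries.coeff_single_of_ne (by omega), add_zero]
  · rw [e2, HahnSeries.coeff_add, HahnSeries.C_apply,
      HahnSeries.coeff_single_of_ne (by omega), add_zero]
    exact hF.2

theorem leadU_isUnit {R : Type*} [CommRing R] {F : LaurentSeries R} {m : ℤ} (hF : LeadU F m) :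
    ∃ G, F * G = 1 := by
  rw [leadU_iff] at hF
  obtain ⟨P, hP, rfl⟩ := hF
  obtain ⟨P, rfl⟩ := hP
  refine ⟨HahnSeries.single (-m) 1 *
      HahnSeries.ofPowerSeries ℤ R ((P⁻¹ : (PowerSeries R)ˣ) : PowerSeries R), ?_⟩
  calc _ = (HahnSeries.single m (1 : R) * HahnSeries.single (-m) 1) *
      (HahnSeries.ofPowerSeries ℤ R (P : PowerSeries R) *
        HahnSeries.ofPowerSeries ℤ R ((P⁻¹ : (PowerSeries R)ˣ) : PowerSeries R)) := by ring
    _ = 1 := by
      rw [HahnSeries.single_mul_single, ← map_mul, Units.mul_inv, map_one]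
      simp

theorem rel_ser2 : t2Z ^ 2 - 48 * tZ' * t2Z - 4096 * tZ' - tZ' ^ 2 * t2Z = 0 := by
  have h0 : (tZ' * t2Z - 4096) * (t2Z ^ 2 - 48 * tZ' * t2Z - 4096 * tZ' - tZ' ^ 2 * t2Z) = 0 := by
    linear_combination -rel_ser
  refine (mul_eq_zero.mp h0).resolve_left fun h => ?_
  have h1 : LeadU (tZ' * t2Z) (-1 + (2 : ℕ) * (-1)) := leadU_t.mul (leadU_t.qExpand 2)
  have h2 : tZ' * t2Z = ((4096 : ℕ) : LaurentSeries ℤ) := by
    push_cast; linear_combination h
  have h3 := h1.2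
  rw [h2, show ((4096 : ℕ) : LaurentSeries ℤ) = (HahnSeries.C ((4096 : ℕ) : ℤ) : LaurentSeries ℤ) from
      (map_natCast _ _).symm, HahnSeries.C_apply,
      HahnSeries.coeff_single_of_ne (by norm_num)] at h3
  exact not_isUnit_zero h3

theorem exists_x : ∃ x : LaurentSeries ℤ, x * (tZ' + 16) = t2Z - 16 * tZ' := by
  obtain ⟨G, hG⟩ := leadU_isUnit (LeadU.add_const (leadU_t (R := ℤ)) (by norm_num) 16)
  push_cast at hG
  exact ⟨(t2Z - 16 * tZ') * G, by linear_combination (t2Z - 16 * tZ') * hG⟩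

/-- the Hauptmodul of level four, over `ℤ` -/
def xZ : LaurentSeries ℤ := exists_x.choose

theorem xZ_spec : xZ * (tZ' + 16) = t2Z - 16 * tZ' := exists_x.choose_spec

theorem t16_ne : (tZ' + 16 : LaurentSeries ℤ) ≠ 0 := by
  have := (LeadU.add_const (leadU_t (R := ℤ)) (by norm_num) 16).ne_zero
  exact_mod_cast this

theorem xZ_sq : xZ ^ 2 = tZ' * (xZ + 16) := by
  have h := xZ_spec
  refine mul_left_cancel₀ (pow_ne_zero 2 t16_ne) ?_
  linear_combination (xZ * (tZ' + 16) + (t2Z - 16 * tZ')) * h - tZ' * (tZ' + 16) * h + rel_ser2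

theorem t2_eq_x : t2Z = xZ * (xZ + 16) := by
  linear_combination -xZ_sq - xZ_spec

theorem x_mul : (xZ + 16) * (tZ' - xZ + 16) = 256 := by
  linear_combination -xZ_sq

theorem leadU_x : LeadU xZ (-1) := by
  obtain ⟨G, hG⟩ := leadU_isUnit (LeadU.add_const (leadU_t (R := ℤ)) (by norm_num) 16)
  have hG' := (LeadU.add_const (leadU_t (R := ℤ)) (by norm_num) 16).inv hG
  push_cast at hG
  have h1 : LeadU (t2Z - 16 * tZ') (((2 : ℕ) : ℤ) * (-1)) := by
    have h2 : LeadU t2Z (((2 : ℕ) : ℤ) * (-1)) := leadU_t.qExpand 2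
    have e : ∀ n : ℤ, (16 * tZ').coeff n = 16 * tZ'.coeff n := by
      intro n
      have : (16 : LaurentSeries ℤ) = (HahnSeries.C (16 : ℤ) : LaurentSeries ℤ) := by
        have := (map_natCast (HahnSeries.C : ℤ →+* LaurentSeries ℤ) 16)
        push_cast at this
        exact this.symm
      rw [this, HahnSeries.C_mul_eq_smul, HahnSeries.coeff_smul, smul_eq_mul]
    refine ⟨fun k hk => ?_, ?_⟩
    · rw [HahnSeries.coeff_sub, h2.1 k hk, e, coeff_tS_of_lt (by push_cast at hk; omega)]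
      ring
    · rw [HahnSeries.coeff_sub, e, coeff_tS_of_lt (by norm_num), mul_zero, sub_zero]
      exact h2.2
  have h3 : xZ = (t2Z - 16 * tZ') * G := by
    linear_combination xZ * (-hG) + G * xZ_spec
  rw [h3]
  have := h1.mul hG'
  norm_num at this
  exact this

end Fermat.Agent.PR
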