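import Mathlib
import Fermat.Agent.PR.Duo
import Fermat.Agent.MP.SlopeDef

/-!
The geometric hypotheses of the slope theorem.
-/

set_option autoImplicit false
set_option linter.unusedSectionVars false
set_option linter.style.haveILetI false
set_option linter.unusedVariables false

open IsLocalRing Polynomial

universe u

namespace Fermat.Agent.PR

open Fermat.Agent.Geo Fermat.Agent.LG Fermat.Agent.CA Fermat.Agent.MP

/-- the modular units -/
structure DU {O F : Type u} [CommRing O] [Field F] [Algebra O F] (t : F) (π : O)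
    (P : Fin 2 → ValuationSubring F) (w : F ≃+* F) (a1 a2 : F) : Prop where
  prod : a1 * a2 = algebraMap O F π
  ch1 : ∃ n : ℕ, t ^ n * a1 ∈ chart O t
  ch2 : ∃ n : ℕ, t ^ n * a2 ∈ chart O t
  wa : ∃ ε : O, IsUnit ε ∧ w a1 = algebraMap O F ε * a2
  a1_0 : a1⁻¹ ∈ P 0
  a1_m : a1 ∈ P 0

section

variable {O K M F : Type u} [CommRing O] [IsDomain O] [IsDiscreteValuationRing O] [CharZero O]
  [Field K] [Field M] [Field F] [Algebra O K] [Algebra O M] [Algebra O F] [Algebra K M]
  [Algebra K F] [Algebra M F] [IsScalarTower O K M] [IsScalarTower O K F] [IsScalarTower K M F]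
  [IsScalarTower O M F]
  {t : K} {π : O} [FiniteDimensional K M] [Algebra.IsSeparable K M]
  [FiniteDimensional K F] [Algebra.IsSeparable K F]
  {ht : IsParam O t} {hπ : Prime π} {q : ℕ} {c : ℕ → ℤ[X]} {C₀ : ℤ}
  {P : Fin 2 → ValuationSubring F} {w : F ≃+* F} {a1 a2 : F}

variable (T : Duo (M := M) ht hπ q c C₀ P w) (D : DU (algebraMap K F t) π P w a1 a2)

include T D

theorem a_ne : a1 ≠ 0 ∧ a2 ≠ 0 := by
  have h := D.prod
  constructor <;> rintro rfl
  · rw [zero_mul] at h; exact T.π_ne h.symm
  · rw [mul_zero] at h; exact T.π_ne h.symm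

theorem a2_mem : a2 ∈ P 1 := by
  obtain ⟨ε, ⟨v, rfl⟩, hw⟩ := D.wa
  have h1 : w a1 ∈ P 1 := (T.w1_mem _).mpr D.a1_m
  have e : a2 = algebraMap O F (↑v⁻¹ : O) * w a1 := by
    rw [hw, ← mul_assoc, ← map_mul, Units.inv_mul, map_one, one_mul]
  rw [e]
  exact mul_mem (T.O_mem 1 _) h1

theorem a2_inv : a2⁻¹ ∈ P 1 := by
  obtain ⟨ε, ⟨v, rfl⟩, hw⟩ := D.wa
  have h1 : (w a1)⁻¹ ∈ P 1 := by
    rw [← map_inv₀]
    exact (T.w1_mem _).mpr D.a1_0
  have e : a2⁻¹ = algebraMap O F (v : O) * (w a1)⁻¹ := by
    rw [hw, mul_inv]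
    have : algebraMap O F (v : O) ≠ 0 := by
      intro h0
      have h2 : algebraMap O F (v : O) * algebraMap O F (↑v⁻¹ : O) = 1 := by
        rw [← map_mul, Units.mul_inv, map_one]
      rw [h0, zero_mul] at h2
      exact zero_ne_one h2
    rw [← mul_assoc, mul_inv_cancel₀ this, one_mul]
  rw [e]
  exact mul_mem (T.O_mem 1 _) h1

theorem a2_non : a2 ∈ (P 0).nonunits := by
  have e : a2 = a1⁻¹ * algebraMap O F π := by
    rw [← D.prod, inv_mul_cancel_left₀ (a_ne T D).1]
  rw [e]
  exact mul_mem_nonunits D.a1_0 (T.π_nonunit 0)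

theorem a1_non : a1 ∈ (P 1).nonunits := by
  have e : a1 = a2⁻¹ * algebraMap O F π := by
    rw [← D.prod, mul_comm a1, inv_mul_cancel_left₀ (a_ne T D).2]
  rw [e]
  exact mul_mem_nonunits (a2_inv T D) (T.π_nonunit 1)

section Pt

variable {y : Ideal (chart O (algebraMap K F t))} [hy : y.IsPrime]

theorem loc_of (hty : ¬ locM y (algebraMap K F t)) {x : F}
    (h : ∃ n : ℕ, algebraMap K F t ^ n * x ∈ chart O (algebraMap K F t)) :
    x ∈ locS y := by
  obtain ⟨n, hn⟩ := h
  have h1 : algebraMap K F t ∈ locS y := mem_locS_of_mem (self_mem_chart _)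
  have h2 := Subring.mul_mem _ (Subring.pow_mem _ (inv_mem_of_not_locM h1 hty) n)
    (mem_locS_of_mem hn)
  rwa [inv_pow, ← mul_assoc, inv_mul_cancel₀ (pow_ne_zero n T.tF_ne), one_mul] at h2

theorem locEq1 (hty : ¬ locM y (algebraMap K F t)) (h1 : Meets y (P 1)) :
    LocEq y (P 1) a1 := by
  have l1 := loc_of T D hty D.ch1
  have l2 := loc_of T D hty D.ch2
  refine T.sys.locEq h1 (a_ne T D).1 l1 (a1_non T D) (fun x hx => ?_)
    (fun j hj hm => ?_) (n := 1) ?_
  · have e : x / a1 = x / algebraMap O F π * a2 := by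
      conv_rhs => rw [← D.prod]
      have := (a_ne T D).1
      have := (a_ne T D).2
      field_simp
    rw [e]
    exact mul_mem (T.unif1 x hx) (a2_mem T D)
  · match j with
    | 0 => exact D.a1_0
    | 1 => exact (hj rfl).elim
  · have e : algebraMap O F π ^ 1 / a1 = a2 := by
      rw [pow_one, ← D.prod]
      have := (a_ne T D).1
      field_simp
    rw [e]
    exact l2

theorem locEq0 (hty : ¬ locM y (algebraMap K F t)) (h0 : Meets y (P 0)) :
    LocEq y (P 0) a2 := by
  have l1 := loc_of T D hty D.ch1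
  have l2 := loc_of T D hty D.ch2
  refine T.sys.locEq h0 (a_ne T D).2 l2 (a2_non T D) (fun x hx => ?_)
    (fun j hj hm => ?_) (n := 1) ?_
  · have e : x / a2 = x / algebraMap O F π * a1 := by
      conv_rhs => rw [← D.prod]
      have := (a_ne T D).1
      have := (a_ne T D).2
      field_simp
    rw [e]
    exact mul_mem (T.unif0 x hx) D.a1_m
  · match j with
    | 0 => exact (hj rfl).elim
    | 1 => exact a2_inv T D
  · have e : algebraMap O F π ^ 1 / a2 = a1 := by
      rw [pow_one, ← D.prod]
      have := (a_ne T D).2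
      field_simp
    rw [e]
    exact l1

end Pt

omit D in
theorem C0_unit {C : Subalgebra O F} {y : Ideal C} [hy : y.IsPrime] :
    ((C₀ : ℤ) : F) ∈ locS y ∧ ((C₀ : ℤ) : F)⁻¹ ∈ locS y := by
  obtain ⟨v, hv⟩ := T.C0
  constructor
  · rw [T.C0F]; exact mem_locS_of_mem (C.algebraMap_mem _)
  · have : ((C₀ : ℤ) : F)⁻¹ = algebraMap O F (↑v⁻¹ : O) := by
      rw [T.C0F, ← hv]
      apply inv_eq_of_mul_eq_one_right
      rw [← map_mul, Units.mul_inv, map_one]
    rw [this]; exact mem_locS_of_mem (C.algebraMap_mem _)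

omit D in
theorem q_locM {y : Ideal (chart O (algebraMap K F t))} [hy : y.IsPrime] {i : Fin 2}
    (hm : Meets y (P i)) : locM y ((q : ℕ) : F) :=
  locM_of_nonunits (T.sys.ov i) hm (natCast_mem _ _) (T.q_nonunit i)

omit D in
/-- the crossing points are not cusps -/
theorem not_locM_t {y : Ideal (chart O (algebraMap K F t))} [hy : y.IsPrime]
    (h0 : Meets y (P 0)) (h1 : Meets y (P 1)) : ¬ locM y (algebraMap K F t) := by
  intro hM
  refine T.cduo'.disj T.shape T.sys (q_locM T h0) ?_ h0 h1
  rw [inv_div, div_eq_mul_inv]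
  exact hM.mul_right (C0_unit T).2

omit D in
theorem smPt {y : Ideal (chart O (algebraMap K F t))} [hy : y.IsPrime] {i j : Fin 2}
    (hij : ∀ k, k ≠ i → k = j) (hi : Meets y (P i)) (hj : ¬ Meets y (P j)) :
    SmPt y π (P i) where
  eq := by
    refine T.sys.locEq hi T.π_ne (mem_locS_of_mem ((chart O _).algebraMap_mem π))
      (T.π_nonunit i) ?_ (fun k hk hm => ?_) (n := 1) (by
        rw [pow_one, div_self T.π_ne]; exact Subring.one_mem _)
    · match i with
      | 0 => exact T.unif0
      | 1 => exact T.unif1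
    · rw [hij k hk] at hm
      exact (hj hm).elim
  val := T.valAt i hi

omit D in
theorem smPt' {y : Ideal (chart O (algebraMap K F t⁻¹))} [hy : y.IsPrime] {i : Fin 2}
    (hty : locM y (algebraMap K F t⁻¹)) (hi : Meets y (P i)) :
    SmPt y π (P i) := by
  have hty' : locM y (algebraMap K F t)⁻¹ := (map_inv₀ (algebraMap K F) t) ▸ hty
  have hq : locM y ((q : ℕ) : F) :=
    locM_of_nonunits (T.sys'.ov i) hi (natCast_mem _ _) (T.q_nonunit i)
  have hdis := T.cduo.disj T.shape T.sys' hq hty'
  refine ⟨?_, T.valAt' hty' i hi⟩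
  refine T.sys'.locEq hi T.π_ne (mem_locS_of_mem ((chart O _).algebraMap_mem π))
    (T.π_nonunit i) ?_ (fun k hk hm => ?_) (n := 1) (by
      rw [pow_one, div_self T.π_ne]; exact Subring.one_mem _)
  · match i with
    | 0 => exact T.unif0
    | 1 => exact T.unif1
  · match i, k with
    | 0, 0 => exact (hk rfl).elim
    | 0, 1 => exact (hdis hi hm).elim
    | 1, 0 => exact (hdis hm hi).elim
    | 1, 1 => exact (hk rfl).elim

end

section Value

variable {O F : Type u} [CommRing O] [IsDomain O]
    [IsDiscreteValuationRing O] [Field F] [Algebra O F] [IsAlgClosed (ResidueField O)]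

theorem exists_value_u {π : O} (hπ : Prime π) {u : F} {y : Ideal (chart O u)} [hy : y.IsMaximal]
    (hπy : algebraMap O (chart O u) π ∈ y) :
    ∃ u₀ : O, (⟨u, self_mem_chart u⟩ : chart O u) - algebraMap O (chart O u) u₀ ∈ y := by
  haveI hJ : (y.comap (chartHom (O := O) u)).IsMaximal :=
    Ideal.isMaximal_comap_of_isIntegral_of_isMaximal' _ (chartHom_isIntegral u) y
  set J := y.comap (chartHom (O := O) u) with hJdef
  have hCπ : C π ∈ J := by
    rw [hJdef, Ideal.mem_comap]
    have : chartHom (O := O) u (C π) = algebraMap O (chart O u) π := Subtype.ext (aeval_C u π)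
    rw [this]; exact hπy
  let r : O[X] →+* (ResidueField O)[X] := mapRingHom (residue O)
  have hr : Function.Surjective r := map_surjective _ residue_surjective
  have hker : RingHom.ker r ≤ J := by
    intro p hp
    rw [RingHom.mem_ker] at hp
    obtain ⟨p', rfl⟩ : C π ∣ p := by
      rw [C_dvd_iff_dvd_coeff]
      intro i
      have h1 : residue O (p.coeff i) = 0 := by
        have := congrArg (fun s : (ResidueField O)[X] => s.coeff i) hp
        simpa [r] using this
      rw [residue_eq_zero_iff, hπ.irreducible.maximalIdeal_eq, Ideal.mem_span_singleton] at h1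
      exact h1
    exact Ideal.mul_mem_right _ _ hCπ
  have hcm : (J.map r).comap r = J := by
    rw [Ideal.comap_map_of_surjective r hr]
    rw [sup_eq_left]
    exact hker
  have hJr : (J.map r).IsMaximal := by
    rcases Ideal.map_eq_top_or_isMaximal_of_surjective r hr hJ with h | h
    · exfalso
      rw [h, Ideal.comap_top] at hcm
      exact hJ.ne_top hcm.symm
    · exact h
  have hne : J.map r ≠ ⊥ := by
    intro h0
    rw [h0] at hJr
    exact Polynomial.not_isField (ResidueField O)
      ((Ring.isField_iff_maximal_bot).mpr hJr)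
  obtain ⟨f, hf, hf0⟩ := Submodule.exists_mem_ne_zero_of_ne_bot hne
  have hsp : f.Splits := IsAlgClosed.splits f
  -- a linear factor
  have key : ∀ (s : Multiset (ResidueField O)), (s.map fun a => X - C a).prod ∈ J.map r →
      ∃ a, X - C a ∈ J.map r := by
    intro s
    induction s using Multiset.induction_on with
    | empty =>
      intro h1
      rw [Multiset.map_zero, Multiset.prod_zero] at h1
      exact (hJr.ne_top ((Ideal.eq_top_iff_one _).mpr h1)).elim
    | cons a s ih =>
      intro h1
      rw [Multiset.map_cons, Multiset.prod_cons] at h1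
      rcases hJr.isPrime.mem_or_mem h1 with h1 | h1
      · exact ⟨a, h1⟩
      · exact ih h1
  have hfp := hsp.eq_prod_roots
  rw [hfp] at hf
  rcases hJr.isPrime.mem_or_mem hf with h1 | h1
  · exfalso
    have h2 : IsUnit (C f.leadingCoeff) := by
      rw [isUnit_C]
      exact (leadingCoeff_ne_zero.mpr hf0).isUnit
    exact hJr.ne_top (Ideal.eq_top_of_isUnit_mem _ h1 h2)
  · obtain ⟨a, ha⟩ := key _ h1
    obtain ⟨u₀, rfl⟩ := residue_surjective a
    refine ⟨u₀, ?_⟩
    have h3 : (X - C u₀ : O[X]) ∈ J := by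
      rw [← hcm, Ideal.mem_comap]
      have : r (X - C u₀) = X - C (residue O u₀) := by
        change (X - C u₀ : O[X]).map (residue O) = _
        rw [Polynomial.map_sub, map_X, map_C]
      rw [this]; exact ha
    rw [hJdef, Ideal.mem_comap, map_sub] at h3
    have e1 : chartHom (O := O) u X = ⟨u, self_mem_chart u⟩ := Subtype.ext (aeval_X u)
    have e2 : chartHom (O := O) u (C u₀) = algebraMap O (chart O u) u₀ :=
      Subtype.ext (aeval_C u u₀)
    rwa [e1, e2] at h3

/-- every element of the chart has a value at a point -/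
theorem exists_value {π : O} (hπ : Prime π) {u : F} {y : Ideal (chart O u)} [hy : y.IsMaximal]
    (hπy : algebraMap O (chart O u) π ∈ y)
    (x : chart O u) : ∃ c : O, x - algebraMap O (chart O u) c ∈ y := by
  obtain ⟨u₀, hu⟩ := exists_value_u hπ hπy
  letI : Field (chart O u ⧸ y) := Ideal.Quotient.field y
  let mk : chart O u →+* chart O u ⧸ y := Ideal.Quotient.mk y
  have hk : ∀ a ∈ maximalIdeal O, (mk.comp (algebraMap O (chart O u))) a = 0 := by
    intro a ha
    obtain ⟨c, rfl⟩ : π ∣ a := by
      rw [hπ.irreducible.maximalIdeal_eq, Ideal.mem_span_singleton] at ha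
      exact ha
    rw [map_mul]
    have : (mk.comp (algebraMap O (chart O u))) π = 0 := Ideal.Quotient.eq_zero_iff_mem.mpr hπy
    rw [this, zero_mul]
  let φ : ResidueField O →+* chart O u ⧸ y :=
    Ideal.Quotient.lift (maximalIdeal O) (mk.comp (algebraMap O (chart O u))) hk
  have hφ : ∀ a, φ (residue O a) = mk (algebraMap O (chart O u) a) := fun a =>
    Ideal.Quotient.lift_mk _ _ _
  letI : Algebra (ResidueField O) (chart O u ⧸ y) := φ.toAlgebra
  have hint : IsIntegral (ResidueField O) (mk x) := by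
    obtain ⟨p, hp, hpx⟩ := x.2
    refine ⟨p.map ((residue O).comp (evalRingHom u₀)), hp.map _, ?_⟩
    rw [eval₂_map]
    have h1 : (algebraMap (ResidueField O) (chart O u ⧸ y)).comp
        ((residue O).comp (evalRingHom u₀)) = mk.comp (chartHom (O := O) u) := by
      apply Polynomial.ringHom_ext
      · intro a
        change φ (residue O ((C a).eval u₀)) = mk (chartHom u (C a))
        rw [hφ, eval_C]
        congr 1
        apply Subtype.ext
        exact (aeval_C u a).symm
      · change φ (residue O (X.eval u₀)) = mk (chartHom u X)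
        rw [hφ, eval_X]
        have h2 : chartHom (O := O) u X = ⟨u, self_mem_chart u⟩ := Subtype.ext (aeval_X u)
        rw [h2]
        exact (Ideal.Quotient.eq.mpr hu).symm
    rw [h1, ← hom_eval₂]
    have h3 : p.eval₂ (chartHom (O := O) u) x = 0 := by
      apply Subtype.ext
      change (chart O u).val.toRingHom _ = 0
      rw [hom_eval₂]
      exact hpx
    rw [h3, map_zero]
  have hbot : mk x ∈ (⊥ : Subalgebra (ResidueField O) (chart O u ⧸ y)) := by
    have h1 := minpoly.irreducible hint
    have h2 := IsAlgClosed.degree_eq_one_of_irreducible (ResidueField O) h1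
    exact minpoly.mem_range_of_degree_eq_one _ _ h2
  obtain ⟨b, hb⟩ := Algebra.mem_bot.mp hbot
  obtain ⟨c, rfl⟩ := residue_surjective b
  refine ⟨c, ?_⟩
  rw [← Ideal.Quotient.eq]
  exact hb.symm.trans (hφ c)

end Value

end Fermat.Agent.PR
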