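import Mathlib
import Fermat.Agent.PR.Two

/-!
The chart of `t` in terms of a better coordinate.
-/

set_option autoImplicit false
set_option linter.unusedSectionVars false
set_option linter.style.haveILetI false
set_option linter.unusedVariables false

open IsLocalRing Polynomial

universe u

namespace Fermat.Agent.PR

open Fermat.Agent.Geo Fermat.Agent.LG

section

variable {O M : Type u} [CommRing O] [IsDomain O] [UniqueFactorizationMonoid O] [Field M]
  [Algebra O M] {x t : M}

theorem gen_of (hx : IsParam O x) (h1 : x ^ 2 = t * (x + 16)) (h2 : (x + 16) * (t - x + 16) = 256)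
    (hu : IsUnit (2 : O)) (h16 : x + 16 ≠ 0) (hxt : x ∈ chart O t) :
    ∀ b ∈ chart O t, ∃ (B : O[X]) (e e' : M), e ∈ chart O t ∧ e' ∈ chart O t ∧
      e * e' = 1 ∧ b = e * aeval x B := by
  intro b hb
  letI : Algebra O[X] M := polyAlg O x
  haveI := hx.isFractionRing
  obtain ⟨p, hp, hpb⟩ := hb
  let s : O[X] := X + C 16
  have hs : s ≠ 0 := (monic_X_add_C _).ne_zero
  have hsx : algebraMap O[X] M s = x + 16 := by
    change aeval x s = _
    rw [map_add, aeval_X, aeval_C]
    exact congrArg (x + ·) (map_ofNat (algebraMap O M) 16)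
  let R' := Localization.Away s
  have hu1 : IsUnit (algebraMap O[X] M s) := by
    rw [hsx]; exact h16.isUnit
  letI : Algebra R' M := (IsLocalization.Away.lift (S := R') s hu1).toAlgebra
  have tw : IsScalarTower O[X] R' M := IsScalarTower.of_algebraMap_eq fun a => by
    change _ = IsLocalization.Away.lift s hu1 _
    rw [IsLocalization.Away.lift_eq]
  let g : O[X] →+* R' := eval₂RingHom ((algebraMap O[X] R').comp C)
    (algebraMap O[X] R' (X ^ 2) * IsLocalization.Away.invSelf s)
  have hg : (algebraMap R' M).comp g = ((aeval t : O[X] →ₐ[O] M) : O[X] →+* M) := by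
    apply Polynomial.ringHom_ext
    · intro a
      simp only [RingHom.comp_apply, g, coe_eval₂RingHom, eval₂_C, RingHom.coe_coe, aeval_C]
      rw [← IsScalarTower.algebraMap_apply]
      change aeval x (C a) = _
      rw [aeval_C]
    · simp only [RingHom.comp_apply, g, coe_eval₂RingHom, eval₂_X, RingHom.coe_coe, aeval_X]
      have e1 : algebraMap R' M (IsLocalization.Away.invSelf s) * (x + 16) = 1 := by
        rw [← hsx, IsScalarTower.algebraMap_apply O[X] R' M, ← map_mul, mul_comm,
          IsLocalization.Away.mul_invSelf, map_one]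
      rw [map_mul, ← IsScalarTower.algebraMap_apply]
      change aeval x (X ^ 2) * _ = _
      rw [map_pow, aeval_X, h1]
      linear_combination t * e1
  have hi : IsIntegral R' b := by
    refine ⟨p.map g, hp.map g, ?_⟩
    rw [eval₂_map, hg]
    exact hpb
  obtain ⟨m, hm⟩ := IsIntegral.exists_multiple_integral_of_isLocalization
    (Submonoid.powers s) b hi
  obtain ⟨k, hk⟩ := m.2
  obtain ⟨B, hB⟩ := (IsIntegrallyClosed.isIntegral_iff (R := O[X]) (K := M)).mp hm
  have hB' : aeval x B = (x + 16) ^ k * b := by
    change algebraMap O[X] M B = _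
    rw [hB, Submonoid.smul_def, Algebra.smul_def]
    have : algebraMap O[X] M (m : O[X]) = (x + 16) ^ k := by
      rw [← hk]
      simp only [map_pow, hsx]
    rw [this]
  obtain ⟨v, hv⟩ := (hu.pow 8).exists_right_inv
  have hv' : algebraMap O M v * 256 = 1 := by
    have := congrArg (algebraMap O M) hv
    rw [map_mul, map_pow, map_one, map_ofNat] at this
    linear_combination this
  have ht : t ∈ chart O t := by
    have := aeval_mem_chart (O := O) t X
    rwa [aeval_X] at this
  have h16c : ∀ n : ℕ, (n : M) ∈ chart O t := fun n => natCast_mem _ n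
  have h16' : (16 : M) ∈ chart O t := by
    have := h16c 16
    exact_mod_cast this
  refine ⟨B, (algebraMap O M v * (t - x + 16)) ^ k, (x + 16) ^ k, pow_mem (mul_mem
    ((chart O t).algebraMap_mem v) (add_mem (sub_mem ht hxt) h16')) k,
    pow_mem (add_mem hxt h16') k, ?_, ?_⟩
  · rw [← mul_pow]
    have : algebraMap O M v * (t - x + 16) * (x + 16) = 1 := by
      linear_combination (algebraMap O M v) * h2 + hv'
    rw [this, one_pow]
  · rw [hB', ← mul_assoc, ← mul_pow]
    have : algebraMap O M v * (t - x + 16) * (x + 16) = 1 := by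
      linear_combination (algebraMap O M v) * h2 + hv'
    rw [this, one_pow, one_mul]

theorem mem_chart_of (h1 : x ^ 2 = t * (x + 16)) : x ∈ chart O t := by
  refine ⟨X ^ 2 - C X * X - C (C 16 * X), ?_, ?_⟩
  · have : (X ^ 2 - C (X : O[X]) * X - C (C (16 : O) * X) : O[X][X]) =
        X ^ 2 + (- (C (X : O[X]) * X) - C (C (16 : O) * X)) := by
      ring
    rw [this]
    apply monic_X_pow_add
    refine (degree_sub_le _ _).trans_lt (max_lt ?_ ?_)
    · rw [degree_neg]
      refine (degree_C_mul_X_le _).trans_lt ?_
      norm_num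
    · refine degree_C_le.trans_lt ?_
      norm_num
  · have e : (algebraMap O M) 16 = 16 := map_ofNat (algebraMap O M) 16
    rw [eval₂_sub, eval₂_sub, eval₂_mul, eval₂_pow, eval₂_X, eval₂_C, eval₂_C, RingHom.coe_coe,
      aeval_X, map_mul, aeval_C, aeval_X, e]
    linear_combination h1

end

end Fermat.Agent.PR
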