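import Mathlib
import Fermat.Agent.PR.Four
import Fermat.Agent.PR.Gen
import Fermat.Agent.LG.Conc3

/-!
The function field of `X₀(4)`.
-/

set_option autoImplicit false
set_option linter.unusedSectionVars false
set_option linter.style.haveILetI false
set_option linter.unusedVariables false

open Matrix.SpecialLinearGroup CongruenceSubgroup ModularGroup
open scoped MatrixGroups ModularForm Manifold
open UpperHalfPlane hiding I J
open Complex (I)
open Fermat.Agent.ModFun IntermediateField Fermat.Agent.Geo IsLocalRing Fermat.Agent.LG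
open Fermat.Agent.Eis16 (up coe_up)
open Fermat.Agent.ESCore (HauptFn haupt2)
open ModularCurve (qExpand coeffMap)

noncomputable section

universe u

namespace Fermat.Agent.PR

theorem j_mul : ModularCurve.jqModC ℤ * tZ' ^ 2 = (tZ' + 256) ^ 3 := by
  have h1 : HasExp (Int.castRingHom ℂ) (qN 1) (tI haupt2) tZ' := hasExp_tI haupt2 _
  have h3 := (hasExp_J' (Int.castRingHom ℂ)).mul (h1.pow 2)
  have h4 := (h1.add (hasExp_const' 256)).pow 3
  have h5 : (J * (tI haupt2) ^ 2 : ℍ → ℂ) = ((tI haupt2 + fun _ => ((256 : ℕ) : ℂ)) ^ 3) := by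
    funext τ
    have := J_mul_sq τ
    simp only [Pi.mul_apply, Pi.pow_apply, Pi.add_apply]
    push_cast
    exact this
  rw [h5] at h3
  have h6 := h3.unique (RingHom.injective_int _) (isParam_qN 1) h4
  exact_mod_cast h6

theorem j2_mul : qExpand ℤ 2 (ModularCurve.jqModC ℤ) * tZ' = (tZ' + 16) ^ 3 := by
  have h1 : HasExp (Int.castRingHom ℂ) (qN 1) (tI haupt2) tZ' := hasExp_tI haupt2 _
  have h3 := (hasExp_up (hasExp_J' (Int.castRingHom ℂ))).mul h1
  have h4 := (h1.add (hasExp_const' 16)).pow 3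
  have h5 : ((fun τ => J (up 2 τ)) * (tI haupt2) : ℍ → ℂ) =
      ((tI haupt2 + fun _ => ((16 : ℕ) : ℂ)) ^ 3) := by
    funext τ
    have := J_up_mul τ
    simp only [Pi.mul_apply, Pi.pow_apply, Pi.add_apply]
    push_cast
    exact this
  rw [h5] at h3
  have h6 := h3.unique (RingHom.injective_int _) (isParam_qN 1) h4
  exact_mod_cast h6

theorem j4_mul : qExpand ℤ 4 (ModularCurve.jqModC ℤ) * t2Z = (t2Z + 16) ^ 3 := by
  have h := congrArg (qExpand ℤ 2) j2_mul
  rw [map_mul, ModularCurve.qExpand_qExpand, map_pow, map_add, map_ofNat] at h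
  exact h

/-- the Hauptmodul of level four -/
def xS (R : Type*) [CommRing R] : LaurentSeries R := coeffMap (Int.castRingHom R) xZ

variable (R : Type*) [CommRing R]

theorem coeffMap_xS {S : Type*} [CommRing S] (f : R →+* S) : coeffMap f (xS R) = xS S := by
  rw [xS, xS]
  ext n
  simp only [ModularCurve.coeffMap_coeff]
  simp

theorem leadU_xS : LeadU (xS R) (-1) := leadU_x.coeffMap _

theorem cm_t : coeffMap (Int.castRingHom R) tZ' = tS R 2 16 := coeffMap_tS _ 2 16

theorem cm_t2 : coeffMap (Int.castRingHom R) t2Z = qExpand R 2 (tS R 2 16) := by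
  rw [t2Z, coeffMap_qExpand, coeffMap_tS]

theorem xS_sq : xS R ^ 2 = tS R 2 16 * (xS R + 16) := by
  have h := congrArg (coeffMap (Int.castRingHom R)) xZ_sq
  rw [map_pow, map_mul, map_add, map_ofNat, cm_t] at h
  exact h

theorem t2S_eq : qExpand R 2 (tS R 2 16) = xS R * (xS R + 16) := by
  have h := congrArg (coeffMap (Int.castRingHom R)) t2_eq_x
  rw [map_mul, map_add, map_ofNat, cm_t2] at h
  exact h

theorem xS_mul : (xS R + 16) * (tS R 2 16 - xS R + 16) = 256 := by
  linear_combination -xS_sq R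

theorem xS_spec : xS R * (tS R 2 16 + 16) = qExpand R 2 (tS R 2 16) - 16 * tS R 2 16 := by
  linear_combination -xS_sq R - t2S_eq R

theorem jS_mul : ModularCurve.jqModC R * tS R 2 16 ^ 2 = (tS R 2 16 + 256) ^ 3 := by
  have h := congrArg (coeffMap (Int.castRingHom R)) j_mul
  rw [map_mul, map_pow, map_pow, map_add, map_ofNat, cm_t, coeffMap_jqModC] at h
  exact h

theorem j2S_mul : qExpand R 2 (ModularCurve.jqModC R) * tS R 2 16 = (tS R 2 16 + 16) ^ 3 := by
  have h := congrArg (coeffMap (Int.castRingHom R)) j2_mul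
  rw [map_mul, map_pow, map_add, map_ofNat, cm_t, coeffMap_qExpand, coeffMap_jqModC] at h
  exact h

theorem j4S_mul : qExpand R 4 (ModularCurve.jqModC R) * qExpand R 2 (tS R 2 16) =
    (qExpand R 2 (tS R 2 16) + 16) ^ 3 := by
  have h := congrArg (coeffMap (Int.castRingHom R)) j4_mul
  rw [map_mul, map_pow, map_add, map_ofNat, cm_t2, coeffMap_qExpand, coeffMap_jqModC] at h
  exact h

section Field

variable (k : Type*) [Field k]

theorem xS_add_ne (n : ℕ) : xS k + (n : LaurentSeries k) ≠ 0 :=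
  (LeadU.add_const (leadU_xS k) (by norm_num) n).ne_zero

theorem xS16_ne : xS k + 16 ≠ 0 := by
  have := xS_add_ne k 16
  exact_mod_cast this

theorem tS16_ne : tS k 2 16 + 16 ≠ 0 := by
  have := (LeadU.add_const (leadU_t (R := k)) (by norm_num) 16).ne_zero
  exact_mod_cast this

theorem xS_pow {q : ℕ} [NeZero q] [ExpChar k q] : xS k ^ q = qExpand k q (xS k) := by
  rw [pow_eq_qExpand, coeffMap_xS]

theorem order_xS : (xS k).order = -1 := (leadU_xS k).order_eq

theorem transcendental_xS : Transcendental k (xS k) :=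
  transcendental_of_order_neg (by rw [order_xS]; norm_num)

theorem xS_mem_F0 (ι : k →+* ℂ) {N : ℕ} [NeZero N] (h : 4 ∣ N) : xS k ∈ F0 k N := by
  have h1 : tS k 2 16 ∈ F0 k N := tS_mem_F0 haupt2 ι ((by norm_num : (2 : ℕ) ∣ 4).trans h)
  have h2 : qExpand k 2 (tS k 2 16) ∈ F0 k N :=
    qExpand_mem_F0_of_dvd (M := 2) (by exact h) (tS_mem_F0 haupt2 ι dvd_rfl)
  have h3 : xS k = (qExpand k 2 (tS k 2 16) - 16 * tS k 2 16) / (tS k 2 16 + 16) := by
    rw [eq_div_iff (tS16_ne k)]
    exact xS_spec k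
  have h16 : (16 : LaurentSeries k) ∈ F0 k N := by
    have := _root_.natCast_mem (F0 k N) 16
    exact_mod_cast this
  rw [h3]
  exact div_mem (sub_mem h2 (mul_mem h16 h1)) (add_mem h1 h16)

theorem F0_four_le (T : IntermediateField k (LaurentSeries k)) (hx : xS k ∈ T) : F0 k 4 ≤ T := by
  have hn : ∀ n : ℕ, (n : LaurentSeries k) ∈ T := fun n => _root_.natCast_mem T n
  have h16 : (16 : LaurentSeries k) ∈ T := by exact_mod_cast hn 16
  have h256 : (256 : LaurentSeries k) ∈ T := by exact_mod_cast hn 256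
  have ht0 : tS k 2 16 ≠ 0 := (leadU_t (R := k)).ne_zero
  have ht : tS k 2 16 ∈ T := by
    have : tS k 2 16 = xS k ^ 2 / (xS k + 16) := by
      rw [eq_div_iff (xS16_ne k)]; exact (xS_sq k).symm
    rw [this]
    exact div_mem (pow_mem hx 2) (add_mem hx h16)
  have ht2 : qExpand k 2 (tS k 2 16) ∈ T := by
    rw [t2S_eq]
    exact mul_mem hx (add_mem hx h16)
  have ht20 : qExpand k 2 (tS k 2 16) ≠ 0 := ((leadU_t (R := k)).qExpand 2).ne_zero
  have hj : ModularCurve.jqModC k ∈ T := by
    have : ModularCurve.jqModC k = (tS k 2 16 + 256) ^ 3 / tS k 2 16 ^ 2 := by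
      rw [eq_div_iff (pow_ne_zero 2 ht0)]; exact jS_mul k
    rw [this]
    exact div_mem (pow_mem (add_mem ht h256) 3) (pow_mem ht 2)
  have hj2 : qExpand k 2 (ModularCurve.jqModC k) ∈ T := by
    have : qExpand k 2 (ModularCurve.jqModC k) = (tS k 2 16 + 16) ^ 3 / tS k 2 16 := by
      rw [eq_div_iff ht0]; exact j2S_mul k
    rw [this]
    exact div_mem (pow_mem (add_mem ht h16) 3) ht
  have hj4 : qExpand k 4 (ModularCurve.jqModC k) ∈ T := by
    have : qExpand k 4 (ModularCurve.jqModC k) =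
        (qExpand k 2 (tS k 2 16) + 16) ^ 3 / qExpand k 2 (tS k 2 16) := by
      rw [eq_div_iff ht20]; exact j4S_mul k
    rw [this]
    exact div_mem (pow_mem (add_mem ht2 h16) 3) ht2
  rw [IntermediateField.adjoin_le_iff]
  rintro x ⟨d, hd0, hd, rfl⟩
  have hd4 : d ≤ 4 := Nat.le_of_dvd (by norm_num) hd
  interval_cases d
  · exact absurd rfl hd0.out
  · rw [ModularCurve.qExpand_one_apply]; exact hj
  · exact hj2
  · norm_num at hd
  · exact hj4

theorem F0_four_eq (ι : k →+* ℂ) : F0 k 4 = IntermediateField.adjoin k {xS k} := by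
  apply le_antisymm
  · exact F0_four_le k _ (IntermediateField.mem_adjoin_simple_self k _)
  · rw [IntermediateField.adjoin_le_iff, Set.singleton_subset_iff]
    exact xS_mem_F0 k ι dvd_rfl

end Field

end Fermat.Agent.PR
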