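import Mathlib
import Fermat.Agent.PR.Two

/-!
Transversality of the crossings.
-/

set_option autoImplicit false
set_option linter.unusedSectionVars false
set_option linter.style.haveILetI false
set_option linter.unusedVariables false

open IsLocalRing Polynomial

universe u

namespace Fermat.Agent.PR

open Fermat.Agent.Geo Fermat.Agent.LG Fermat.Agent.CA Fermat.Agent.MP

section

variable {O K M F : Type u} [CommRing O] [IsDomain O] [IsDiscreteValuationRing O] [CharZero O]
  [Field K] [Field M] [Field F] [Algebra O K] [Algebra O M] [Algebra O F] [Algebra K M]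
  [Algebra K F] [Algebra M F] [IsScalarTower O K M] [IsScalarTower O K F] [IsScalarTower K M F]
  [IsScalarTower O M F]
  {t : K} {π : O} [FiniteDimensional K M] [Algebra.IsSeparable K M]
  [FiniteDimensional K F] [Algebra.IsSeparable K F]
  {ht : IsParam O t} {hπ : Prime π} {q : ℕ} {c : ℕ → ℤ[X]} {C₀ : ℤ}
  {P : Fin 2 → ValuationSubring F} {w : F ≃+* F} {a1 a2 : F}

/-- a good coordinate -/
structure Coord (O : Type u) {M F : Type u} [CommRing O] [Field M] [Field F]
    [Algebra O M] [Algebra M F] (tM : M) (q : ℕ)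
    (P : Fin 2 → ValuationSubring F) (w : F ≃+* F) (x : M) : Prop where
  mem : x ∈ chart O tM
  gen : ∀ b ∈ chart O tM, ∃ (B : O[X]) (e e' : M), e ∈ chart O tM ∧ e' ∈ chart O tM ∧
    e * e' = 1 ∧ b = e * aeval x B
  frob : w (algebraMap M F x) - algebraMap M F x ^ q ∈ (P 0).nonunits

variable (T : Duo (M := M) ht hπ q c C₀ P w) (D : DU (algebraMap K F t) π P w a1 a2)

/-- the involution of the chart -/
def Duo.wC (T : Duo (M := M) ht hπ q c C₀ P w) :
    chart O (algebraMap K F t) →+* chart O (algebraMap K F t) where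
  toFun x := ⟨w x, T.w_chart x.2⟩
  map_one' := by ext; simp
  map_mul' a b := by ext; simp
  map_zero' := by ext; simp
  map_add' a b := by ext; simp

theorem Duo.coe_wC (x : chart O (algebraMap K F t)) :
    ((T.wC x : chart O (algebraMap K F t)) : F) = w x := rfl

theorem Duo.wC_wC (x : chart O (algebraMap K F t)) : T.wC (T.wC x) = x := by
  apply Subtype.ext
  rw [T.coe_wC, T.coe_wC, T.ww]

section Pt

variable {y : Ideal (chart O (algebraMap K F t))} [hy : y.IsPrime]

theorem Duo.mem_locS_comap {x : F} :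
    x ∈ locS (y.comap T.wC) ↔ w x ∈ locS y := by
  constructor
  · rintro ⟨d, hd, hdx⟩
    refine ⟨T.wC d, hd, ?_⟩
    rw [T.coe_wC, ← map_mul]
    exact T.w_chart hdx
  · rintro ⟨d, hd, hdx⟩
    refine ⟨T.wC d, ?_, ?_⟩
    · rw [Ideal.mem_comap, T.wC_wC]; exact hd
    · have h1 := T.w_chart hdx
      rwa [map_mul, T.ww] at h1

theorem Duo.locM_comap {x : F} :
    locM (y.comap T.wC) x ↔ locM y (w x) := by
  constructor
  · rintro ⟨d, hd, e, he, hde⟩
    refine ⟨T.wC d, hd, T.wC e, he, ?_⟩
    rw [T.coe_wC, T.coe_wC, ← map_mul, hde]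
  · rintro ⟨d, hd, e, he, hde⟩
    refine ⟨T.wC d, ?_, T.wC e, ?_, ?_⟩
    · rw [Ideal.mem_comap, T.wC_wC]; exact hd
    · rw [Ideal.mem_comap, T.wC_wC]; exact he
    · have h1 := congrArg w hde
      rw [map_mul, T.ww] at h1
      exact h1

end Pt

include T D in
theorem gen0 [IsAlgClosed (ResidueField O)] {x : M} (Cx : Coord O (algebraMap K M t) q P w x)
    {y : Ideal (chart O (algebraMap K F t))} [hy : y.IsMaximal]
    (hty : ¬ locM y (algebraMap K F t)) (h0 : Meets y (P 0)) :
    ∃ c₀ : O, locM y (algebraMap M F x - algebraMap O F c₀) ∧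
      ∀ z, locM y z → ∃ a ∈ locS y, ∃ b ∈ locS y,
        z = a2 * a + (algebraMap M F x - algebraMap O F c₀) * b := by
  have hxc : algebraMap M F x ∈ chart O (algebraMap K F t) := T.chartM Cx.mem
  have hπy : algebraMap O (chart O (algebraMap K F t)) π ∈ y := by
    have h1 : locM y (algebraMap O F π) :=
      locM_of_nonunits (T.sys.ov 0) h0 (mem_locS_of_mem ((chart O _).algebraMap_mem π))
        (T.π_nonunit 0)
    exact locM_coe_iff.mp h1
  obtain ⟨c₀, hc₀⟩ := exists_value hπ hπy ⟨_, hxc⟩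
  have hM1 : locM y (algebraMap M F x - algebraMap O F c₀) := locM_of_mem hc₀
  refine ⟨c₀, hM1, ?_⟩
  have l1 := loc_of T D hty D.ch1
  have E0 := locEq0 T D hty h0
  rintro z ⟨d, hd, e, he, hde⟩
  -- reduce to the chart of `M`
  have heP : (e : F) ∈ P 0 := chart_mem_over (T.sys.ov 0) e.2
  obtain ⟨p, hp, hpe⟩ := e.2
  obtain ⟨b, hb, hbe⟩ := T.normal0 heP p hp (by rw [hpe]; exact zero_mem_nonunits _)
  have hbF := T.chartM (F := F) hb
  have hsub : (e : F) - algebraMap M F b ∈ chart O (algebraMap K F t) := sub_mem e.2 hbF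
  have hs := E0.gen _ hsub hbe
  obtain ⟨B, g, g', hg, hg', hgg, hbB⟩ := Cx.gen b hb
  have hgF : algebraMap M F g ∈ locS y := mem_locS_of_mem (T.chartM hg)
  have hgF' : algebraMap M F g' ∈ locS y := mem_locS_of_mem (T.chartM hg')
  -- the polynomial
  obtain ⟨R, hR⟩ : (X - C c₀) ∣ B - C (B.eval c₀) := by
    rw [dvd_iff_isRoot, IsRoot.def, eval_sub, eval_C, sub_self]
  have hBR : B = C (B.eval c₀) + (X - C c₀) * R := by rw [← hR]; ring
  have haev : algebraMap M F (aeval x B) = algebraMap O F (B.eval c₀) +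
      (algebraMap M F x - algebraMap O F c₀) * aeval (algebraMap M F x) R := by
    rw [← aeval_algebraMap_apply]
    conv_lhs => rw [hBR]
    rw [map_add, map_mul, aeval_C, map_sub, aeval_X, aeval_C]
  have hRl : aeval (algebraMap M F x) R ∈ locS y := by
    rw [aeval_eq_sum_range]
    refine Subring.sum_mem _ fun i _ => ?_
    rw [Algebra.smul_def]
    exact Subring.mul_mem _ (mem_locS_of_mem ((chart O _).algebraMap_mem _))
      (Subring.pow_mem _ (mem_locS_of_mem hxc) _)
  -- `b` is in `y`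
  have hbM : locM y (algebraMap M F b) := by
    have h1 : locM y ((e : F) - algebraMap M F b) :=
      locM_of_nonunits (T.sys.ov 0) h0 (mem_locS_of_mem hsub) hbe
    have h2 := (locM_of_mem he).sub h1
    rwa [sub_sub_cancel] at h2
  have hBc : locM y (algebraMap O F (B.eval c₀)) := by
    have h1 : locM y (algebraMap M F (aeval x B)) := by
      have h2 := hbM.mul_right hgF'
      rw [hbB, map_mul] at h2
      have h3 : algebraMap M F g * algebraMap M F (aeval x B) * algebraMap M F g' =
          algebraMap M F (aeval x B) := by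
        have : algebraMap M F g * algebraMap M F g' = 1 := by rw [← map_mul, hgg, map_one]
        linear_combination algebraMap M F (aeval x B) * this
      rwa [h3] at h2
    rw [haev] at h1
    have h2 := h1.sub (hM1.mul_right hRl)
    rwa [add_sub_cancel_right] at h2
  obtain ⟨v, hv⟩ : π ∣ B.eval c₀ := by
    by_contra hcon
    have hu : IsUnit (B.eval c₀) := by
      by_contra hnu
      apply hcon
      have : B.eval c₀ ∈ maximalIdeal O := hnu
      rw [hπ.irreducible.maximalIdeal_eq, Ideal.mem_span_singleton] at this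
      exact this
    obtain ⟨u, hu⟩ := hu
    have h3 := hBc.mul_right (b := algebraMap O F (↑u⁻¹ : O))
      (mem_locS_of_mem ((chart O _).algebraMap_mem _))
    rw [← map_mul, ← hu, Units.mul_inv, map_one] at h3
    exact not_locM_one h3
  have hdi := inv_mem_locS hd
  have hd0 := ne_zero_of_notMem hd
  have hvl : algebraMap O F v ∈ locS y := mem_locS_of_mem ((chart O _).algebraMap_mem _)
  refine ⟨(d : F)⁻¹ * (((e : F) - algebraMap M F b) / a2 + algebraMap M F g * (a1 *
    algebraMap O F v)), Subring.mul_mem _ hdi (Subring.add_mem _ hs (Subring.mul_mem _ hgF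
      (Subring.mul_mem _ l1 hvl))), (d : F)⁻¹ * (algebraMap M F g * aeval (algebraMap M F x) R),
    Subring.mul_mem _ hdi (Subring.mul_mem _ hgF hRl), ?_⟩
  have ha2 := (a_ne T D).2
  have hz : z = (d : F)⁻¹ * e := by
    rw [← hde, inv_mul_cancel_left₀ hd0]
  have hb2 : algebraMap M F b = algebraMap M F g * (algebraMap O F π * algebraMap O F v +
      (algebraMap M F x - algebraMap O F c₀) * aeval (algebraMap M F x) R) := by
    conv_lhs => rw [hbB, map_mul, haev, hv, map_mul]
  rw [hz, ← D.prod] at *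
  have e1 : a2 * (((e : F) - algebraMap M F b) / a2) = (e : F) - algebraMap M F b := by
    field_simp
  linear_combination (-(d : F)⁻¹) * e1 + ((d : F)⁻¹) * hb2

include T D in
theorem gen1 [IsAlgClosed (ResidueField O)] {x : M} (Cx : Coord O (algebraMap K M t) q P w x)
    {y : Ideal (chart O (algebraMap K F t))} [hy : y.IsMaximal]
    (hty : ¬ locM y (algebraMap K F t)) (h0 : Meets y (P 0)) (h1 : Meets y (P 1)) :
    ∃ c₁ : O, locM y (w (algebraMap M F x) - algebraMap O F c₁) ∧
      ∀ z, locM y z → ∃ a ∈ locS y, ∃ b ∈ locS y,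
        z = a1 * a + (w (algebraMap M F x) - algebraMap O F c₁) * b := by
  haveI hy' : (y.comap T.wC).IsMaximal := by
    refine Ideal.comap_isMaximal_of_surjective T.wC ?_
    intro z
    exact ⟨T.wC z, T.wC_wC z⟩
  have m0 : Meets (y.comap T.wC) (P 0) := by
    intro z hz
    rw [Ideal.mem_comap]
    exact h1 _ (by rw [T.coe_wC]; exact (T.w1_nonunits _).mpr hz)
  have m1 : Meets (y.comap T.wC) (P 1) := by
    intro z hz
    rw [Ideal.mem_comap]
    exact h0 _ (by rw [T.coe_wC]; exact (T.w0_nonunits _).mpr hz)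
  have hty' := not_locM_t T m0 m1
  obtain ⟨c₁, hc₁, hgen⟩ := gen0 T D Cx hty' m0
  refine ⟨c₁, ?_, fun z hz => ?_⟩
  · rw [T.locM_comap, map_sub, T.wO] at hc₁
    exact hc₁
  · have hwz : locM (y.comap T.wC) (w z) := by
      rw [T.locM_comap, T.ww]; exact hz
    obtain ⟨a, ha, b, hb, hab⟩ := hgen _ hwz
    obtain ⟨ε, ⟨v, rfl⟩, hw⟩ := D.wa
    have h2 : w a2 = algebraMap O F (↑v⁻¹ : O) * a1 := by
      have h3 := congrArg w hw
      rw [T.ww, map_mul, T.wO] at h3
      rw [h3, ← mul_assoc, ← map_mul, Units.inv_mul, map_one, one_mul]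
    refine ⟨algebraMap O F (↑v⁻¹ : O) * w a, Subring.mul_mem _
      (mem_locS_of_mem ((chart O _).algebraMap_mem _)) (T.mem_locS_comap.mp ha), w b,
      T.mem_locS_comap.mp hb, ?_⟩
    have h4 := congrArg w hab
    rw [T.ww, map_add, map_mul, map_mul, map_sub, T.wO, h2] at h4
    rw [h4]; ring

include T D in
theorem gen_cross [IsAlgClosed (ResidueField O)] {x : M}
    (Cx : Coord O (algebraMap K M t) q P w x)
    {y : Ideal (chart O (algebraMap K F t))} [hy : y.IsMaximal]
    (h0 : Meets y (P 0)) (h1 : Meets y (P 1)) (z : F) (hz : locM y z) :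
    ∃ a ∈ locS y, ∃ b ∈ locS y, z = a1 * a + a2 * b := by
  have hty := not_locM_t T h0 h1
  haveI : IsNoetherianRing (chart O (algebraMap K F t)) := isNoetherianRing_chart ht
  haveI : IsNoetherianRing (locS y) := isNoetherianRing_locS
  haveI : IsLocalRing (locS y) := isLocalRing_locS
  obtain ⟨c₀, hc₀, hg0⟩ := gen0 T D Cx hty h0
  obtain ⟨c₁, hc₁, hg1⟩ := gen1 T D Cx hty h0 h1
  have l1 := loc_of T D hty D.ch1
  have l2 := loc_of T D hty D.ch2
  have E0 := locEq0 T D hty h0
  have E1 := locEq1 T D hty h1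
  have M1 : locM y a1 := locM_of_nonunits (T.sys.ov 1) h1 l1 (a1_non T D)
  have M2 : locM y a2 := locM_of_nonunits (T.sys.ov 0) h0 l2 (a2_non T D)
  set X := algebraMap M F x with hX
  have hxc : X ∈ chart O (algebraMap K F t) := T.chartM Cx.mem
  have hwxc : w X ∈ chart O (algebraMap K F t) := T.w_chart hxc
  have Ol : ∀ a : O, algebraMap O F a ∈ locS y := fun a =>
    mem_locS_of_mem ((chart O _).algebraMap_mem a)
  -- the Frobenius congruence
  have hfr : X - w X ^ q ∈ (P 1).nonunits := by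
    have := (T.w1_nonunits _).mpr Cx.frob
    rwa [map_sub, map_pow, T.ww] at this
  have hs := E1.gen _ (sub_mem hxc (pow_mem hwxc q)) hfr
  have hsM : locM y (X - w X ^ q) := locM_of_nonunits (T.sys.ov 1) h1
    (mem_locS_of_mem (sub_mem hxc (pow_mem hwxc q))) hfr
  obtain ⟨r, hr⟩ := exists_add_pow_prime_eq T.prime
    (⟨w X - algebraMap O F c₁, hc₁.mem⟩ : locS y) ⟨algebraMap O F c₁, Ol c₁⟩
  have hr' : w X ^ q = (w X - algebraMap O F c₁) ^ q + algebraMap O F c₁ ^ q +
      (q : F) * (w X - algebraMap O F c₁) * algebraMap O F c₁ * r := by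
    have h2 := congrArg (fun s : locS y => (s : F)) hr
    have h3 : w X - algebraMap O F c₁ + algebraMap O F c₁ = w X := sub_add_cancel _ _
    have h4 : (w X - algebraMap O F c₁ + algebraMap O F c₁) ^ q =
      (w X - algebraMap O F c₁) ^ q + algebraMap O F c₁ ^ q +
      ((q : locS y) : F) * (w X - algebraMap O F c₁) * algebraMap O F c₁ * (r : F) := h2
    rw [h3] at h4
    exact h4
  have hqF : (q : F) = a1 * a2 := by rw [T.q_cast, D.prod]
  -- comparison of the constants
  have hqM : locM y ((q : ℕ) : F) := q_locM T h0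
  have hcc : locM y (algebraMap O F (c₀ - c₁ ^ q)) := by
    have h2 : algebraMap O F (c₀ - c₁ ^ q) = (X - w X ^ q) - (X - algebraMap O F c₀) +
        (w X - algebraMap O F c₁) ^ q +
        (q : F) * ((w X - algebraMap O F c₁) * algebraMap O F c₁ * r) := by
      rw [map_sub, map_pow]
      linear_combination hr'
    rw [h2]
    refine ((hsM.sub hc₀).add (hc₁.pow T.prime.pos)).add (hqM.mul_right ?_)
    exact Subring.mul_mem _ (Subring.mul_mem _ hc₁.mem (Ol _)) r.2
  obtain ⟨v, hv⟩ : π ∣ c₀ - c₁ ^ q := by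
    by_contra hcon
    have hu : IsUnit (c₀ - c₁ ^ q) := by
      by_contra hnu
      apply hcon
      have : c₀ - c₁ ^ q ∈ maximalIdeal O := hnu
      rw [hπ.irreducible.maximalIdeal_eq, Ideal.mem_span_singleton] at this
      exact this
    obtain ⟨u, hu⟩ := hu
    have h3 := hcc.mul_right (Ol (↑u⁻¹ : O))
    rw [← map_mul, ← hu, Units.mul_inv, map_one] at h3
    exact not_locM_one h3
  have hcv : algebraMap O F c₀ = algebraMap O F c₁ ^ q + a1 * a2 * algebraMap O F v := by
    have h2 := congrArg (algebraMap O F) hv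
    rw [map_sub, map_pow, map_mul, ← D.prod] at h2
    linear_combination h2
  -- the key identity
  have ha1 := (a_ne T D).1
  have key : X - algebraMap O F c₀ = a1 * ((X - w X ^ q) / a1 + a2 * ((w X - algebraMap O F c₁) *
      algebraMap O F c₁ * r) - a2 * algebraMap O F v) + (w X - algebraMap O F c₁) ^ q := by
    have e1 : a1 * ((X - w X ^ q) / a1) = X - w X ^ q := by field_simp
    rw [hqF] at hr'
    linear_combination (-1) * e1 + hr' - hcv
  -- Nakayama
  let I : Ideal (locS y) := Ideal.span {(⟨a1, l1⟩ : locS y), ⟨a2, l2⟩}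
  have hle : maximalIdeal (locS y) ≤ I := by
    refine Submodule.le_of_le_smul_of_le_jacobson_bot (I := maximalIdeal (locS y))
      (IsNoetherian.noetherian _) (maximalIdeal_le_jacobson _) ?_
    intro s hsm
    rw [mem_maximalIdeal_locS] at hsm
    obtain ⟨a, ha, b, hb, hab⟩ := hg0 _ hsm
    have hb' : locM y (w X - algebraMap O F c₁) := hc₁
    obtain ⟨n, hn⟩ : ∃ n, q = n + 2 := ⟨q - 2, by have := T.prime.two_le; omega⟩
    have hk1 : (X - w X ^ q) / a1 + a2 * ((w X - algebraMap O F c₁) *
      algebraMap O F c₁ * r) - a2 * algebraMap O F v ∈ locS y :=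
      Subring.sub_mem _ (Subring.add_mem _ hs (Subring.mul_mem _ l2
        (Subring.mul_mem _ (Subring.mul_mem _ hc₁.mem (Ol _)) r.2))) (Subring.mul_mem _ l2 (Ol _))
    have e : s = (⟨a2, l2⟩ * ⟨a, ha⟩ + ⟨a1, l1⟩ * ⟨_, Subring.mul_mem _ hk1 hb⟩) +
        ⟨w X - algebraMap O F c₁, hc₁.mem⟩ * (⟨w X - algebraMap O F c₁, hc₁.mem⟩ *
          ⟨(w X - algebraMap O F c₁) ^ n * b, Subring.mul_mem _ (Subring.pow_mem _ hc₁.mem n) hb⟩) := by
      apply Subtype.ext
      change (s : F) = (a2 * a + a1 * (_ * b)) + (w X - algebraMap O F c₁) *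
        ((w X - algebraMap O F c₁) * ((w X - algebraMap O F c₁) ^ n * b))
      have hpow : (w X - algebraMap O F c₁) ^ q = (w X - algebraMap O F c₁) *
        ((w X - algebraMap O F c₁) * (w X - algebraMap O F c₁) ^ n) := by
        rw [hn]; ring
      rw [hab]
      linear_combination b * key + b * hpow
    rw [e]
    refine Submodule.add_mem_sup (Ideal.add_mem _ ?_ ?_) ?_
    · exact Ideal.mul_mem_right _ _ (Ideal.subset_span (by simp))
    · exact Ideal.mul_mem_right _ _ (Ideal.subset_span (by simp))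
    · rw [smul_eq_mul]
      refine Ideal.mul_mem_mul ?_ (Ideal.mul_mem_right _ _ ?_)
      · rw [mem_maximalIdeal_locS]; exact hc₁
      · rw [mem_maximalIdeal_locS]; exact hc₁
  have hzl := hz.mem
  have hz' : (⟨z, hzl⟩ : locS y) ∈ I := hle (mem_maximalIdeal_locS.mpr hz)
  obtain ⟨a, b, hab⟩ := Ideal.mem_span_pair.mp hz'
  refine ⟨a, a.2, b, b.2, ?_⟩
  have h2 := congrArg (fun s : locS y => (s : F)) hab
  have h3 : (a : F) * a1 + (b : F) * a2 = z := h2
  rw [← h3]; ring

include T D in
/-- **The geometric hypotheses of the slope theorem.** -/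
theorem twoComp [IsAlgClosed (ResidueField O)] {x : M}
    (Cx : Coord O (algebraMap K M t) q P w x) : TwoComp ht hπ (P 0) (P 1) a1 a2 where
  over₁ := T.sys.ov 0
  over₀ := T.sys.ov 1
  unif₁ := T.unif0
  unif₀ := T.unif1
  sm₁ y _ h0 h1 := smPt T (by intro k hk; match k with | 0 => exact (hk rfl).elim | 1 => rfl) h0 h1
  sm₀ y _ h0 h1 := smPt T (by intro k hk; match k with | 1 => exact (hk rfl).elim | 0 => rfl) h0 h1
  cr y _ h0 h1 :=
    { eq₀ := locEq1 T D (not_locM_t T h0 h1) h1
      eq₁ := locEq0 T D (not_locM_t T h0 h1) h0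
      val₁ := T.valAt 0 h0
      val₀ := T.valAt 1 h1
      mul := ⟨1, one_mem _, not_locM_one, by rw [mul_one, D.prod]⟩
      gen := fun z hz => gen_cross T D Cx h0 h1 z hz }
  smi₁ y _ hty h0 := smPt' T hty h0
  smi₀ y _ hty h1 := smPt' T hty h1

end

end Fermat.Agent.PR
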