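import Mathlib
import Fermat.Agent.PR.DuoC
import Fermat.Agent.PR.Trans
import Fermat.Agent.PR.Four2
import Fermat.Agent.CA.CarJ

/-!
The two-component reduction of `X₀(qM)`: the concrete curve.
-/

set_option autoImplicit false
set_option linter.unusedSectionVars false
set_option linter.style.haveILetI false
set_option linter.unusedVariables false

open IsLocalRing Polynomial ModularCurve IntermediateField

noncomputable section

universe u

namespace Fermat.Agent.PR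

open Fermat.Agent.Geo Fermat.Agent.LG Fermat.Agent.CA Fermat.Agent.MP Fermat.Agent.ModFun
open Fermat.Agent.ESCore (HauptFn haupt2)
open Fermat.Agent.CB

section Abs

variable {O L K M F : Type u} [CommRing O] [IsDomain O] [IsDiscreteValuationRing O] [CharZero O]
  [Field L] [Algebra O L] [IsFractionRing O L]
  [Field K] [Field M] [Field F] [Algebra O K] [Algebra O M] [Algebra O F] [Algebra K M]
  [Algebra K F] [Algebra M F] [IsScalarTower O K M] [IsScalarTower O K F] [IsScalarTower K M F]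
  [IsScalarTower O M F]
  {t : K} {π : O} [FiniteDimensional K M] [Algebra.IsSeparable K M]
  [FiniteDimensional K F] [Algebra.IsSeparable K F]
  {ht : IsParam O t} {hπ : Prime π} {q : ℕ} {c : ℕ → ℤ[X]} {C₀ : ℤ}
  {P : Fin 2 → ValuationSubring F} {w : F ≃+* F} {a1 a2 : F}

theorem Duo.ov_of (T : Duo (M := M) ht hπ q c C₀ P w) {x : F}
    (hx : x ∈ ovL π (algebraMap K F t)) (hP : ∀ i, x ∈ P i) :
    ∃ n : ℕ, algebraMap K F t ^ n * x ∈ chart O (algebraMap K F t) := by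
  obtain ⟨m, n, h⟩ := hx
  refine ⟨n, mem_chart_of_forall ht hπ (n := m) (fun W hW => ?_) h⟩
  obtain ⟨i, rfl⟩ := T.sys.all W hW
  exact (P i).mul_mem _ _ (pow_mem (chart_mem_over (T.sys.ov i) (self_mem_chart _)) n) (hP i)

theorem du_of (T : Duo (M := M) ht hπ q c C₀ P w) {θ : F →+* LaurentSeries L}
    (hP0 : ∀ x, x ∈ P 0 ↔ θ x ∈ gV O L) {U : LaurentSeries O} {ε : O}
    (f1 : θ a1 = toL O L U) (k1 : toK O U ≠ 0)
    (hw : w a1 * a1 = algebraMap O F (ε * π)) (hε : ε * ε = 1)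
    (o1 : a1 ∈ ovL π (algebraMap K F t)) (o1' : a1⁻¹ ∈ ovL π (algebraMap K F t)) :
    DU (algebraMap K F t) π P w a1 (algebraMap O F π / a1) := by
  have a1_ne : a1 ≠ 0 := by
    intro h0
    rw [h0, map_zero] at f1
    apply k1
    have h1 := toL_injective (O := O) (L := L) (f1.symm.trans (map_zero _).symm)
    rw [h1, map_zero]
  have hεF : algebraMap O F ε * algebraMap O F ε = 1 := by rw [← map_mul, hε, map_one]
  have hwa : w a1 = algebraMap O F ε * (algebraMap O F π / a1) := by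
    rw [mul_div_assoc', eq_div_iff a1_ne, hw, map_mul]
  have m0 : a1 ∈ P 0 ∧ a1⁻¹ ∈ P 0 := by
    rw [hP0, hP0, map_inv₀, f1]
    exact toL_unit k1
  have a2_0 : algebraMap O F π / a1 ∈ P 0 := by
    rw [div_eq_mul_inv]
    exact (P 0).mul_mem _ _ (T.O_mem 0 π) m0.2
  have m1 : a1 ∈ P 1 := by
    rw [← T.wP, hwa]
    exact (P 0).mul_mem _ _ (T.O_mem 0 _) a2_0
  have ha2w : algebraMap O F π / a1 = algebraMap O F ε * w a1 := by
    rw [hwa, ← mul_assoc, hεF, one_mul]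
  have w0 : w a1 ∈ P 0 := by rw [T.wP]; exact m1
  have w1 : w a1 ∈ P 1 := by rw [← T.wP, T.ww]; exact m0.1
  refine ⟨mul_div_cancel₀ _ a1_ne, T.ov_of o1 ?_, T.ov_of ?_ ?_,
    ⟨ε, IsUnit.of_mul_eq_one _ hε, hwa⟩, m0.2, m0.1⟩
  · rw [Fin.forall_fin_two]; exact ⟨m0.1, m1⟩
  · rw [div_eq_mul_inv]
    exact mul_mem (Tri.chart_le_ovL ((chart O (algebraMap K F t)).algebraMap_mem π)) o1'
  · rw [Fin.forall_fin_two, ha2w]
    exact ⟨(P 0).mul_mem _ _ (T.O_mem 0 _) w0, (P 1).mul_mem _ _ (T.O_mem 1 _) w1⟩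

end Abs

section Hyp

/-- The hypotheses on the field, the prime and the level. -/
structure Hyp (O L : Type u) [CommRing O] [IsDomain O] [IsDiscreteValuationRing O]
    [Field L] [Algebra O L] (q M N : ℕ) (ι : L →+* ℂ) (ζ : Lˣ) (π : O) : Prop where
  hζ : ι ζ = Complex.exp (2 * Real.pi * Complex.I / M)
  hMu : IsUnit (M : O)
  hπ : Prime π
  hq0 : (q : ResidueField O) = 0
  hq : q.Prime
  hq2 : q ≠ 2
  hN : N = q * M
  hqM : q.Coprime M
  h2M : 2 ∣ M
  hqπ : (q : O) = π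

variable {O L : Type u} [CommRing O] [IsDomain O] [IsDiscreteValuationRing O] [Field L]
  [Algebra O L] [IsFractionRing O L] {q M N : ℕ} [NeZero q] [NeZero M] [NeZero N]
  {ι : L →+* ℂ} {ζ : Lˣ} {π : O}

theorem Hyp.le1 (h : Hyp O L q M N ι ζ π) : Kt L 2 16 ≤ F0 L M := Kt_le_F0 haupt2 ι h.h2M

theorem Hyp.le2 (h : Hyp O L q M N ι ζ π) : F0 L M ≤ F0 L N :=
  F0_mono (K := L) (by rw [h.hN]; exact Dvd.intro_left q rfl)

theorem Hyp.le3 (h : Hyp O L q M N ι ζ π) : Kt L 2 16 ≤ F0 L N := h.le1.trans h.le2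

theorem Hyp.le4 (h : Hyp O L q M N ι ζ π) : Kz L q 2 16 ≤ F0 L N := Kz_le_F0 haupt2 ι h.hN h.h2M

theorem Hyp.hqp (h : Hyp O L q M N ι ζ π) : ¬ q ∣ 2 := fun hd =>
  h.hq2 ((Nat.prime_dvd_prime_iff_eq h.hq Nat.prime_two).mp hd)

theorem Hyp.hu2 (h : Hyp O L q M N ι ζ π) : IsUnit ((2 : ℕ) : O) := isUnit_of_dvd_natCast h.h2M h.hMu

theorem Hyp.hC0 (h : Hyp O L q M N ι ζ π) :
    IsUnit ((((16 : ℤ) ^ 2 * ((2 : ℕ) : ℤ) ^ 4 : ℤ)) : O) := by
  have : ((((16 : ℤ) ^ 2 * ((2 : ℕ) : ℤ) ^ 4 : ℤ)) : O) = ((2 : ℕ) : O) ^ 12 := by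
    push_cast; norm_num
  rw [this]
  exact h.hu2.pow 12

theorem finDim_lev (ι : L →+* ℂ) {M N : ℕ} [NeZero M] [NeZero N] (hle : F0 L M ≤ F0 L N) :
    letI := algI hle
    FiniteDimensional (F0 L M) (F0 L N) := by
  obtain ⟨h3, -⟩ := finrank_LJ ι N
  let _ := algI hle
  let _ := algI (LJ_le_F0 (K := L) M)
  let _ := algI (LJ_le_F0 (K := L) N)
  have t := tower_I (LJ_le_F0 (K := L) M) hle (LJ_le_F0 (K := L) N)
  exact FiniteDimensional.right (LJ L) (F0 L M) (F0 L N)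

section

variable [CharZero O] [PerfectField (ResidueField O)] [ExpChar (ResidueField O) q]

set_option maxHeartbeats 1000000 in
theorem conc_duo (h : Hyp O L q M N ι ζ π) (B : Bez q M) :
    letI := algO O (Kt L 2 16)
    letI := algO O (F0 L M)
    letI := algO O (F0 L N)
    letI := algI h.le1
    letI := algI h.le2
    letI := algI h.le3
    haveI t1 : IsScalarTower O (Kt L 2 16) (F0 L M) := tower_O O h.le1
    haveI t2 : IsScalarTower O (Kt L 2 16) (F0 L N) := tower_O O h.le3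
    ∃ (ht : IsParam O (tK L 2 16)) (c : ℕ → ℤ[X]) (P : Fin 2 → ValuationSubring (F0 L N)),
      Duo (M := F0 L M) ht h.hπ q c ((16 : ℤ) ^ 2 * ((2 : ℕ) : ℤ) ^ 4) P (B.wF ι h.hq h.hN) ∧
      (∀ x : F0 L N, x ∈ P 0 ↔ (x : LaurentSeries L) ∈ gV O L) ∧
      FiniteDimensional (Kt L 2 16) (F0 L M) := by
  let iOK := algO O (Kt L 2 16)
  let iOM := algO O (F0 L M)
  let iOF := algO O (F0 L N)
  let iKM := algI h.le1
  let iMF := algI h.le2
  let iKF := algI h.le3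
  haveI t1 : IsScalarTower O (Kt L 2 16) (F0 L M) := tower_O O h.le1
  haveI t2 : IsScalarTower O (Kt L 2 16) (F0 L N) := tower_O O h.le3
  haveI t3 : IsScalarTower O (F0 L M) (F0 L N) := tower_O O h.le2
  haveI t4 : IsScalarTower (Kt L 2 16) (F0 L M) (F0 L N) := tower_I h.le1 _ _
  let iOz := algO O (Kz L q 2 16)
  let izF := algI h.le4
  haveI t5 : IsScalarTower O (Kz L q 2 16) (F0 L N) := tower_O O h.le4
  obtain ⟨ht, hgood, hfinM, huniq, -⟩ := goodRed_F0_two ι h.hζ h.hMu h.hπ h.h2M h.le1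
  obtain ⟨ht', hg⟩ := lGood (O := O) B haut2 ι h.hζ h.hMu h.hπ (sep2 h.h2M h.hMu) h.hq0 h.hq h.hqp
    h.hN h.hqM h.h2M h.le1 h.le2 h.le4
  obtain ⟨c, hc, hrel⟩ := CB5.exists_kshape.{u} haupt2 h.hq h.hqp
  obtain ⟨r1, r2, r3, r4⟩ := hrel ι
  haveI := hfinM
  haveI hfinF : FiniteDimensional (F0 L M) (F0 L N) := finDim_lev ι h.le2
  haveI hfin : FiniteDimensional (Kt L 2 16) (F0 L N) :=
    FiniteDimensional.trans (Kt L 2 16) (F0 L M) (F0 L N)
  haveI hcL : CharZero L := charZero_of_injective_algebraMap (IsFractionRing.injective O L)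
  haveI : CharZero (Kt L 2 16) :=
    charZero_of_injective_algebraMap (algebraMap L (Kt L 2 16)).injective
  haveI hzc : CharZero (Kz L q 2 16) :=
    charZero_of_injective_algebraMap (algebraMap L (Kz L q 2 16)).injective
  haveI hfz : FiniteDimensional (Kz L q 2 16) (F0 L N) :=
    (finrank_F0_le haut2 ι h.hq h.hqp h.hN h.hqM h.h2M h.le1 h.le4 hfinM).1
  have cEt : ((algebraMap (Kt L 2 16) (F0 L N) (tK L 2 16) : F0 L N) : LaurentSeries L) =
      tS L 2 16 := rfl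
  have cEw : ((B.wF ι h.hq h.hN (algebraMap (Kt L 2 16) (F0 L N) (tK L 2 16)) : F0 L N) :
      LaurentSeries L) = qExpand L q (tS L 2 16) :=
    B.wF_level (ι := ι) h.hq h.hN h.le2 (algebraMap (Kt L 2 16) (F0 L M) (tK L 2 16))
  have hinj : Function.Injective (algebraMap (F0 L N) (LaurentSeries L)) :=
    (algebraMap (F0 L N) (LaurentSeries L)).injective
  have D := duo_of (M := F0 L M) (K₁ := Kt L 2 16) (lData (O := O) B haut2 ι h.hζ h.hMu h.hπ
    (sep2 h.h2M h.hMu) h.hq0 h.hq h.hqp h.hN h.hqM h.h2M h.le1 h.le2 h.le4) hg h.hqπ h.hq hc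
    (C₀ := (16 : ℤ) ^ 2 * ((2 : ℕ) : ℤ) ^ 4) ?_ h.hC0 ?_ ?_
  · refine ⟨ht, c, _, D, fun x => Iff.rfl, hfinM⟩
  · apply MRel_of_inj (algebraMap (F0 L N) (LaurentSeries L)) hinj
    change MRel q c ((B.wF ι h.hq h.hN (algebraMap (Kt L 2 16) (F0 L N) (tK L 2 16)) : F0 L N) :
      LaurentSeries L) ((algebraMap (Kt L 2 16) (F0 L N) (tK L 2 16) : F0 L N) : LaurentSeries L)
    rw [cEw, cEt]
    exact r1
  · apply MRel_of_inj (algebraMap (F0 L N) (LaurentSeries L)) hinj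
    rw [map_div₀, map_div₀, map_intCast]
    change MRel q c (_ / ((B.wF ι h.hq h.hN (algebraMap (Kt L 2 16) (F0 L N) (tK L 2 16)) :
      F0 L N) : LaurentSeries L)) (_ / ((algebraMap (Kt L 2 16) (F0 L N) (tK L 2 16) : F0 L N) :
        LaurentSeries L))
    rw [cEw, cEt]
    exact r3
  · intro W hW x
    exact huniq W hW x

end

end Hyp

end Fermat.Agent.PR
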