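import Mathlib
import Fermat.Agent.PR.Conc

/-!
The two-component reduction of `X₀(4q)`: modular unit and coordinate.
-/

set_option autoImplicit false
set_option linter.unusedSectionVars false
set_option linter.style.haveILetI false
set_option linter.unusedVariables false

open IsLocalRing Polynomial ModularCurve IntermediateField

noncomputable section

universe u

namespace Fermat.Agent.PR

open Fermat.Agent.Geo Fermat.Agent.LG Fermat.Agent.CA Fermat.Agent.MP Fermat.Agent.ModFun
open Fermat.Agent.ESCore (HauptFn haupt2)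
open Fermat.Agent.CB

section

variable {O L : Type u} [CommRing O] [IsDomain O] [IsDiscreteValuationRing O] [Field L]
  [Algebra O L] [IsFractionRing O L]

theorem isParam_of_eq {S : IntermediateField L (LaurentSeries L)} {x : LaurentSeries L}
    (hS : S = IntermediateField.adjoin L {x}) (hx : x ∈ S) (htr : Transcendental L x) :
    letI := algO O S
    IsParam O (⟨x, hx⟩ : S) := by
  subst hS
  exact isParam_adjoin htr

variable {q N : ℕ} [NeZero q] [NeZero N] {ι : L →+* ℂ} {ζ : Lˣ} {π : O}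

/-- the coordinate of level four -/
def xM (L : Type u) [Field L] (ι : L →+* ℂ) : F0 L 4 := ⟨xS L, xS_mem_F0 L ι dvd_rfl⟩

variable [CharZero O] [PerfectField (ResidueField O)] [ExpChar (ResidueField O) q]

theorem coord_conc (h : Hyp O L q 4 N ι ζ π) (B : Bez q 4) {P : Fin 2 → ValuationSubring (F0 L N)}
    (hP : ∀ x : F0 L N, x ∈ P 0 ↔ (x : LaurentSeries L) ∈ gV O L) :
    letI := algO O (Kt L 2 16)
    letI := algO O (F0 L 4)
    letI := algI h.le1
    letI := algI h.le2
    Coord O (algebraMap (Kt L 2 16) (F0 L 4) (tK L 2 16)) q P (B.wF ι h.hq h.hN) (xM L ι) := by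
  let iOK := algO O (Kt L 2 16)
  let iOM := algO O (F0 L 4)
  let iKM := algI h.le1
  let iMF := algI h.le2
  let iOF := algO O (F0 L N)
  have h1 : (xM L ι) ^ 2 = algebraMap (Kt L 2 16) (F0 L 4) (tK L 2 16) * (xM L ι + 16) :=
    Subtype.ext (xS_sq L)
  have h2 : (xM L ι + 16) * (algebraMap (Kt L 2 16) (F0 L 4) (tK L 2 16) - xM L ι + 16) = 256 :=
    Subtype.ext (xS_mul L)
  have h16 : xM L ι + 16 ≠ 0 := fun h0 => xS16_ne L (congrArg Subtype.val h0)
  have hpar : IsParam O (xM L ι) := isParam_of_eq (F0_four_eq L ι) _ (transcendental_xS L)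
  have hu2 : IsUnit (2 : O) := by exact_mod_cast h.hu2
  refine ⟨mem_chart_of h1, gen_of hpar h1 h2 hu2 h16 (mem_chart_of h1), ?_⟩
  have hgK : ∀ x : F0 L N, algebraMap (F0 L N) (LaurentSeries L) x ∈ gK O L :=
    fun x => F0_le_gK x.2
  have hP0 : P 0 = gW (algebraMap (F0 L N) (LaurentSeries L)) hgK := by
    ext x; exact hP x
  have e1 : algebraMap (F0 L N) (LaurentSeries L)
      (B.wF ι h.hq h.hN (algebraMap (F0 L 4) (F0 L N) (xM L ι)) -
        algebraMap (F0 L 4) (F0 L N) (xM L ι) ^ q) =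
      toL O L (qExpand O q (xS O) - xS O ^ q) := by
    have e2 : ((B.wF ι h.hq h.hN (algebraMap (F0 L 4) (F0 L N) (xM L ι)) : F0 L N) :
        LaurentSeries L) = qExpand L q (xS L) := B.wF_level (ι := ι) h.hq h.hN h.le2 (xM L ι)
    have e3 : toL O L (xS O) = xS L := coeffMap_xS O (algebraMap O L)
    rw [map_sub, map_pow, map_sub, map_pow, ← qExpand_toL, e3]
    change ((B.wF ι h.hq h.hN (algebraMap (F0 L 4) (F0 L N) (xM L ι)) : F0 L N) :
        LaurentSeries L) - _ = _
    rw [e2]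
    rfl
  rw [hP0, mem_nonunits_iff_toL e1]
  have e4 : toK O (xS O) = xS (ResidueField O) := coeffMap_xS O (residue O)
  rw [map_sub, map_pow, ← qExpand_toK, e4, xS_pow, sub_self]

set_option maxHeartbeats 1000000 in
theorem du_conc {M : ℕ} [NeZero M] (h : Hyp O L q M N ι ζ π) (h4 : 4 ∣ M) (B : Bez q M) :
    letI := algO O (Kt L 2 16)
    letI := algO O (F0 L M)
    letI := algO O (F0 L N)
    letI := algI h.le1
    letI := algI h.le2
    letI := algI h.le3
    haveI t1 : IsScalarTower O (Kt L 2 16) (F0 L M) := tower_O O h.le1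
    haveI t2 : IsScalarTower O (Kt L 2 16) (F0 L N) := tower_O O h.le3
    ∀ {ht : IsParam O (tK L 2 16)} {c : ℕ → ℤ[X]} {P : Fin 2 → ValuationSubring (F0 L N)}
      (_ : Duo (M := F0 L M) ht h.hπ q c ((16 : ℤ) ^ 2 * ((2 : ℕ) : ℤ) ^ 4) P
        (B.wF ι h.hq h.hN))
      (_ : ∀ x : F0 L N, x ∈ P 0 ↔ (x : LaurentSeries L) ∈ gV O L)
      (_ : FiniteDimensional (Kt L 2 16) (F0 L M)),
      DU (algebraMap (Kt L 2 16) (F0 L N) (tK L 2 16)) π P (B.wF ι h.hq h.hN)
        ((phiData_two (h.hq.odd_of_ne_two h.hq2) h4).el h.hN ι)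
        (algebraMap O (F0 L N) π / ((phiData_two (h.hq.odd_of_ne_two h.hq2) h4).el h.hN ι)) := by
  let iOK := algO O (Kt L 2 16)
  let iOM := algO O (F0 L M)
  let iOF := algO O (F0 L N)
  let iKM := algI h.le1
  let iMF := algI h.le2
  let iKF := algI h.le3
  haveI t1 : IsScalarTower O (Kt L 2 16) (F0 L M) := tower_O O h.le1
  haveI t2 : IsScalarTower O (Kt L 2 16) (F0 L N) := tower_O O h.le3
  haveI t3 : IsScalarTower O (F0 L M) (F0 L N) := tower_O O h.le2
  haveI t4 : IsScalarTower (Kt L 2 16) (F0 L M) (F0 L N) := tower_I h.le1 _ _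
  intro ht c P T hP hfinM
  haveI := hfinM
  haveI hfinF : FiniteDimensional (F0 L M) (F0 L N) := finDim_lev ι h.le2
  haveI hfin : FiniteDimensional (Kt L 2 16) (F0 L N) :=
    FiniteDimensional.trans (Kt L 2 16) (F0 L M) (F0 L N)
  haveI hcL : CharZero L := charZero_of_injective_algebraMap (IsFractionRing.injective O L)
  haveI : CharZero (Kt L 2 16) :=
    charZero_of_injective_algebraMap (algebraMap L (Kt L 2 16)).injective
  set hφ := phiData_two (h.hq.odd_of_ne_two h.hq2) h4 with hφd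
  set ε : ℤ := (if q % 4 = 1 then (1 : ℤ) else -1) with hε
  have C : Cpt O (Kt L 2 16) (F0 L M) (F0 L N) :=
    { OK := coe_algO O _, OM := coe_algO O _, OF := coe_algO O _, KM := coe_algI _,
      KF := coe_algI _, MF := coe_algI _ }
  have ca : ((hφ.el h.hN ι : F0 L N) : LaurentSeries L) = PsR L 2 2 q := rfl
  have f1 : algebraMap (F0 L N) (LaurentSeries L) (hφ.el h.hN ι) = toL O L (PsR O 2 2 q) := by
    change ((hφ.el h.hN ι : F0 L N) : LaurentSeries L) = _
    rw [ca, toL, coeffMap_PsR]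
  have k1 : toK O (PsR O 2 2 q) ≠ 0 := by
    rw [toK, coeffMap_PsR]
    exact PsR_ne_zero 2 2 q
  have hw : B.wF ι h.hq h.hN (hφ.el h.hN ι) * hφ.el h.hN ι =
      algebraMap O (F0 L N) ((ε : O) * π) := by
    rw [hφ.wF_el h.hq h.hN ι B, C.OL, ← h.hqπ]
    congr 1
    rw [map_mul, map_intCast, map_natCast]
  have hεε : ((ε : O)) * ((ε : O)) = 1 := by
    have := hφ.sq
    rw [sq] at this
    exact_mod_cast this
  have hint := hφ.isIntegral h.hN ι haut2 (F0 L N).val
    (t := algebraMap (Kt L 2 16) (F0 L N) (tK L 2 16)) (x := hφ.el h.hN ι) rfl ca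
  exact du_of (θ := algebraMap (F0 L N) (LaurentSeries L)) T hP f1 k1 hw hεε
    (mem_ovL_of_isIntegral C.OL h.hπ T.tF_ne hint.1)
    (mem_ovL_of_isIntegral C.OL h.hπ T.tF_ne hint.2)

end

end Fermat.Agent.PR
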