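import Mathlib
import Fermat.Agent.PR.Four2
import Fermat.Agent.CB.Psi
import Fermat.Agent.Eis16.LevelOne

/-!
The Eisenstein series of weight `q - 1` modulo `q`.
-/

set_option autoImplicit false
set_option linter.unusedSectionVars false
set_option linter.style.haveILetI false
set_option linter.unusedVariables false

open Matrix.SpecialLinearGroup CongruenceSubgroup ModularGroup
open scoped MatrixGroups ModularForm Manifold
open UpperHalfPlane hiding I J
open Complex (I)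
open Fermat.Agent.ModFun Fermat.Agent.Eis16

noncomputable section

universe u

namespace Fermat.Agent.PR

theorem bern_aux {q : ℕ} (hq : q.Prime) (h5 : 5 ≤ q) :
    ∃ m D : ℤ, ¬ (q : ℤ) ∣ m ∧ (m : ℚ) = q * D * bernoulli (q - 1) ∧ bernoulli (q - 1) ≠ 0 := by
  obtain ⟨j, hj⟩ : ∃ j, q - 1 = 2 * j := by
    have h1 := hq.odd_of_ne_two (by omega)
    obtain ⟨j, hj⟩ := h1
    exact ⟨j, by omega⟩
  obtain ⟨z, hz⟩ := Bernoulli.vonStaudt_clausen j
  set S := (Finset.range (2 * j + 2)).filter (fun p => p.Prime ∧ (p - 1) ∣ 2 * j) with hS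
  have hqS : q ∈ S := by
    rw [hS, Finset.mem_filter, Finset.mem_range]
    exact ⟨by omega, hq, by rw [hj]⟩
  have hsplit : ∑ p ∈ S, (1 : ℚ) / p = 1 / q + ∑ p ∈ S.erase q, (1 : ℚ) / p :=
    (Finset.add_sum_erase S (fun p : ℕ => (1 : ℚ) / p) hqS).symm
  set D : ℕ := ∏ p ∈ S.erase q, p with hD
  have hp0 : ∀ p ∈ S.erase q, p.Prime ∧ p < q := by
    intro p hp
    rw [Finset.mem_erase, hS, Finset.mem_filter, Finset.mem_range] at hp
    exact ⟨hp.2.2.1, by omega⟩
  have hDq : ¬ q ∣ D := by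
    rw [hD, hq.prime.dvd_finset_prod_iff]
    rintro ⟨p, hp, hdvd⟩
    have := Nat.le_of_dvd (hp0 p hp).1.pos hdvd
    have := (hp0 p hp).2
    omega
  have hs : (D : ℚ) * ∑ p ∈ S.erase q, (1 : ℚ) / p = ((∑ p ∈ S.erase q, (D / p : ℕ) : ℕ) : ℚ) := by
    rw [Finset.mul_sum]
    push_cast
    refine Finset.sum_congr rfl fun p hp => ?_
    have h1 : p ∣ D := Finset.dvd_prod_of_mem _ hp
    rw [Nat.cast_div h1 (by exact_mod_cast (hp0 p hp).1.ne_zero)]
    ring
  set s : ℕ := ∑ p ∈ S.erase q, (D / p : ℕ) with hsd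
  have hq0 : (q : ℚ) ≠ 0 := by exact_mod_cast hq.ne_zero
  have key : (q : ℚ) * D * bernoulli (q - 1) = q * D * z - D - q * s := by
    rw [hj]
    have h1 : bernoulli (2 * j) = z - (1 / q + ∑ p ∈ S.erase q, (1 : ℚ) / p) := by
      rw [← hsplit, hz]; ring
    rw [h1, ← hs]
    field_simp
    ring
  have hm : ¬ (q : ℤ) ∣ ((q : ℤ) * D * z - D - q * s) := by
    intro hd
    apply hDq
    have h1 : (q : ℤ) ∣ (D : ℤ) := by
      have h2 : (D : ℤ) = q * (D * z - s) - (q * D * z - D - q * s) := by ring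
      rw [h2]
      exact dvd_sub (Dvd.intro _ rfl) hd
    exact_mod_cast h1
  refine ⟨q * D * z - D - q * s, D, hm, ?_, ?_⟩
  · push_cast
    rw [key]
  · intro h0
    rw [h0, mul_zero] at key
    apply hm
    have : ((q : ℤ) * D * z - D - q * s) = 0 := by exact_mod_cast key.symm
    rw [this]
    exact dvd_zero _

/-- The integral expansion of a multiple of `E_{q-1}`. -/
def eisZ (m b : ℤ) (k : ℕ) : PowerSeries ℤ :=
  PowerSeries.mk fun n => if n = 0 then m else b * (ArithmeticFunction.sigma k n : ℤ)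

theorem exists_eisZ {q : ℕ} (hq : q.Prime) (h5 : 5 ≤ q) (hk : 3 ≤ q - 1) :
    ∃ m a : ℤ, ¬ (q : ℤ) ∣ m ∧
      HasQ 1 (fun τ => (m : ℂ) * ModularForm.E hk τ) (toC (eisZ m (q * a) (q - 1 - 1))) := by
  obtain ⟨m, D, hm, hmD, hB⟩ := bern_aux hq h5
  have hev : Even (q - 1) := by
    have h1 := hq.odd_of_ne_two (by omega)
    obtain ⟨j, hj⟩ := h1
    exact ⟨j, by omega⟩
  refine ⟨m, -(2 * ((q - 1 : ℕ) : ℤ) * D), hm, ?_⟩
  have h1 : HasQ 1 (ModularForm.E hk) (qExpansion 1 (ModularForm.E hk)) :=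
    HasQ.of_modularForm _ one_pos one_mem_strictPeriods_SL
  have h2 := h1.smul (m : ℂ)
  have h3 : toC (eisZ m (q * (-(2 * ((q - 1 : ℕ) : ℤ) * D))) (q - 1 - 1)) =
      (m : ℂ) • (qExpansion 1 (ModularForm.E hk)) := by
    ext n
    rw [coeff_toC, PowerSeries.coeff_smul, EisensteinSeries.E_qExpansion_coeff hk hev, eisZ,
      PowerSeries.coeff_mk]
    split_ifs with h0
    · simp
    · have hB' : ((bernoulli (q - 1) : ℚ) : ℂ) ≠ 0 := by exact_mod_cast hB
      have hmD' : (m : ℂ) = q * D * ((bernoulli (q - 1) : ℚ) : ℂ) := by exact_mod_cast hmD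
      rw [hmD', smul_eq_mul]
      push_cast
      field_simp
  rw [h3]
  exact h2

end Fermat.Agent.PR
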