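import Mathlib
import Fermat.Agent.PR.Has
import Fermat.Agent.CA.NC2

/-!
The reduction of the modular unit modulo `q`, as a function of the coordinate of level four.
-/

set_option autoImplicit false
set_option linter.unusedSectionVars false
set_option linter.style.haveILetI false
set_option linter.unusedVariables false

open Matrix.SpecialLinearGroup CongruenceSubgroup ModularGroup
open scoped MatrixGroups ModularForm Manifold
open UpperHalfPlane hiding I J
open Complex (I)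
open Fermat.Agent.ModFun Fermat.Agent.Eis16 Fermat.Agent.LG
open Fermat.Agent.CB (phi PhiZ PhiS PhiSi hasQ_phi phi_pow PhiS_mul_PhiSi tri_eq_up)
open Fermat.Agent.CA (PsR PsR_mul_PhiS_pow coeffMap_PhiS)
open Fermat.Agent.ESCore (haupt2 t2_eq_div)
open ModularCurve (qExpand coeffMap)

noncomputable section

universe u

namespace Fermat.Agent.PR

local notation "Δ" => ModularForm.discriminant

/-- the Eisenstein series gives a polynomial in `j` -/
theorem exists_polyE {q : ℕ} (hq : q.Prime) (h5 : 5 ≤ q) :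
    ∃ (m a : ℤ) (P : Polynomial ℤ), ¬ (q : ℤ) ∣ m ∧
      HahnSeries.ofPowerSeries ℤ ℤ (eisZ m (q * a) (q - 1 - 1)) ^ 12 * dInvSeries ^ (q - 1) =
        P.eval₂ HahnSeries.C (ModularCurve.jqModC ℤ) := by
  have hk : 3 ≤ q - 1 := by omega
  obtain ⟨m, a, hm, hE⟩ := exists_eisZ hq h5 hk
  have h1 := ((Fermat.Agent.CB.hasExp_of_hasQ hE).pow 12).mul (hasExp_discriminant_inv.pow (q - 1))
  have hmd : MDiff (((fun τ => (m : ℂ) * ModularForm.E hk τ) ^ 12 *
      ((ModularForm.discriminant : ℍ → ℂ)⁻¹) ^ (q - 1) : ℍ → ℂ)) := by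
    refine (((mdiff_const _).mul (ModularFormClass.holo _)).pow 12).mul ?_
    refine MDifferentiable.pow ?_ _
    exact MDifferentiable.inv mdiff_discriminant ModularForm.discriminant_ne_zero
  have hinv : ∀ (γ : SL(2, ℤ)) (τ : ℍ), (((fun τ => (m : ℂ) * ModularForm.E hk τ) ^ 12 *
      ((ModularForm.discriminant : ℍ → ℂ)⁻¹) ^ (q - 1) : ℍ → ℂ)) (γ • τ) =
      (((fun τ => (m : ℂ) * ModularForm.E hk τ) ^ 12 *
      ((ModularForm.discriminant : ℍ → ℂ)⁻¹) ^ (q - 1) : ℍ → ℂ)) τ := by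
    intro γ τ
    have h2 := smul_of_SL (ModularForm.E hk) γ τ
    have h3 := discriminant_smul γ τ
    have h4 := denom_ne_zero (γ : GL (Fin 2) ℝ) τ
    have h5 := ModularForm.discriminant_ne_zero τ
    simp only [Pi.mul_apply, Pi.pow_apply, Pi.inv_apply]
    rw [h2, h3]
    have h6 : (denom (γ : GL (Fin 2) ℝ) τ ^ ((q - 1 : ℕ) : ℤ)) ^ 12 =
        (denom (γ : GL (Fin 2) ℝ) τ ^ (12 : ℤ)) ^ (q - 1) := by
      rw [zpow_natCast, show (12 : ℤ) = ((12 : ℕ) : ℤ) from rfl, zpow_natCast, ← pow_mul,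
        ← pow_mul, mul_comm]
    have h7 : (denom (γ : GL (Fin 2) ℝ) τ ^ (12 : ℤ)) ≠ 0 := zpow_ne_zero _ h4
    have h8 : ((denom (γ : GL (Fin 2) ℝ) τ ^ (12 : ℤ))) ^ (q - 1) ≠ 0 := pow_ne_zero _ h7
    rw [mul_inv, mul_pow, mul_pow, mul_pow, mul_pow, h6, inv_pow]
    field_simp
  obtain ⟨P, -, hP⟩ := exists_polynomial (φ := Int.castRingHom ℂ) (RingHom.injective_int _)
    hmd hinv h1
  exact ⟨m, a, P, hm, hP⟩

/-- `Φ^24 = Δ² t²` -/
theorem Phi_pow : (HahnSeries.ofPowerSeries ℤ ℤ (PhiZ 2 2)) ^ 24 = dSeries ^ 2 * tZ' ^ 2 := by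
  have h1 : HasExp (Int.castRingHom ℂ) (qN 1) (tI haupt2) tZ' := hasExp_tI haupt2 _
  have h2 := (Fermat.Agent.CB.hasExp_of_hasQ (hasQ_phi 2 2)).pow 24
  have h3 := (hasExp_discriminant.pow 2).mul (h1.pow 2)
  have h4 : (phi 2 2) ^ 24 = ((Δ : ℍ → ℂ) ^ 2 * (tI haupt2) ^ 2 : ℍ → ℂ) := by
    funext τ
    have e1 := phi_pow (p := 2) (b := 2) τ
    have e2 := t2_eq_div τ
    have e3 := ModularForm.discriminant_ne_zero τ
    have e4 : ModularForm.discriminant (up 2 τ) ≠ 0 := ModularForm.discriminant_ne_zero _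
    have e5 : tI haupt2 τ = Δ τ / Δ (up 2 τ) := by
      rw [tI]
      change (ESCore.t2 τ)⁻¹ = _
      rw [e2, inv_div]
    simp only [Pi.mul_apply, Pi.pow_apply]
    rw [e5]
    rw [tri_eq_up] at e1
    field_simp
    exact e1
  rw [h4] at h2
  exact h2.unique (RingHom.injective_int _) (isParam_qN 1) h3

end Fermat.Agent.PR
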