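import Mathlib
import Fermat.Agent.PR.Has2

/-!
The reduction of the modular unit modulo `q`, as a function of the coordinate of level four.
-/

set_option autoImplicit false
set_option linter.unusedSectionVars false
set_option linter.style.haveILetI false
set_option linter.unusedVariables false

open Fermat.Agent.ModFun Fermat.Agent.Eis16 Fermat.Agent.LG Polynomial
open Fermat.Agent.CB (phi PhiZ PhiS PhiSi hasQ_phi phi_pow PhiS_mul_PhiSi tri_eq_up)
open Fermat.Agent.CA (PsR PsR_mul_PhiS_pow coeffMap_PhiS)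
open ModularCurve (qExpand coeffMap)

noncomputable section

universe u

namespace Fermat.Agent.PR

theorem LeadU.pow {R : Type*} [CommRing R] {F : LaurentSeries R} {m : ℤ} (h : LeadU F m)
    (n : ℕ) : LeadU (F ^ n) (n * m) := by
  induction n with
  | zero =>
    rw [pow_zero]
    have := LeadU.C (R := R) isUnit_one
    rw [map_one] at this
    simpa using this
  | succ n ih =>
    rw [pow_succ]
    have := ih.mul h
    convert this using 1
    push_cast; ring

theorem leadU_eval₂ {k : Type*} [Field k] {F : LaurentSeries k} (h : LeadU F (-1)) {P : k[X]}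
    (hP : P ≠ 0) : LeadU (P.eval₂ HahnSeries.C F) (-(P.natDegree : ℤ)) := by
  have hpow : ∀ i : ℕ, LeadU (F ^ i) (-(i : ℤ)) := fun i => by
    have := LeadU.pow h i
    simpa using this
  have hc : ∀ n : ℤ, (P.eval₂ HahnSeries.C F).coeff n =
      ∑ i ∈ Finset.range (P.natDegree + 1), P.coeff i * (F ^ i).coeff n := by
    intro n
    rw [eval₂_eq_sum_range, HahnSeries.coeff_sum]
    refine Finset.sum_congr rfl fun i _ => ?_
    rw [HahnSeries.C_mul_eq_smul, HahnSeries.coeff_smul, smul_eq_mul]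
  constructor
  · intro n hn
    rw [hc]
    refine Finset.sum_eq_zero fun i hi => ?_
    rw [Finset.mem_range] at hi
    rw [(hpow i).1 n (by omega), mul_zero]
  · rw [hc, Finset.sum_range_succ, Finset.sum_eq_zero, zero_add]
    · refine IsUnit.mul ?_ (hpow _).2
      rw [isUnit_iff_ne_zero, coeff_natDegree, leadingCoeff_ne_zero]
      exact hP
    · intro i hi
      rw [Finset.mem_range] at hi
      rw [(hpow i).1 _ (by omega), mul_zero]

theorem LeadU.uniq {k : Type*} [Field k] {F : LaurentSeries k} {m n : ℤ} (h : LeadU F m)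
    (h' : LeadU F n) : m = n := by rw [← h.order_eq, ← h'.order_eq]

section

variable (k : Type*) [Field k]

/-- `Δ` over `k` -/
abbrev dk : LaurentSeries k := coeffMap (Int.castRingHom k) dSeries

theorem leadU_dk : LeadU (dk k) 1 := leadU_dSeries.coeffMap _

theorem leadU_j : LeadU (ModularCurve.jqModC k) (-1) := by
  have h := jS_mul k
  have h1 : LeadU ((tS k 2 16 + 256) ^ 3) (-3) := by
    have := LeadU.pow (LeadU.add_const (leadU_t (R := k)) (by norm_num) 256) 3
    push_cast at this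
    exact this
  have h2 : LeadU (tS k 2 16 ^ 2) (-2) := by
    have := LeadU.pow (leadU_t (R := k)) 2
    push_cast at this
    exact this
  obtain ⟨G, hG⟩ := leadU_isUnit h2
  have h3 : ModularCurve.jqModC k = (tS k 2 16 + 256) ^ 3 * G := by
    rw [← h]
    linear_combination (-ModularCurve.jqModC k) * hG
  rw [h3]
  exact h1.mul (h2.inv hG)

variable {k} {q : ℕ} [NeZero q] [ExpChar k q]

theorem Phi_pow_k : PhiS 2 2 k ^ 24 = dk k ^ 2 * tS k 2 16 ^ 2 := by
  have h := congrArg (coeffMap (Int.castRingHom k)) Phi_pow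
  rw [map_pow, map_mul, map_pow, map_pow, cm_t] at h
  exact h

theorem polyE_k (hq : q.Prime) (h5 : 5 ≤ q) (hq0 : (q : k) = 0) :
    ∃ P : k[X], P.eval₂ HahnSeries.C (ModularCurve.jqModC k) * dk k ^ (q - 1) = 1 := by
  obtain ⟨m, a, P, hm, hP⟩ := exists_polyE hq h5
  have hchar : CharP k q := by
    obtain ⟨p', hp'⟩ := CharP.exists k
    have h1 : p' ∣ q := (CharP.cast_eq_zero_iff k p' q).mp hq0
    rcases (Nat.dvd_prime hq).mp h1 with h2 | h2
    · exfalso
      subst h2
      haveI := hp'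
      exact one_ne_zero (α := k) (by rw [← Nat.cast_one]; exact CharP.cast_eq_zero k 1)
    · rw [← h2]; exact hp'
  have hm0 : (m : k) ≠ 0 := by
    intro h0
    exact hm ((CharP.intCast_eq_zero_iff k q m).mp h0)
  have h := congrArg (coeffMap (Int.castRingHom k)) hP
  rw [map_mul, map_pow, map_pow, Polynomial.hom_eval₂] at h
  have e1 : coeffMap (Int.castRingHom k) (HahnSeries.ofPowerSeries ℤ ℤ
      (eisZ m (q * a) (q - 1 - 1))) = HahnSeries.C (m : k) := by
    rw [coeffMap_ofPowerSeries]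
    have : PowerSeries.map (Int.castRingHom k) (eisZ m (q * a) (q - 1 - 1)) =
        PowerSeries.C (m : k) := by
      ext n
      rw [PowerSeries.coeff_map, eisZ, PowerSeries.coeff_mk, PowerSeries.coeff_C]
      split_ifs with h0
      · simp
      · simp [hq0]
    rw [this, HahnSeries.ofPowerSeries_C]
  have e2 : (coeffMap (Int.castRingHom k)).comp (HahnSeries.C : ℤ →+* LaurentSeries ℤ) =
      (HahnSeries.C : k →+* LaurentSeries k).comp (Int.castRingHom k) := RingHom.ext_int _ _
  rw [e1, e2, coeffMap_jqModC, ← Polynomial.eval₂_map] at h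
  have e3 : coeffMap (Int.castRingHom k) dInvSeries * dk k = 1 := by
    rw [← map_mul, mul_comm, dSeries_mul_dInvSeries, map_one]
  refine ⟨C ((m : k) ^ 12)⁻¹ * P.map (Int.castRingHom k), ?_⟩
  rw [Polynomial.eval₂_mul, Polynomial.eval₂_C, ← h, mul_assoc, mul_assoc, ← mul_pow, e3, one_pow,
    mul_one, ← map_pow, ← map_mul, inv_mul_cancel₀ (pow_ne_zero _ hm0), map_one]

theorem leadU_Ps : LeadU (PsR k 2 2 q) 0 := by
  have h1 : ∀ {P : PowerSeries k}, PowerSeries.constantCoeff P = 1 →
      LeadU (HahnSeries.ofPowerSeries ℤ k P) 0 := by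
    intro P hP
    constructor
    · intro n hn
      exact ModularCurve.ofPowerSeries_coeff_of_neg _ hn
    · have : (HahnSeries.ofPowerSeries ℤ k P).coeff ((0 : ℕ) : ℤ) = 1 := by
        rw [HahnSeries.ofPowerSeries_apply_coeff, PowerSeries.coeff_zero_eq_constantCoeff_apply, hP]
      rw [Nat.cast_zero] at this
      rw [this]
      exact isUnit_one
  have h2 : LeadU (PhiS 2 2 k) 0 := by
    rw [PhiS, coeffMap_ofPowerSeries]
    apply h1
    rw [← PowerSeries.coeff_zero_eq_constantCoeff_apply, PowerSeries.coeff_map,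
      PowerSeries.coeff_zero_eq_constantCoeff_apply, Fermat.Agent.CB.constantCoeff_PhiZ, map_one]
  have h3 : LeadU (PhiSi 2 2 k) 0 := by
    have := h2.inv (PhiS_mul_PhiSi 2 2 k)
    simpa using this
  have h4 := h2.mul (h3.qExpand q)
  rw [mul_zero, add_zero] at h4
  exact h4

/-- the polynomial describing the divisor of the modular unit -/
def rPol (P : k[X]) (n : ℕ) : k[X] :=
  ∑ i ∈ Finset.range (n + 1), C (P.coeff i) * (X ^ 2 + C 256 * X + C 4096) ^ (3 * i) *
    X ^ (4 * (n - i)) * (X + C 16) ^ (n - i)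

theorem rPol_eval (P : k[X]) {n : ℕ} (hn : P.natDegree = n) :
    (rPol P n).eval₂ HahnSeries.C (xS k) = (xS k + 16) ^ (3 * n) * tS k 2 16 ^ (2 * n) *
      P.eval₂ HahnSeries.C (ModularCurve.jqModC k) := by
  have hC : ∀ m : ℕ, (HahnSeries.C ((m : ℕ) : k) : LaurentSeries k) = (m : LaurentSeries k) :=
    fun m => map_natCast _ m
  have c16 : (HahnSeries.C (16 : k) : LaurentSeries k) = 16 := by exact_mod_cast hC 16
  have c256 : (HahnSeries.C (256 : k) : LaurentSeries k) = 256 := by exact_mod_cast hC 256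
  have c4096 : (HahnSeries.C (4096 : k) : LaurentSeries k) = 4096 := by exact_mod_cast hC 4096
  rw [rPol, eval₂_finset_sum, eval₂_eq_sum_range, hn, Finset.mul_sum]
  refine Finset.sum_congr rfl fun i hi => ?_
  rw [Finset.mem_range] at hi
  simp only [eval₂_mul, eval₂_pow, eval₂_add, eval₂_X, eval₂_C, c16, c256, c4096]
  have e1 := xS_sq k
  have e2 := jS_mul k
  set x := xS k
  set t := tS k 2 16
  set j := ModularCurve.jqModC k
  obtain ⟨l, rfl⟩ : ∃ l, n = i + l := ⟨n - i, by omega⟩
  rw [Nat.add_sub_cancel_left]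
  have e3 : x ^ 2 + 256 * x + 4096 = (t + 256) * (x + 16) := by
    rw [e1]; ring
  have e4 : x ^ (4 * l) = (t * (x + 16)) ^ (2 * l) := by
    rw [← e1, ← pow_mul]; congr 1; ring
  rw [e3, e4, mul_pow, pow_mul (t + 256) 3 i, ← e2]
  generalize x + 16 = z
  ring

theorem psi_rel (hq : q.Prime) (h5 : 5 ≤ q) (hq0 : (q : k) = 0) (h2 : (2 : k) ≠ 0) :
    ∃ R : k[X], R.eval 0 ≠ 0 ∧ R.eval (-16) ≠ 0 ∧ R.natDegree = 6 * (q - 1) ∧
      PsR k 2 2 q ^ 24 * xS k ^ (12 * (q - 1)) = (R.eval₂ HahnSeries.C (xS k)) ^ 2 := by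
  obtain ⟨P, hP⟩ := polyE_k (k := k) hq h5 hq0
  set n := q - 1 with hn
  have hP0 : P ≠ 0 := by
    rintro rfl
    rw [eval₂_zero, zero_mul] at hP
    exact zero_ne_one hP
  have hdk : LeadU (dk k ^ n) n := by
    have := LeadU.pow (leadU_dk k) n
    simpa using this
  have hdeg : P.natDegree = n := by
    have h1 := leadU_eval₂ (leadU_j k) hP0
    rw [mul_comm] at hP
    have h3 := hdk.inv hP
    have := LeadU.uniq h1 h3
    omega
  have hlc : P.coeff n ≠ 0 := by
    rw [← hdeg, coeff_natDegree, leadingCoeff_ne_zero]; exact hP0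
  have hpow2 : ∀ m : ℕ, ((2 : k) ^ m) ≠ 0 := fun m => pow_ne_zero m h2
  have hev0 : (rPol P n).eval 0 = P.coeff n * 4096 ^ (3 * n) := by
    rw [rPol, eval_finset_sum, Finset.sum_range_succ, Finset.sum_eq_zero, zero_add]
    · simp
    · intro i hi
      rw [Finset.mem_range] at hi
      have : 4 * (n - i) ≠ 0 := by omega
      simp [this]
  have hev16 : (rPol P n).eval (-16) = P.coeff n * 256 ^ (3 * n) := by
    rw [rPol, eval_finset_sum, Finset.sum_range_succ, Finset.sum_eq_zero, zero_add]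
    · simp only [eval_mul, eval_pow, eval_add, eval_X, eval_C, Nat.sub_self, mul_zero, pow_zero,
        mul_one]
      congr 2
      ring
    · intro i hi
      rw [Finset.mem_range] at hi
      have : n - i ≠ 0 := by omega
      simp [this]
  have hR0 : (rPol P n).eval 0 ≠ 0 := by
    rw [hev0]
    refine mul_ne_zero hlc (pow_ne_zero _ ?_)
    have : (4096 : k) = 2 ^ 12 := by norm_num
    rw [this]
    exact hpow2 12
  have hR16 : (rPol P n).eval (-16) ≠ 0 := by
    rw [hev16]
    refine mul_ne_zero hlc (pow_ne_zero _ ?_)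
    have : (256 : k) = 2 ^ 8 := by norm_num
    rw [this]
    exact hpow2 8
  have hRne : rPol P n ≠ 0 := fun h0 => hR0 (by rw [h0, eval_zero])
  have key : PsR k 2 2 q ^ 24 * xS k ^ (12 * n) =
      ((rPol P n).eval₂ HahnSeries.C (xS k)) ^ 2 := by
    rw [rPol_eval P hdeg]
    have e1 := xS_sq k
    have e5 : PsR k 2 2 q ^ 24 * (dk k ^ 2 * tS k 2 16 ^ 2) ^ n = 1 := by
      rw [← Phi_pow_k, ← pow_mul, mul_comm 24 n, pow_mul, ← mul_pow, PsR_mul_PhiS_pow, one_pow]
    set x := xS k
    set t := tS k 2 16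
    set p := P.eval₂ HahnSeries.C (ModularCurve.jqModC k)
    set d := dk k
    have e6 : PsR k 2 2 q ^ 24 * t ^ (2 * n) = p ^ 2 := by
      have hd0 : d ^ n ≠ 0 := hdk.ne_zero
      refine mul_right_cancel₀ (pow_ne_zero 2 hd0) ?_
      calc PsR k 2 2 q ^ 24 * t ^ (2 * n) * (d ^ n) ^ 2 =
          PsR k 2 2 q ^ 24 * (d ^ 2 * t ^ 2) ^ n := by ring
        _ = 1 := e5
        _ = (p * d ^ n) ^ 2 := by rw [hP, one_pow]
        _ = p ^ 2 * (d ^ n) ^ 2 := by ring
    have e7 : x ^ (12 * n) = (t * (x + 16)) ^ (6 * n) := by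
      rw [← e1, ← pow_mul]; congr 1; ring
    rw [e7]
    generalize x + 16 = z
    calc PsR k 2 2 q ^ 24 * (t * z) ^ (6 * n) =
        (PsR k 2 2 q ^ 24 * t ^ (2 * n)) * (t ^ (4 * n) * z ^ (6 * n)) := by ring
      _ = _ := by rw [e6]; ring
  refine ⟨rPol P n, hR0, hR16, ?_, key⟩
  have h1 := LeadU.pow (leadU_eval₂ (leadU_xS k) hRne) 2
  rw [← key] at h1
  have h3 := (LeadU.pow (leadU_Ps (k := k) (q := q)) 24).mul (LeadU.pow (leadU_xS k) (12 * n))
  have := LeadU.uniq h1 h3
  push_cast at this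
  omega

end

end Fermat.Agent.PR
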