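import Mathlib
import Fermat.Agent.PR.Conc2
import Fermat.Agent.PR.Has3
import Fermat.Agent.MP.Genus0

/-!
The residue field of the component through the cusp `∞`.
-/

set_option autoImplicit false
set_option linter.unusedSectionVars false
set_option linter.style.haveILetI false
set_option linter.unusedVariables false

open IsLocalRing Polynomial ModularCurve IntermediateField

noncomputable section

universe u

namespace Fermat.Agent.PR

open Fermat.Agent.Geo Fermat.Agent.LG Fermat.Agent.CA Fermat.Agent.MP Fermat.Agent.ModFun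
open Fermat.Agent.ESCore (HauptFn haupt2)

section Kap

variable (k : Type u) [Field k]

/-- the field `k(X)` of functions of the coordinate of level four -/
abbrev kap : IntermediateField k (LaurentSeries k) := IntermediateField.adjoin k {xS k}

/-- the coordinate -/
def Xk : kap k := AdjoinSimple.gen k (xS k)

theorem coe_Xk : ((Xk k : kap k) : LaurentSeries k) = xS k := rfl

theorem isParam_Xk : IsParam k (Xk k) where
  inj := by
    have h := transcendental_xS k
    have h2 : Transcendental k (Xk k) := by
      intro h3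
      apply h
      exact IsAlgebraic.algebraMap (A := LaurentSeries k) h3
    exact transcendental_iff_injective.mp h2
  surj y := by
    obtain ⟨r, s, hrs⟩ := (IntermediateField.mem_adjoin_simple_iff k _).mp y.2
    by_cases hs : aeval (xS k) s = 0
    · refine ⟨0, 1, one_ne_zero, ?_⟩
      rw [hs, div_zero] at hrs
      have : y = 0 := Subtype.ext hrs
      rw [this, zero_mul, map_zero]
    · refine ⟨r, s, ?_, ?_⟩
      · rintro rfl
        exact hs (map_zero _)
      · apply Subtype.ext
        have e1 : ∀ q : k[X], ((aeval (Xk k) q : kap k) : LaurentSeries k) = aeval (xS k) q := by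
          intro q
          exact (aeval_algebraMap_apply (LaurentSeries k) (Xk k) q).symm
        change (y : LaurentSeries k) * ((aeval (Xk k) s : kap k) : LaurentSeries k) = _
        rw [e1, e1, hrs, div_mul_cancel₀ _ hs]

theorem coe_evalX (P : k[X]) : ((aeval (Xk k) P : kap k) : LaurentSeries k) =
    P.eval₂ HahnSeries.C (xS k) := by
  change (kap k).val.toRingHom (aeval (Xk k) P) = _
  rw [aeval_def, hom_eval₂]
  congr 1
  ext1 a
  change algebraMap k (LaurentSeries k) a = _
  rw [ModularCurve.algebraMap_laurentSeries_eq_single]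
  rfl

theorem eval₂_mem_kap (P : k[X]) : P.eval₂ HahnSeries.C (xS k) ∈ kap k := by
  rw [← coe_evalX]
  exact (aeval (Xk k) P).2

end Kap

section

variable {O L : Type u} [CommRing O] [IsDomain O] [IsDiscreteValuationRing O] [Field L]
  [Algebra O L] [IsFractionRing O L] {ι : L →+* ℂ} {π : O}

theorem isEmb_x (ι : L →+* ℂ) :
    letI := algO O (F0 L 4)
    IsEmb (O := O) (K := F0 L 4) (algebraMap (F0 L 4) (LaurentSeries L)) (xM L ι) (xS O) := by
  let _ := algO O (F0 L 4)
  refine ⟨fun a => coe_algO O (F0 L 4) a, (coeffMap_xS O (algebraMap O L)).symm, fun P hP => ?_⟩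
  have e4 : toK O (xS O) = xS (ResidueField O) := coeffMap_xS O (residue O)
  rw [e4] at hP
  by_contra h0
  exact (leadU_eval₂ (leadU_xS (ResidueField O)) h0).ne_zero hP

/-- the reduction of a function of level four is a rational function of the coordinate -/
theorem gR_mem_kap (hπ : Prime π) (ι : L →+* ℂ) (f : F0 L 4) (hf : (f : LaurentSeries L) ∈ gV O L) :
    gR (⟨(f : LaurentSeries L), hf⟩ : gV O L) ∈ kap (ResidueField O) := by
  let _ := algO O (F0 L 4)
  have hE := isEmb_x (O := O) ι
  have e4 : toK O (xS O) = xS (ResidueField O) := coeffMap_xS O (residue O)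
  have hpar : IsParam O (xM L ι) := isParam_of_eq (F0_four_eq L ι) _ (transcendental_xS L)
  -- representation with a unit denominator
  have key : ∀ s a : O[X], ¬ C π ∣ s → aeval (xM L ι) s * f = aeval (xM L ι) a →
      gR (⟨(f : LaurentSeries L), hf⟩ : gV O L) ∈ kap (ResidueField O) := by
    intro s a hs hsa
    have h1 := hE.toK_ne_zero hπ hs
    have h2 : toL O L (s.eval₂ HahnSeries.C (xS O)) * (f : LaurentSeries L) =
        toL O L (a.eval₂ HahnSeries.C (xS O)) := by
      rw [← hE.map_aeval, ← hE.map_aeval, ← hsa]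
      rfl
    rw [gR_eq (x := (⟨(f : LaurentSeries L), hf⟩ : gV O L)) h1 h2, toK_eval₂, toK_eval₂, e4]
    exact div_mem (eval₂_mem_kap _ _) (eval₂_mem_kap _ _)
  rcases (gaussVal hpar hπ).mem_or_inv_mem f with h | h
  · obtain ⟨s, a, hs, hsa⟩ := (mem_placeVal_iff hpar _).mp h
    exact key s a hs hsa
  · rcases eq_or_ne f 0 with rfl | hf0
    · exact key 1 0 (prime_C_iff.mpr hπ).not_dvd_one (by rw [mul_zero, map_zero])
    obtain ⟨s, a, hs, hsa⟩ := (mem_placeVal_iff hpar _).mp h
    have h3 : aeval (xM L ι) a * f = aeval (xM L ι) s := by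
      rw [← hsa, mul_assoc, inv_mul_cancel₀ hf0, mul_one]
    refine key a s ?_ h3
    intro hdvd
    have h4 : toL O L (a.eval₂ HahnSeries.C (xS O)) * (f : LaurentSeries L) =
        toL O L (s.eval₂ HahnSeries.C (xS O)) := by
      rw [← hE.map_aeval, ← hE.map_aeval, ← h3]
      rfl
    have h5 : (⟨toL O L (a.eval₂ HahnSeries.C (xS O)), toL_mem_gV _⟩ : gV O L) *
        (⟨(f : LaurentSeries L), hf⟩ : gV O L) =
        ⟨toL O L (s.eval₂ HahnSeries.C (xS O)), toL_mem_gV _⟩ := Subtype.ext h4
    have h6 := congrArg gR h5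
    rw [map_mul, gR_toL, gR_toL, toK_eval₂ a, (map_residue_eq_zero_iff hπ a).mpr hdvd, eval₂_zero,
      zero_mul] at h6
    exact hE.toK_ne_zero hπ hs h6.symm

/-- every rational function of the coordinate is a reduction -/
theorem exists_lift_kap (ι : L →+* ℂ) (z : kap (ResidueField O)) :
    ∃ (f : F0 L 4) (hf : (f : LaurentSeries L) ∈ gV O L),
      gR (⟨(f : LaurentSeries L), hf⟩ : gV O L) = (z : LaurentSeries (ResidueField O)) := by
  let _ := algO O (F0 L 4)
  have hE := isEmb_x (O := O) ι
  have e4 : toK O (xS O) = xS (ResidueField O) := coeffMap_xS O (residue O)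
  obtain ⟨A, B, hB, hz⟩ := (isParam_Xk (ResidueField O)).surj z
  have hBne : B.eval₂ HahnSeries.C (xS (ResidueField O)) ≠ 0 :=
    (leadU_eval₂ (leadU_xS (ResidueField O)) hB).ne_zero
  obtain ⟨a, rfl⟩ := map_surjective (residue O) residue_surjective A
  obtain ⟨b, rfl⟩ := map_surjective (residue O) residue_surjective B
  have hb : toK O (b.eval₂ HahnSeries.C (xS O)) ≠ 0 := by
    rw [toK_eval₂, e4]; exact hBne
  have hc : ∀ p : O[X], ((aeval (xM L ι) p : F0 L 4) : LaurentSeries L) =
      toL O L (p.eval₂ HahnSeries.C (xS O)) := fun p => hE.map_aeval p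
  have hf : ((aeval (xM L ι) a / aeval (xM L ι) b : F0 L 4) : LaurentSeries L) ∈ gV O L := by
    have : ((aeval (xM L ι) a / aeval (xM L ι) b : F0 L 4) : LaurentSeries L) =
        toL O L (a.eval₂ HahnSeries.C (xS O)) * (toL O L (b.eval₂ HahnSeries.C (xS O)))⁻¹ := by
      rw [← hc, ← hc, ← div_eq_mul_inv]; rfl
    rw [this]
    exact mul_mem (toL_mem_gV _) (toL_unit hb).2
  refine ⟨_, hf, ?_⟩
  have h2 : toL O L (b.eval₂ HahnSeries.C (xS O)) *
      ((aeval (xM L ι) a / aeval (xM L ι) b : F0 L 4) : LaurentSeries L) =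
      toL O L (a.eval₂ HahnSeries.C (xS O)) := by
    have h0 : toL O L (b.eval₂ HahnSeries.C (xS O)) ≠ 0 := by
      intro h0
      apply hb
      have := toL_injective (O := O) (L := L) (h0.trans (map_zero _).symm)
      rw [this, map_zero]
    have : ((aeval (xM L ι) a / aeval (xM L ι) b : F0 L 4) : LaurentSeries L) =
        toL O L (a.eval₂ HahnSeries.C (xS O)) / toL O L (b.eval₂ HahnSeries.C (xS O)) := by
      rw [← hc, ← hc]; rfl
    rw [this, mul_div_cancel₀ _ h0]
  rw [gR_eq (x := (⟨_, hf⟩ : gV O L)) hb h2, toK_eval₂, toK_eval₂, e4, ← coe_evalX, ← coe_evalX]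
  have h3 := congrArg (fun y : kap (ResidueField O) => (y : LaurentSeries (ResidueField O))) hz
  have h4 : (z : LaurentSeries (ResidueField O)) *
      ((aeval (Xk (ResidueField O)) (b.map (residue O)) : kap (ResidueField O)) :
        LaurentSeries (ResidueField O)) =
      ((aeval (Xk (ResidueField O)) (a.map (residue O)) : kap (ResidueField O)) :
        LaurentSeries (ResidueField O)) := h3
  rw [← h4, mul_div_assoc, div_self, mul_one]
  rw [coe_evalX]
  exact hBne

end

end Fermat.Agent.PR
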