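import Mathlib
import Fermat.Agent.PR.Rho
import Fermat.Agent.PR.Plc
import Fermat.Agent.MP.PW2

/-!
The residue field of the component at infinity: the data for the slope theorem.
-/

set_option autoImplicit false
set_option linter.unusedSectionVars false
set_option linter.style.haveILetI false
set_option linter.unusedVariables false

open IsLocalRing Polynomial ModularCurve IntermediateField

noncomputable section

universe u

namespace Fermat.Agent.PR

open Fermat.Agent.Geo Fermat.Agent.LG Fermat.Agent.CA Fermat.Agent.MP Fermat.Agent.ModFun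
open Fermat.Agent.ESCore (HauptFn haupt2)
open Fermat.Agent.CB

section Unit

variable {k : Type u} [Field k] {q : ℕ} [NeZero q] [ExpChar k q]

/-- the orders of the reduced modular unit -/
theorem unit_orders (hq : q.Prime) (h5 : 5 ≤ q) (hq0 : (q : k) = 0) (h2 : (2 : k) ≠ 0)
    {w : kap k} (hw : (w : LaurentSeries k) = PsR k 2 2 q) :
    w ≠ 0 ∧ (∀ a : k, a * (1 + 16 * a) = 0 →
      w ∈ plA (isParam_Xk k).inv a ∧ w⁻¹ ∈ plA (isParam_Xk k).inv a) ∧
    ∃ n : ℤ, ¬ (q : ℤ) ∣ n ∧ w * (Xk k)⁻¹ ^ n ∈ plInf (isParam_Xk k).inv ∧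
      (w * (Xk k)⁻¹ ^ n)⁻¹ ∈ plInf (isParam_Xk k).inv := by
  obtain ⟨R, hR0, hR16, hdeg, hR⟩ := psi_rel (k := k) hq h5 hq0 h2
  have hX0 : Xk k ≠ 0 := (isParam_Xk k).ne_zero
  have hrel : w ^ 24 * Xk k ^ (12 * (q - 1)) = (aeval (Xk k) R) ^ 2 := by
    apply Subtype.ext
    have e1 : ((w ^ 24 * Xk k ^ (12 * (q - 1)) : kap k) : LaurentSeries k) =
        (w : LaurentSeries k) ^ 24 * ((Xk k : kap k) : LaurentSeries k) ^ (12 * (q - 1)) := rfl
    have e2 : (((aeval (Xk k) R) ^ 2 : kap k) : LaurentSeries k) =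
        ((aeval (Xk k) R : kap k) : LaurentSeries k) ^ 2 := rfl
    rw [e1, e2, coe_evalX, hw, coe_Xk, hR]
  have hR' : R ≠ 0 := fun h0 => hR0 (by rw [h0, eval_zero])
  have h16 : (16 : k) ≠ 0 := by
    have : (16 : k) = 2 ^ 4 := by norm_num
    rw [this]; exact pow_ne_zero _ h2
  have hw0 : w ≠ 0 := by
    rintro rfl
    apply PsR_ne_zero (k := k) 2 2 q
    rw [← hw]; rfl
  refine ⟨hw0, fun a ha => ?_, ?_⟩
  · set V := plA (isParam_Xk k).inv a with hV
    have hc : ∀ b : k, algebraMap k (kap k) b ∈ V := plA_const _ a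
    have hT : V.valuation ((Xk k)⁻¹ - algebraMap k (kap k) a) < 1 :=
      V.mem_nonunits_iff.mp (plA_non (isParam_Xk k).inv a)
    suffices h : V.valuation w = 1 from (uc_of_v h).2
    refine v_of_pow (n := 24) (by norm_num) ?_
    rcases mul_eq_zero.mp ha with ha0 | ha0
    · -- the cusp `∞`
      rw [ha0, map_zero, sub_zero] at hT
      have h1 := v_aeval_inv hc hX0 hT hR'
      rw [hdeg] at h1
      have e : w ^ 24 = (aeval (Xk k) R / Xk k ^ (6 * (q - 1))) ^ 2 := by
        rw [div_pow, ← pow_mul, ← hrel, eq_div_iff (pow_ne_zero _ hX0)]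
        congr 2
        ring
      rw [e, map_pow, h1, one_pow]
    · -- the cusp `1/2`
      have ha1 : a ≠ 0 := by
        rintro rfl
        rw [mul_zero, add_zero] at ha0
        exact one_ne_zero ha0
      have hTv : V.valuation (Xk k)⁻¹ = 1 := by
        have := v_aeval_eq hc hT (R := X) (by rw [eval_X]; exact ha1)
        rwa [aeval_X] at this
      have hXv : V.valuation (Xk k) = 1 := by
        have h1 : V.valuation (Xk k)⁻¹ = (V.valuation (Xk k))⁻¹ := map_inv₀ _ _
        rw [h1, inv_eq_one] at hTv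
        exact hTv
      have hX16 : V.valuation (Xk k - algebraMap k (kap k) (-16)) < 1 := by
        have e : Xk k - algebraMap k (kap k) (-16) =
            algebraMap k (kap k) 16 * (Xk k * ((Xk k)⁻¹ - algebraMap k (kap k) a)) := by
          have h3 : algebraMap k (kap k) 16 * algebraMap k (kap k) a = -1 := by
            rw [← map_mul]
            have : (16 : k) * a = -1 := by linear_combination ha0
            rw [this, map_neg, map_one]
          rw [mul_sub, mul_inv_cancel₀ hX0, map_neg]
          linear_combination (Xk k) * h3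
        rw [e, map_mul, map_mul, v_const hc h16, hXv, one_mul, one_mul]
        exact hT
      have h1 := v_aeval_eq hc hX16 hR16
      have h2' := congrArg V.valuation hrel
      rw [map_mul, map_pow V.valuation (Xk k), hXv, one_pow, mul_one,
        map_pow V.valuation (aeval (Xk k) R), h1, one_pow] at h2'
      exact h2'
  · set V := plInf (isParam_Xk k).inv with hV
    have hc : ∀ b : k, algebraMap k (kap k) b ∈ V := plInf_const _
    have hT : V.valuation (Xk k - algebraMap k (kap k) 0) < 1 := by
      rw [map_zero, sub_zero]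
      have := V.mem_nonunits_iff.mp (plInf_non (isParam_Xk k).inv)
      rwa [inv_inv] at this
    have h1 := v_aeval_eq hc hT hR0
    obtain ⟨j, hj⟩ : ∃ j, q = 2 * j + 1 := by
      have := hq.odd_of_ne_two (by omega)
      obtain ⟨j, hj⟩ := this
      exact ⟨j, hj⟩
    refine ⟨-(j : ℤ), ?_, ?_⟩
    · rw [dvd_neg]
      intro hd
      have h3 : q ∣ j := by exact_mod_cast hd
      have := Nat.le_of_dvd (by omega) h3
      omega
    · suffices h : V.valuation (w * (Xk k)⁻¹ ^ (-(j : ℤ))) = 1 from (uc_of_v h).2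
      refine v_of_pow (n := 24) (by norm_num) ?_
      have e : (w * (Xk k)⁻¹ ^ (-(j : ℤ))) ^ 24 = (aeval (Xk k) R) ^ 2 := by
        rw [← hrel, zpow_neg, inv_zpow, inv_inv, zpow_natCast, mul_pow, ← pow_mul]
        congr 2
        omega
      rw [e, map_pow, h1, one_pow]

end Unit

end Fermat.Agent.PR
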