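import Mathlib
import Fermat.Agent.PR.RD
import Fermat.Agent.MP.GeoDef

/-!
The geometry of `X₀(4p)` over the maximal unramified extension.
-/

set_option autoImplicit false
set_option linter.unusedSectionVars false
set_option linter.style.haveILetI false
set_option linter.unusedVariables false

open IsLocalRing Polynomial ModularCurve IntermediateField

noncomputable section

universe u

namespace Fermat.Agent.PR

open Fermat.Agent.Geo Fermat.Agent.LG Fermat.Agent.CA Fermat.Agent.MP Fermat.Agent.ModFun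
open Fermat.Agent.ESCore (HauptFn haupt2)
open Fermat.Agent.CB

section Abs

variable {O K M F : Type u} [CommRing O] [IsDomain O] [IsDiscreteValuationRing O] [CharZero O]
  [Field K] [Field M] [Field F] [Algebra O K] [Algebra O M] [Algebra O F] [Algebra K M]
  [Algebra K F] [Algebra M F] [IsScalarTower O K M] [IsScalarTower O K F] [IsScalarTower K M F]
  [IsScalarTower O M F]
  {t : K} {π : O} [FiniteDimensional K M] [Algebra.IsSeparable K M]
  [FiniteDimensional K F] [Algebra.IsSeparable K F]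
  {ht : IsParam O t} {hπ : Prime π} {q : ℕ} {c : ℕ → ℤ[X]} {C₀ : ℤ}
  {P : Fin 2 → ValuationSubring F} {w : F ≃+* F} {a1 a2 : F}

theorem a1_unit_at (T : Duo (M := M) ht hπ q c C₀ P w) (D : DU (algebraMap K F t) π P w a1 a2)
    (y : Ideal (chart O (algebraMap K F t))) [hy : y.IsPrime] (hty : ¬ locM y (algebraMap K F t))
    (h0 : Meets y (P 0)) (h1 : ¬ Meets y (P 1)) : a1 ∈ locS y ∧ ¬ locM y a1 := by
  have l1 := loc_of T D hty D.ch1
  have l2 := loc_of T D hty D.ch2
  have E := smPt T (i := 0) (j := 1) (fun k hk => by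
    match k with
    | 0 => exact absurd rfl hk
    | 1 => rfl) h0 h1
  refine ⟨l1, fun hM => ?_⟩
  have h2 : a2 / algebraMap O F π ∈ locS y := by
    obtain ⟨z, hz⟩ := E.eq.dvd (x := ⟨a2, l2⟩) (a2_non T D) (T.sys.ov 0)
    have h3 : a2 = algebraMap O F π * (z : F) := congrArg Subtype.val hz
    rw [h3, mul_div_cancel_left₀ _ T.π_ne]
    exact z.2
  have e : a1 * (a2 / algebraMap O F π) = 1 := by
    rw [mul_div_assoc', D.prod, div_self T.π_ne]
  have h3 := hM.mul_right h2
  rw [e] at h3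
  exact not_locM_one h3

end Abs

section Rho

variable {O L : Type u} [CommRing O] [IsDomain O] [IsDiscreteValuationRing O] [Field L]
  [Algebra O L] [IsFractionRing O L] {N : ℕ} [NeZero N]

/-- the reduction map of the component at infinity -/
def rhoP (P₁ : ValuationSubring (F0 L N))
    (hP : ∀ x : F0 L N, x ∈ P₁ → (x : LaurentSeries L) ∈ gV O L)
    (hk : ∀ (x : F0 L N) (hx : x ∈ P₁), gR (⟨(x : LaurentSeries L), hP x hx⟩ : gV O L) ∈
      kap (ResidueField O)) : P₁ →+* kap (ResidueField O) :=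
  (gR.comp (((algebraMap (F0 L N) (LaurentSeries L)).comp P₁.subtype).codRestrict (gV O L)
    fun x => hP x x.2)).codRestrict (kap (ResidueField O)) (fun x => hk x x.2)

theorem coe_rhoP (P₁ : ValuationSubring (F0 L N))
    (hP : ∀ x : F0 L N, x ∈ P₁ → (x : LaurentSeries L) ∈ gV O L)
    (hk : ∀ (x : F0 L N) (hx : x ∈ P₁), gR (⟨(x : LaurentSeries L), hP x hx⟩ : gV O L) ∈
      kap (ResidueField O)) (x : P₁) : ((rhoP P₁ hP hk x : kap (ResidueField O)) :
      LaurentSeries (ResidueField O)) = gR (⟨((x : F0 L N) : LaurentSeries L), hP x x.2⟩ : gV O L) :=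
  rfl

end Rho

section Main

variable {O L : Type u} [CommRing O] [IsDomain O] [IsDiscreteValuationRing O] [Field L]
  [Algebra O L] [IsFractionRing O L] {q N : ℕ} [NeZero q] [NeZero N] {ι : L →+* ℂ} {ζ : Lˣ} {π : O}
  [CharZero O] [IsAlgClosed (ResidueField O)] [ExpChar (ResidueField O) q]

set_option maxHeartbeats 1000000 in
theorem rdata_conc (h : Hyp O L q 4 N ι ζ π) (h5 : 5 ≤ q) (B : Bez q 4) :
    letI := algO O (Kt L 2 16)
    letI := algO O (F0 L 4)
    letI := algO O (F0 L N)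
    letI := algI h.le1
    letI := algI h.le2
    letI := algI h.le3
    haveI t1 : IsScalarTower O (Kt L 2 16) (F0 L 4) := tower_O O h.le1
    haveI t2 : IsScalarTower O (Kt L 2 16) (F0 L N) := tower_O O h.le3
    ∀ {ht : IsParam O (tK L 2 16)} {c : ℕ → ℤ[X]} {P : Fin 2 → ValuationSubring (F0 L N)}
      (_ : Duo (M := F0 L 4) ht h.hπ q c ((16 : ℤ) ^ 2 * ((2 : ℕ) : ℤ) ^ 4) P
        (B.wF ι h.hq h.hN))
      (hP : ∀ x : F0 L N, x ∈ P 0 ↔ (x : LaurentSeries L) ∈ gV O L)
      (_ : FiniteDimensional (Kt L 2 16) (F0 L 4)),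
      ∃ ρ : P 0 →+* kap (ResidueField O), RData (O := O) (tK L 2 16) (P 0)
        ((phiData_two (h.hq.odd_of_ne_two h.hq2) dvd_rfl).el h.hN ι) q ρ
        (Xk (ResidueField O))⁻¹ := by
  let iOK := algO O (Kt L 2 16)
  let iOM := algO O (F0 L 4)
  let iOF := algO O (F0 L N)
  let iKM := algI h.le1
  let iMF := algI h.le2
  let iKF := algI h.le3
  haveI t1 : IsScalarTower O (Kt L 2 16) (F0 L 4) := tower_O O h.le1
  haveI t2 : IsScalarTower O (Kt L 2 16) (F0 L N) := tower_O O h.le3
  haveI t3 : IsScalarTower O (F0 L 4) (F0 L N) := tower_O O h.le2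
  haveI t4 : IsScalarTower (Kt L 2 16) (F0 L 4) (F0 L N) := tower_I h.le1 _ _
  intro ht c P T hP hfinM
  haveI := hfinM
  haveI hfinF : FiniteDimensional (F0 L 4) (F0 L N) := finDim_lev ι h.le2
  haveI hfin : FiniteDimensional (Kt L 2 16) (F0 L N) :=
    FiniteDimensional.trans (Kt L 2 16) (F0 L 4) (F0 L N)
  haveI hcL : CharZero L := charZero_of_injective_algebraMap (IsFractionRing.injective O L)
  haveI : CharZero (Kt L 2 16) :=
    charZero_of_injective_algebraMap (algebraMap L (Kt L 2 16)).injective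
  have hgK : ∀ x : F0 L N, algebraMap (F0 L N) (LaurentSeries L) x ∈ gK O L :=
    fun x => F0_le_gK x.2
  have hP0 : P 0 = gW (algebraMap (F0 L N) (LaurentSeries L)) hgK := by
    ext x; exact hP x
  have hnon : ∀ (x : F0 L N) (hx : (x : LaurentSeries L) ∈ gV O L), x ∈ (P 0).nonunits →
      gR (⟨(x : LaurentSeries L), hx⟩ : gV O L) = 0 := by
    intro x hx hn
    rw [hP0] at hn
    exact (mem_nonunits_iff_gR (θ := algebraMap (F0 L N) (LaurentSeries L)) (hθ := hgK) hx).mp hn
  have hk : ∀ (x : F0 L N) (hx : x ∈ P 0), gR (⟨(x : LaurentSeries L), (hP x).mp hx⟩ : gV O L) ∈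
      kap (ResidueField O) := by
    intro x hx
    obtain ⟨f, hf, hxf⟩ := T.res0 x hx
    have hfV : (f : LaurentSeries L) ∈ gV O L := (hP (algebraMap (F0 L 4) (F0 L N) f)).mp hf
    have hxV : (x : LaurentSeries L) ∈ gV O L := (hP x).mp hx
    have hsV : ((x - algebraMap (F0 L 4) (F0 L N) f : F0 L N) : LaurentSeries L) ∈ gV O L :=
      (hP (x - algebraMap (F0 L 4) (F0 L N) f)).mp (sub_mem hx hf)
    have h1 := hnon (x - algebraMap (F0 L 4) (F0 L N) f) hsV hxf
    have hco : ((x - algebraMap (F0 L 4) (F0 L N) f : F0 L N) : LaurentSeries L) =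
        (x : LaurentSeries L) - (f : LaurentSeries L) := rfl
    have h2 : (⟨((x - algebraMap (F0 L 4) (F0 L N) f : F0 L N) : LaurentSeries L),
        hsV⟩ : gV O L) = (⟨(x : LaurentSeries L), hxV⟩ : gV O L) -
          (⟨(f : LaurentSeries L), hfV⟩ : gV O L) := Subtype.ext hco
    rw [h2, map_sub, sub_eq_zero] at h1
    rw [h1]
    exact gR_mem_kap h.hπ ι f hfV
  refine ⟨rhoP (P 0) (fun x => (hP x).mp) hk, ?_⟩
  set ρ := rhoP (P 0) (fun x => (hP x).mp) hk with hρ
  have hX0 : Xk (ResidueField O) ≠ 0 := (isParam_Xk _).ne_zero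
  have e4 : toK O (xS O) = xS (ResidueField O) := coeffMap_xS O (residue O)
  -- the reduction of `t`
  have tP : algebraMap (Kt L 2 16) (F0 L N) (tK L 2 16) ∈ P 0 :=
    chart_mem_over (T.sys.ov 0) (self_mem_chart _)
  have tco : ((ρ ⟨_, tP⟩ : kap (ResidueField O)) : LaurentSeries (ResidueField O)) =
      tS (ResidueField O) 2 16 := by
    rw [hρ, coe_rhoP]
    have e1 : (⟨((algebraMap (Kt L 2 16) (F0 L N) (tK L 2 16) : F0 L N) : LaurentSeries L),
        (hP _).mp tP⟩ : gV O L) = ⟨toL O L (tS O 2 16), toL_mem_gV _⟩ :=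
      Subtype.ext (toL_tS (O := O) (L := L)).symm
    rw [e1, gR_toL, toK_tS]
  have t_eq : ρ ⟨_, tP⟩ * ((Xk (ResidueField O))⁻¹ * (1 + 16 * (Xk (ResidueField O))⁻¹)) = 1 := by
    have h1 : ρ ⟨_, tP⟩ * (Xk (ResidueField O) + 16) = Xk (ResidueField O) ^ 2 := by
      apply Subtype.ext
      have e1 : ((ρ ⟨_, tP⟩ * (Xk (ResidueField O) + 16) : kap (ResidueField O)) :
          LaurentSeries (ResidueField O)) = ((ρ ⟨_, tP⟩ : kap (ResidueField O)) :
          LaurentSeries (ResidueField O)) * (xS (ResidueField O) + 16) := rfl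
      rw [e1, tco, ← xS_sq]
      rfl
    have h2 : (Xk (ResidueField O))⁻¹ * (1 + 16 * (Xk (ResidueField O))⁻¹) =
        (Xk (ResidueField O) + 16) / Xk (ResidueField O) ^ 2 := by
      field_simp
    rw [h2, mul_div_assoc', h1, div_self (pow_ne_zero _ hX0)]
  -- the reduction of `u`
  set hφ := phiData_two (h.hq.odd_of_ne_two h.hq2) (dvd_refl 4) with hφd
  have ca : ((hφ.el h.hN ι : F0 L N) : LaurentSeries L) = toL O L (PsR O 2 2 q) := by
    rw [toL, coeffMap_PsR]; rfl
  have uP : hφ.el h.hN ι ∈ P 0 := by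
    rw [hP, ca]
    exact toL_mem_gV _
  have uco : ((ρ ⟨_, uP⟩ : kap (ResidueField O)) : LaurentSeries (ResidueField O)) =
      PsR (ResidueField O) 2 2 q := by
    rw [hρ, coe_rhoP]
    have e1 : (⟨((hφ.el h.hN ι : F0 L N) : LaurentSeries L), (hP _).mp uP⟩ : gV O L) =
        ⟨toL O L (PsR O 2 2 q), toL_mem_gV _⟩ := Subtype.ext ca
    rw [e1, gR_toL, toK, coeffMap_PsR]
  have h2k : (2 : ResidueField O) ≠ 0 := by
    have h3 := h.hu2.map (residue O)
    rw [map_natCast] at h3
    have := h3.ne_zero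
    exact_mod_cast this
  obtain ⟨u1, u2, u3⟩ := unit_orders h.hq h5 h.hq0 h2k uco
  have OP : ∀ a : O, algebraMap O (F0 L N) a ∈ P 0 := fun a => T.O_mem 0 a
  exact
    { hT := (isParam_Xk _).inv
      non := fun x hx => Subtype.ext (by
        rw [hρ, coe_rhoP]
        exact hnon _ _ hx)
      surj := fun z => by
        obtain ⟨f, hf, hfz⟩ := exists_lift_kap (O := O) ι z
        have hf' : algebraMap (F0 L 4) (F0 L N) f ∈ P 0 := (hP _).mpr hf
        refine ⟨⟨_, hf'⟩, Subtype.ext ?_⟩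
        rw [hρ, coe_rhoP]
        exact hfz
      OP := OP
      O_eq := fun a => Subtype.ext (by
        rw [hρ, coe_rhoP]
        have e1 : (⟨((algebraMap O (F0 L N) a : F0 L N) : LaurentSeries L),
            (hP _).mp (OP a)⟩ : gV O L) =
            ⟨HahnSeries.C (algebraMap O L a), C_mem_gV a⟩ := Subtype.ext (coe_algO O (F0 L N) a)
        have e2 : gR (⟨((algebraMap O (F0 L N) a : F0 L N) : LaurentSeries L),
            (hP _).mp (OP a)⟩ : gV O L) = HahnSeries.C (residue O a) := by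
          rw [e1, gR_C]
        refine e2.trans ?_
        change _ = algebraMap (ResidueField O) (LaurentSeries (ResidueField O)) (residue O a)
        rw [ModularCurve.algebraMap_laurentSeries_eq_single]
        rfl)
      tP := tP
      t_eq := t_eq
      uP := uP
      u_ne := u1
      u_cusp := u2
      u_inf := u3 }

set_option maxHeartbeats 1000000 in
theorem geo_gen {O L : Type} [CommRing O] [IsDomain O] [IsDiscreteValuationRing O] [Field L]
    [Algebra O L] [IsFractionRing O L] {q N : ℕ} [NeZero q] [NeZero N] {ι : L →+* ℂ} {ζ : Lˣ}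
    [CharZero O] [IsAlgClosed (ResidueField O)] [ExpChar (ResidueField O) q]
    (h : Hyp O L q 4 N ι ζ (q : O)) (h5 : 5 ≤ q) (B : Bez q 4) :
    letI := algO O (F0 L N)
    ∃ (K : Type) (_ : Field K) (_ : Algebra O K) (_ : Algebra K (F0 L N))
    (_ : IsScalarTower O K (F0 L N)) (_ : FiniteDimensional K (F0 L N))
    (_ : Algebra.IsSeparable K (F0 L N)) (t : K) (ht : IsParam O t)
    (hπ : Prime ((q : ℕ) : O)) (P₁ P₀ : ValuationSubring (F0 L N)) (u u' : F0 L N),
    TwoComp ht hπ P₁ P₀ u u' ∧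
    (∀ x : F0 L N, x ∈ P₁ ↔ (x : LaurentSeries L) ∈ gV O L) ∧
    (∀ (y : Ideal (chart O (algebraMap K (F0 L N) t))) [y.IsMaximal],
      ¬ locM y (algebraMap K (F0 L N) t) → Meets y P₁ → ¬ Meets y P₀ →
        u ∈ locS y ∧ ¬ locM y u) ∧
    (∀ (y : Ideal (chart O (algebraMap K (F0 L N) t))) [y.IsMaximal],
      locM y (algebraMap K (F0 L N) t) → Meets y P₁ → ¬ Meets y P₀) ∧
    ∃ (κ : Type) (_ : Field κ) (_ : Algebra (ResidueField O) κ) (ρ : P₁ →+* κ) (T : κ),
      RData (O := O) t P₁ u q ρ T := by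
  let iOK := algO O (Kt L 2 16)
  let iOM := algO O (F0 L 4)
  let iOF := algO O (F0 L N)
  let iKM := algI h.le1
  let iMF := algI h.le2
  let iKF := algI h.le3
  haveI t1 : IsScalarTower O (Kt L 2 16) (F0 L 4) := tower_O O h.le1
  haveI t2 : IsScalarTower O (Kt L 2 16) (F0 L N) := tower_O O h.le3
  haveI t3 : IsScalarTower O (F0 L 4) (F0 L N) := tower_O O h.le2
  haveI t4 : IsScalarTower (Kt L 2 16) (F0 L 4) (F0 L N) := tower_I h.le1 _ _
  obtain ⟨ht, c, P, T, hP, hfinM⟩ := conc_duo (O := O) h B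
  haveI := hfinM
  haveI hfinF : FiniteDimensional (F0 L 4) (F0 L N) := finDim_lev ι h.le2
  haveI hfin : FiniteDimensional (Kt L 2 16) (F0 L N) :=
    FiniteDimensional.trans (Kt L 2 16) (F0 L 4) (F0 L N)
  haveI hcL : CharZero L := charZero_of_injective_algebraMap (IsFractionRing.injective O L)
  haveI : CharZero (Kt L 2 16) :=
    charZero_of_injective_algebraMap (algebraMap L (Kt L 2 16)).injective
  have D := du_conc (O := O) h dvd_rfl B T hP hfinM
  have Cx := coord_conc (O := O) h B hP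
  obtain ⟨ρ, R⟩ := rdata_conc (O := O) h h5 B T hP hfinM
  refine ⟨Kt L 2 16, inferInstance, iOK, iKF, t2, hfin, inferInstance, tK L 2 16, ht, h.hπ, P 0,
    P 1, _, _, twoComp T D Cx, hP, fun y hy hty h0 h1 => a1_unit_at T D y hty h0 h1,
    fun y hy hty h0 h1 => not_locM_t T h0 h1 hty, _, _, _, ρ, _, R⟩

end Main

end Fermat.Agent.PR
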