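import Mathlib
import Fermat.Agent.PR.GeoD
import Fermat.Agent.CD.Dvr
import Fermat.Agent.LG.ArStar2

/-!
The geometry of `X₀(4p)` over the maximal unramified extension: conclusion.
-/

set_option autoImplicit false

open IsLocalRing Polynomial

noncomputable section

namespace Fermat.Agent.PR

open Fermat.Agent.Geo Fermat.Agent.LG Fermat.Agent.CA Fermat.Agent.MP Fermat.Agent.ModFun

local notation "Qb" => AlgebraicClosure ℚ

theorem geoData {A : ValuationSubring Qb} {p N : ℕ} [NeZero p] [NeZero N] (hp : p.Prime)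
    (h5 : 5 ≤ p) (hA : A.LiesOverPrime p) (hN : N = p * 4)
    [IsDiscreteValuationRing (OL A (KI A))] : GeoData A (KI A) N p := by
  have h := CD.ar_KI hp hA
  haveI i1 := h.isAlgClosed
  haveI i2 := h.expChar_residue
  haveI i3 := Ar.charZero A (KI A)
  have hp4 : ¬ p ∣ 4 := by
    intro hd
    have := Nat.le_of_dvd (by norm_num) hd
    omega
  obtain ⟨ζM, hζM⟩ := h.exists_zeta (M := 4) hp4
  have hMu : IsUnit ((4 : ℕ) : OL A (KI A)) := h.isUnit_natCast hp4
  have hco : p.Coprime 4 := (Nat.Prime.coprime_iff_not_dvd hp).mpr hp4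
  obtain ⟨B⟩ := nonempty_bez hco
  have H : Hyp (OL A (KI A)) (KI A) p 4 N (ιL (KI A)) ζM (p : OL A (KI A)) :=
    { hζ := hζM
      hMu := hMu
      hπ := CD.prime_q hp hA
      hq0 := h.natCast_residue
      hq := hp
      hq2 := by omega
      hN := hN
      hqM := hco
      h2M := by norm_num
      hqπ := rfl }
  exact geo_gen H h5 B

end Fermat.Agent.PR
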