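import Fermat.Agent.CD.Dvr
import Fermat.Agent.EC.Peu4

set_option autoImplicit false
set_option linter.unusedSectionVars false

/-!
# Totally ramified extensions of degree `p` of the inertia field with minimal different
-/

noncomputable section

namespace Fermat.Agent.PR

open IntermediateField IsLocalRing Fermat.Agent.LG Fermat.Agent.GaloisBasics Fermat.Agent.EC
open Fermat.Agent.CD Polynomial
open scoped Pointwise

local notation "Qb" => AlgebraicClosure ℚ
local notation "GQ" => (AlgebraicClosure ℚ ≃ₐ[ℚ] AlgebraicClosure ℚ)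

/-- The data: `H` is a subgroup of the inertia group `I`, `η` is fixed by `H`, has valuation
`1 / p`, its conjugates are at distance `1 / (p - 1)`, and there are at most `p` of them. -/
structure EtaData (A : ValuationSubring Qb) (p : ℕ) (H : Subgroup GQ) (η : Qb) : Prop where
  hp : p.Prime
  hp2 : p ≠ 2
  hA : A.LiesOverPrime p
  le : H ≤ A.inertiaSubgroupIn ℚ
  fix : ∀ σ ∈ H, σ η = η
  val : A.valuation η ^ p = A.valuation (p : Qb)
  mov : ∀ σ ∈ A.inertiaSubgroupIn ℚ, σ ∉ H → A.valuation (σ η - η) ^ (p - 1) = A.valuation (p : Qb)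
  fin : ∃ (X : Type) (f : GQ → X) (S : Finset X), S.card ≤ p ∧ (∀ σ ∈ A.inertiaSubgroupIn ℚ, f σ ∈ S)
    ∧ ∀ σ ∈ A.inertiaSubgroupIn ℚ, ∀ τ ∈ A.inertiaSubgroupIn ℚ, f σ = f τ → τ⁻¹ * σ ∈ H

namespace EtaData

variable {A : ValuationSubring Qb} {p : ℕ} {H : Subgroup GQ} {η : Qb} (D : EtaData A p H η)
include D

lemma vp_lt : A.valuation (p : Qb) < 1 := D.hA

lemma vp_pos : 0 < A.valuation (p : Qb) :=
  zero_lt_iff.mpr ((Valuation.ne_zero_iff _).mpr (by exact_mod_cast D.hp.ne_zero))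

lemma vη_pos : 0 < A.valuation η := by
  refine zero_lt_iff.mpr fun h => ?_
  have h1 := D.val
  rw [h, zero_pow D.hp.ne_zero] at h1
  exact D.vp_pos.ne h1

lemma vη_lt : A.valuation η < 1 := by
  rw [← pow_lt_one_iff_of_nonneg zero_le D.hp.ne_zero, D.val]
  exact D.vp_lt

lemma hp3 : 3 ≤ p := by
  have := D.hp.two_le
  have := D.hp2
  omega

lemma mem_H_iff {σ : GQ} (hσ : σ ∈ A.inertiaSubgroupIn ℚ) : σ ∈ H ↔ σ η = η := by
  refine ⟨D.fix σ, fun h => ?_⟩
  by_contra hcon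
  have h1 := D.mov σ hσ hcon
  have := D.hp3
  rw [h, sub_self, map_zero, zero_pow (by omega)] at h1
  exact D.vp_pos.ne h1

lemma viso {σ : GQ} (hσ : σ ∈ A.inertiaSubgroupIn ℚ) (x : Qb) :
    A.valuation (σ x) = A.valuation x := inertia_iso D.hp D.hA hσ x

/-- the set of conjugates is finite -/
lemma finite_conj : {w : Qb | ∃ σ ∈ A.inertiaSubgroupIn ℚ, σ η = w}.Finite := by
  obtain ⟨X, f, S, -, hS, hf⟩ := D.fin
  classical
  let g : X → Qb := fun x => if h : ∃ σ ∈ A.inertiaSubgroupIn ℚ, f σ = x then h.choose η else 0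
  refine (S.image g).finite_toSet.subset ?_
  rintro w ⟨σ, hσ, rfl⟩
  rw [Finset.mem_coe, Finset.mem_image]
  refine ⟨f σ, hS σ hσ, ?_⟩
  have h : ∃ τ ∈ A.inertiaSubgroupIn ℚ, f τ = f σ := ⟨σ, hσ, rfl⟩
  simp only [g, dif_pos h]
  have h1 := h.choose_spec
  have h2 := D.fix _ (hf _ hσ _ h1.1 h1.2.symm)
  have h3 := congrArg h.choose h2
  rw [← AlgEquiv.mul_apply, mul_inv_cancel_left] at h3
  exact h3.symm

/-- the conjugates -/
def Y : Finset Qb := D.finite_conj.toFinset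

lemma mem_Y {w : Qb} : w ∈ D.Y ↔ ∃ σ ∈ A.inertiaSubgroupIn ℚ, σ η = w := by
  rw [Y, Set.Finite.mem_toFinset]
  exact Iff.rfl

lemma η_mem : η ∈ D.Y := D.mem_Y.mpr ⟨1, one_mem _, rfl⟩

lemma smul_mem {σ : GQ} (hσ : σ ∈ A.inertiaSubgroupIn ℚ) {w : Qb} (hw : w ∈ D.Y) : σ w ∈ D.Y := by
  rw [D.mem_Y] at hw ⊢
  obtain ⟨τ, hτ, rfl⟩ := hw
  exact ⟨σ * τ, mul_mem hσ hτ, rfl⟩

lemma vY {w : Qb} (hw : w ∈ D.Y) : A.valuation w = A.valuation η := by
  obtain ⟨τ, hτ, rfl⟩ := D.mem_Y.mp hw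
  exact D.viso hτ η

open Classical in
/-- a representative -/
def rp (_ : EtaData A p H η) (w : Qb) : GQ := if h : ∃ σ ∈ A.inertiaSubgroupIn ℚ, σ η = w then h.choose else 1

lemma rp_mem (w : Qb) : D.rp w ∈ A.inertiaSubgroupIn ℚ := by
  unfold rp
  split_ifs with h
  · exact h.choose_spec.1
  · exact one_mem _

lemma rp_apply {w : Qb} (hw : w ∈ D.Y) : D.rp w η = w := by
  have h := D.mem_Y.mp hw
  unfold rp
  rw [dif_pos h]
  exact h.choose_spec.2

lemma card_Y : D.Y.card = p := by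
  have hp := D.hp
  have h1 : D.Y.card ≤ p := by
    obtain ⟨X, f, S, hc, hS, hf⟩ := D.fin
    refine (Finset.card_le_card_of_injOn (fun w => f (D.rp w)) (fun w _ => hS _ (D.rp_mem w)) ?_).trans hc
    intro w hw w' hw' h
    have h2 := D.fix _ (hf _ (D.rp_mem w) _ (D.rp_mem w') h)
    have h3 := congrArg (D.rp w') h2
    rw [← AlgEquiv.mul_apply, mul_inv_cancel_left, D.rp_apply hw, D.rp_apply hw'] at h3
    exact h3
  obtain ⟨r, hr⟩ : ∃ r, r = ∏ w ∈ D.Y, w := ⟨_, rfl⟩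
  have hrK : r ∈ KI A := by
    rw [mem_KI]
    intro σ hσ
    rw [hr, map_prod]
    refine Finset.prod_nbij (fun x => σ x) (fun w hw => D.smul_mem hσ hw)
      (fun x _ y _ hxy => σ.injective hxy) ?_ (fun _ _ => rfl)
    intro w hw
    exact ⟨σ⁻¹ w, D.smul_mem (inv_mem hσ) hw, σ.apply_symm_apply w⟩
  have hrv : A.valuation r = A.valuation η ^ D.Y.card := by
    rw [hr, map_prod]
    exact Finset.prod_eq_pow_card fun w hw => D.vY hw
  have hr0 : r ≠ 0 := by
    rintro rfl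
    rw [map_zero] at hrv
    exact pow_ne_zero _ D.vη_pos.ne' hrv.symm
  obtain ⟨m, hm⟩ := exists_zpow A hp D.hA hrK hr0
  rw [hrv, ← D.val, ← zpow_natCast, ← zpow_natCast, ← zpow_mul] at hm
  have h2 : (D.Y.card : ℤ) = p * m := by
    have hinj := zpow_right_injective₀ D.vη_pos D.vη_lt.ne
    exact hinj hm
  have h3 : 1 ≤ D.Y.card := Finset.card_pos.mpr ⟨η, D.η_mem⟩
  have h4 : (p : ℤ) ∣ D.Y.card := ⟨m, h2⟩
  have h5 : p ∣ D.Y.card := by exact_mod_cast h4
  exact le_antisymm h1 (Nat.le_of_dvd h3 h5)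

/-- distinct conjugates -/
lemma v_sub {w : Qb} (hw : w ∈ D.Y) (hne : w ≠ η) :
    A.valuation (η - w) ^ (p - 1) = A.valuation (p : Qb) := by
  have h1 := D.rp_apply hw
  have h2 : D.rp w ∉ H := fun h => hne (by rw [← h1]; exact D.fix _ h)
  have h3 := D.mov _ (D.rp_mem w) h2
  rw [h1] at h3
  rw [Valuation.map_sub_swap]
  exact h3

/-- the field `L₂` -/
lemma mem_L2_iff {z : Qb} : z ∈ IntermediateField.fixedField H ↔ ∀ σ ∈ H, σ z = z := by
  rw [IntermediateField.mem_fixedField_iff]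

lemma KI_le : KI A ≤ IntermediateField.fixedField H := by
  intro z hz
  rw [D.mem_L2_iff]
  intro σ hσ
  exact mem_KI.mp hz σ (D.le hσ)

lemma η_mem_L2 : η ∈ IntermediateField.fixedField H := D.mem_L2_iff.mpr D.fix

/-- conjugates of an element fixed by `H` -/
lemma rp_comp {σ : GQ} (hσ : σ ∈ A.inertiaSubgroupIn ℚ) {w : Qb} (hw : w ∈ D.Y) :
    ∃ τ ∈ H, σ * D.rp w = D.rp (σ w) * τ := by
  refine ⟨(D.rp (σ w))⁻¹ * (σ * D.rp w), ?_, by group⟩
  rw [D.mem_H_iff (mul_mem (inv_mem (D.rp_mem _)) (mul_mem hσ (D.rp_mem w)))]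
  rw [AlgEquiv.mul_apply, AlgEquiv.mul_apply, D.rp_apply hw]
  have h1 := D.rp_apply (D.smul_mem hσ hw)
  have h2 : (D.rp (σ w))⁻¹ (D.rp (σ w) η) = η := (D.rp (σ w)).symm_apply_apply η
  rw [h1] at h2
  exact h2

lemma conj_eq {σ : GQ} (hσ : σ ∈ A.inertiaSubgroupIn ℚ) {w : Qb} (hw : w ∈ D.Y) {z : Qb}
    (hz : z ∈ IntermediateField.fixedField H) : σ (D.rp w z) = D.rp (σ w) z := by
  obtain ⟨τ, hτ, h⟩ := D.rp_comp hσ hw
  have h1 := congrArg (fun g : GQ => g z) h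
  simp only [AlgEquiv.mul_apply] at h1
  rw [D.mem_L2_iff.mp hz τ hτ] at h1
  exact h1

lemma rp_η {z : Qb} (hz : z ∈ IntermediateField.fixedField H) : D.rp η z = z := by
  refine D.mem_L2_iff.mp hz _ ?_
  rw [D.mem_H_iff (D.rp_mem η), D.rp_apply D.η_mem]

/-- valuations of elements of `L₂` -/
lemma exists_zpow_L2 {z : Qb} (hz : z ∈ IntermediateField.fixedField H) (hz0 : z ≠ 0) :
    ∃ s : ℤ, A.valuation z = A.valuation η ^ s := by
  obtain ⟨r, hr⟩ : ∃ r, r = ∏ w ∈ D.Y, D.rp w z := ⟨_, rfl⟩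
  have hrK : r ∈ KI A := by
    rw [mem_KI]
    intro σ hσ
    rw [hr, map_prod, Finset.prod_congr rfl fun w hw => D.conj_eq hσ hw hz]
    refine Finset.prod_nbij (fun x => σ x) (fun w hw => D.smul_mem hσ hw)
      (fun x _ y _ hxy => σ.injective hxy) ?_ (fun _ _ => rfl)
    intro w hw
    exact ⟨σ⁻¹ w, D.smul_mem (inv_mem hσ) hw, σ.apply_symm_apply w⟩
  have hrv : A.valuation r = A.valuation z ^ p := by
    rw [hr, map_prod]
    rw [Finset.prod_eq_pow_card (b := A.valuation z) fun w hw => D.viso (D.rp_mem w) z, D.card_Y]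
  have hr0 : r ≠ 0 := by
    rintro rfl
    rw [map_zero] at hrv
    exact pow_ne_zero _ ((Valuation.ne_zero_iff _).mpr hz0) hrv.symm
  obtain ⟨m, hm⟩ := exists_zpow A D.hp D.hA hrK hr0
  refine ⟨m, ?_⟩
  rw [hrv, ← D.val, ← zpow_natCast (A.valuation η), ← zpow_mul, mul_comm, zpow_mul,
    zpow_natCast] at hm
  exact (pow_left_inj₀ zero_le zero_le D.hp.ne_zero).mp hm

/-- interpolation: `L₂` is spanned by the powers of `η`. -/
lemma exists_poly {z : Qb} (hz : z ∈ IntermediateField.fixedField H) :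
    ∃ b : ℕ → Qb, (∀ i, b i ∈ KI A) ∧ z = ∑ i ∈ Finset.range p, b i * η ^ i := by
  classical
  let P : Qb[X] := Lagrange.interpolate D.Y id fun w => D.rp w z
  have hinj : Set.InjOn (id : Qb → Qb) (D.Y : Set Qb) := fun _ _ _ _ h => h
  have hdeg : P.degree < p := by
    have := Lagrange.degree_interpolate_lt (fun w => D.rp w z) hinj
    rwa [D.card_Y] at this
  have hev : ∀ w ∈ D.Y, P.eval w = D.rp w z := fun w hw =>
    Lagrange.eval_interpolate_at_node (fun w => D.rp w z) hinj hw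
  have hP : ∀ σ ∈ A.inertiaSubgroupIn ℚ, P.map (σ : Qb →+* Qb) = P := by
    intro σ hσ
    refine Polynomial.eq_of_degrees_lt_of_eval_finset_eq D.Y ?_ ?_ ?_
    · refine (Polynomial.degree_map_le).trans_lt ?_
      rw [D.card_Y]
      exact hdeg
    · rw [D.card_Y]
      exact hdeg
    · intro w hw
      have hw' : σ⁻¹ w ∈ D.Y := D.smul_mem (inv_mem hσ) hw
      have e : (σ : Qb →+* Qb) (σ⁻¹ w) = w := σ.apply_symm_apply w
      have h1 : (P.map (σ : Qb →+* Qb)).eval w = (σ : Qb →+* Qb) (P.eval (σ⁻¹ w)) := by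
        conv_lhs => rw [← e]
        rw [Polynomial.eval_map_apply]
      rw [h1, hev _ hw', hev _ hw]
      change σ (D.rp (σ⁻¹ w) z) = _
      rw [D.conj_eq hσ hw' hz]
      have e2 : σ (σ⁻¹ w) = w := e
      rw [e2]
  refine ⟨fun i => P.coeff i, fun i => ?_, ?_⟩
  · rw [mem_KI]
    intro σ hσ
    have h1 := congrArg (fun Q : Qb[X] => Q.coeff i) (hP σ hσ)
    simp only [coeff_map] at h1
    exact h1
  · have h1 := hev η D.η_mem
    rw [D.rp_η hz] at h1
    have hn : P.natDegree < p := by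
      rcases eq_or_ne P 0 with h0 | h0
      · rw [h0, natDegree_zero]
        exact D.hp.pos
      · exact (natDegree_lt_iff_degree_lt h0).mpr hdeg
    rw [← h1, Polynomial.eval_eq_sum_range' hn]

end EtaData

end Fermat.Agent.PR
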