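import Fermat.Agent.PR.EisAlg

set_option autoImplicit false
set_option linter.unusedSectionVars false

/-!
# The Eisenstein equation
-/

noncomputable section

namespace Fermat.Agent.PR

open IntermediateField IsLocalRing Fermat.Agent.LG Fermat.Agent.GaloisBasics Fermat.Agent.EC
open Fermat.Agent.CD Polynomial
open scoped Pointwise

local notation "Qb" => AlgebraicClosure ℚ
local notation "GQ" => (AlgebraicClosure ℚ ≃ₐ[ℚ] AlgebraicClosure ℚ)

theorem v_coeff_prod_lt {K : Type*} [Field K] {Γ₀ : Type*} [LinearOrderedCommGroupWithZero Γ₀]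
    {v : Valuation K Γ₀} (s : Finset K) (h : ∀ x ∈ s, v x < 1) (k : ℕ) :
    v ((∏ x ∈ s, (X - C x) : K[X]).coeff k) ≤ 1 ∧
      (k < s.card → v ((∏ x ∈ s, (X - C x) : K[X]).coeff k) < 1) := by
  classical
  induction s using Finset.induction_on generalizing k with
  | empty =>
    rw [Finset.prod_empty, Polynomial.coeff_one]
    refine ⟨?_, fun h => absurd h (by simp)⟩
    split_ifs <;> simp
  | insert a s ha ih =>
    have ih' := ih fun x hx => h x (Finset.mem_insert_of_mem hx)
    have hva := h a (Finset.mem_insert_self _ _)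
    rw [Finset.prod_insert ha, Finset.card_insert_of_notMem ha, sub_mul]
    rcases k with _ | k
    · have e : (X * ∏ x ∈ s, (X - C x) - C a * ∏ x ∈ s, (X - C x) : K[X]).coeff 0 =
          -(a * (∏ x ∈ s, (X - C x) : K[X]).coeff 0) := by
        rw [coeff_sub, coeff_C_mul, mul_coeff_zero, coeff_X_zero, zero_mul, zero_sub]
      rw [e, Valuation.map_neg]
      have h1 : v (a * (∏ x ∈ s, (X - C x) : K[X]).coeff 0) < 1 := by
        rw [mul_comm]; exact v_lt_mul (ih' 0).1 hva
      exact ⟨h1.le, fun _ => h1⟩
    · have e : (X * ∏ x ∈ s, (X - C x) - C a * ∏ x ∈ s, (X - C x) : K[X]).coeff (k + 1) =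
          (∏ x ∈ s, (X - C x) : K[X]).coeff k - (∏ x ∈ s, (X - C x) : K[X]).coeff (k + 1) * a := by
        rw [coeff_sub, coeff_C_mul, coeff_X_mul, mul_comm a]
      rw [e]
      have h1 : v ((∏ x ∈ s, (X - C x) : K[X]).coeff (k + 1) * a) < 1 := v_lt_mul (ih' _).1 hva
      exact ⟨v_sub_le (ih' k).1 h1.le, fun hk => v_sub_lt ((ih' k).2 (by omega)) h1⟩

namespace EtaData

variable {A : ValuationSubring Qb} {p : ℕ} {H : Subgroup GQ} {η : Qb} (D : EtaData A p H η)
include D

/-- the Eisenstein equation -/
theorem exists_eis : ∃ c : ℕ → Qb, (∀ i, c i ∈ KI A) ∧ (∀ i, A.valuation (c i) ≤ 1) ∧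
    A.valuation (c 0) = 1 ∧ A.valuation (c 1) = 1 ∧
    η ^ p = (p : Qb) * ∑ i ∈ Finset.range p, c i * η ^ i := by
  classical
  have hp := D.hp
  have hp3 := D.hp3
  have hp0 : (p : Qb) ≠ 0 := by exact_mod_cast hp.ne_zero
  have hvp := D.vp_lt
  have hvp0 := D.vp_pos
  obtain ⟨f, hf⟩ : ∃ f : Qb[X], f = ∏ w ∈ D.Y, (X - C w) := ⟨_, rfl⟩
  have hmon : f.Monic := by rw [hf]; exact monic_prod_of_monic _ _ fun x _ => monic_X_sub_C _
  have hdeg : f.natDegree = p := by
    rw [hf, natDegree_prod_of_monic _ _ fun x _ => monic_X_sub_C _]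
    simp [D.card_Y]
  have hfσ : ∀ σ ∈ A.inertiaSubgroupIn ℚ, f.map (σ : Qb →+* Qb) = f := by
    intro σ hσ
    rw [hf, Polynomial.map_prod]
    refine Finset.prod_nbij (fun x => σ x) (fun w hw => D.smul_mem hσ hw)
      (fun x _ y _ hxy => σ.injective hxy) ?_ (fun w _ => ?_)
    · intro w hw
      exact ⟨σ⁻¹ w, D.smul_mem (inv_mem hσ) hw, σ.apply_symm_apply w⟩
    · rw [Polynomial.map_sub, map_X, map_C]
      rfl
  have hcK : ∀ k, f.coeff k ∈ KI A := by
    intro k
    rw [mem_KI]
    intro σ hσ
    have h1 := congrArg (fun Q : Qb[X] => Q.coeff k) (hfσ σ hσ)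
    simp only [coeff_map] at h1
    exact h1
  have hYlt : ∀ w ∈ D.Y, A.valuation w < 1 := fun w hw => by rw [D.vY hw]; exact D.vη_lt
  have hlt : ∀ k, k < p → A.valuation (f.coeff k) < 1 := by
    intro k hk
    rw [hf]
    exact (v_coeff_prod_lt D.Y hYlt k).2 (by rwa [D.card_Y])
  have hle : ∀ k, k < p → A.valuation (f.coeff k) ≤ A.valuation (p : Qb) := by
    intro k hk
    by_cases h0 : f.coeff k = 0
    · rw [h0, map_zero]; exact zero_le
    obtain ⟨m, hm⟩ := exists_zpow A hp D.hA (hcK k) h0
    have h1 := hlt k hk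
    rw [hm] at h1 ⊢
    have hm1 : 1 ≤ m := by
      by_contra hcon
      rw [← zpow_zero (A.valuation (p : Qb)), zpow_lt_zpow_iff_right_of_lt_one₀ hvp0 hvp] at h1
      omega
    calc A.valuation (p : Qb) ^ m ≤ A.valuation (p : Qb) ^ (1 : ℤ) :=
          (zpow_le_zpow_iff_right_of_lt_one₀ hvp0 hvp).mpr hm1
      _ = _ := zpow_one _
  have hev : f.eval η = 0 := by
    rw [hf, eval_prod]
    exact Finset.prod_eq_zero D.η_mem (by simp)
  -- constant coefficient
  have h0 : A.valuation (f.coeff 0) = A.valuation (p : Qb) := by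
    rw [coeff_zero_eq_eval_zero, hf, eval_prod, map_prod, ← D.val]
    rw [Finset.prod_eq_pow_card (b := A.valuation η), D.card_Y]
    intro w hw
    rw [eval_sub, eval_X, eval_C, zero_sub, Valuation.map_neg, D.vY hw]
  -- derivative
  have hd : A.valuation (f.derivative.eval η) = A.valuation (p : Qb) := by
    have e1 : f = (X - C η) * ∏ w ∈ D.Y.erase η, (X - C w) := by
      rw [hf, Finset.mul_prod_erase D.Y (fun w => X - C w) D.η_mem]
    have e2 : f.derivative.eval η = (∏ w ∈ D.Y.erase η, (X - C w) : Qb[X]).eval η := by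
      rw [e1, derivative_mul, eval_add, eval_mul, eval_mul]
      simp
    rw [e2, eval_prod, map_prod]
    have e3 : (∏ w ∈ D.Y.erase η, A.valuation ((X - C w : Qb[X]).eval η)) ^ (p - 1) =
        A.valuation (p : Qb) ^ (p - 1) := by
      rw [← Finset.prod_pow]
      rw [Finset.prod_eq_pow_card (b := A.valuation (p : Qb)), Finset.card_erase_of_mem D.η_mem,
        D.card_Y]
      intro w hw
      rw [eval_sub, eval_X, eval_C]
      exact D.v_sub (Finset.mem_of_mem_erase hw) (Finset.ne_of_mem_erase hw)
    exact (pow_left_inj₀ zero_le zero_le (by omega)).mp e3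
  have hdiv : ∀ k, A.valuation (-f.coeff k / (p : Qb)) =
      A.valuation (f.coeff k) / A.valuation (p : Qb) := fun k => by
    rw [map_div₀, Valuation.map_neg]
  refine ⟨fun k => if k < p then -f.coeff k / (p : Qb) else 0, fun i => ?_, fun i => ?_, ?_, ?_, ?_⟩
  · dsimp only
    split_ifs
    · exact div_mem (neg_mem (hcK i)) (_root_.natCast_mem (KI A) p)
    · exact zero_mem _
  · dsimp only
    split_ifs with h
    · rw [hdiv, div_le_one₀ hvp0]
      exact hle i h
    · rw [map_zero]; exact zero_le
  · dsimp only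
    rw [if_pos (by omega), hdiv, h0, div_self hvp0.ne']
  · dsimp only
    rw [if_pos (by omega), hdiv]
    refine le_antisymm ?_ ?_
    · rw [div_le_one₀ hvp0]
      exact hle 1 (by omega)
    · by_contra hcon
      rw [not_le, div_lt_one₀ hvp0] at hcon
      have h1 : A.valuation (f.derivative.eval η) < A.valuation (p : Qb) := by
        rw [Polynomial.derivative_eval, Polynomial.sum_over_range' _ (fun n => by simp) (p + 1)
          (by omega)]
        refine Valuation.map_sum_lt _ hvp0.ne' fun k hk => ?_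
        rw [Finset.mem_range] at hk
        rw [map_mul, map_mul, map_pow]
        have hk1 : A.valuation ((k : ℕ) : Qb) ≤ 1 := v_nat_le k
        rcases Nat.eq_zero_or_pos k with rfl | hk0
        · rw [Nat.cast_zero, map_zero, mul_zero, zero_mul]
          exact hvp0
        rcases Nat.lt_or_ge 1 k with h2 | h2
        · have hη1 : A.valuation η ^ (k - 1) < 1 := pow_lt_one₀ zero_le D.vη_lt (by omega)
          rcases Nat.lt_or_ge k p with h3 | h3
          · calc A.valuation (f.coeff k) * A.valuation ((k : ℕ) : Qb) * A.valuation η ^ (k - 1) ≤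
                A.valuation (p : Qb) * 1 * A.valuation η ^ (k - 1) :=
                  mul_le_mul' (mul_le_mul' (hle k h3) hk1) le_rfl
              _ < A.valuation (p : Qb) * 1 * 1 := by
                rw [mul_one]
                exact mul_lt_mul_of_pos_left hη1 hvp0
              _ = _ := by rw [mul_one, mul_one]
          · have hkp : k = p := by omega
            subst hkp
            have h5 : f.coeff k = 1 := by rw [← hdeg]; exact hmon.coeff_natDegree
            rw [h5, map_one, one_mul]
            calc A.valuation (k : Qb) * A.valuation η ^ (k - 1) <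
                A.valuation (k : Qb) * 1 := mul_lt_mul_of_pos_left hη1 hvp0
              _ = _ := mul_one _
        · have hk2 : k = 1 := by omega
          subst hk2
          rw [Nat.cast_one, map_one, mul_one, Nat.sub_self, pow_zero, mul_one]
          exact hcon
      rw [hd] at h1
      exact lt_irrefl _ h1
  · have h1 := hev
    rw [Polynomial.eval_eq_sum_range, hdeg, Finset.sum_range_succ] at h1
    have h5 : f.coeff p = 1 := by
      have := hmon.coeff_natDegree
      rwa [hdeg] at this
    rw [h5, one_mul] at h1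
    rw [Finset.mul_sum]
    have h6 : ∀ i ∈ Finset.range p, (p : Qb) * ((if i < p then -f.coeff i / (p : Qb) else 0) *
        η ^ i) = -(f.coeff i * η ^ i) := by
      intro i hi
      rw [if_pos (Finset.mem_range.mp hi)]
      field_simp
    rw [Finset.sum_congr rfl h6, Finset.sum_neg_distrib]
    linear_combination h1

end EtaData

end Fermat.Agent.PR
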