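import Fermat.Agent.PR.Four
import Fermat.Agent.LG.WSer
import Fermat.Agent.CB.Four
import Fermat.Agent.CB.Unit

/-!
The involution `w₂` at level `2p`.
-/

set_option autoImplicit false
set_option linter.unusedSectionVars false
set_option linter.style.haveILetI false
set_option linter.unusedVariables false

open Matrix.SpecialLinearGroup CongruenceSubgroup ModularGroup
open scoped MatrixGroups ModularForm Manifold
open UpperHalfPlane hiding I J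
open Complex (I)
open Fermat.Agent.ModFun IntermediateField Fermat.Agent.Geo IsLocalRing Fermat.Agent.LG
open Fermat.Agent.Eis16 (up coe_up)
open Fermat.Agent.ESCore (HauptFn haupt2 uF vF E4p Dp t2 vF2_ne t2_eq J_mul_t2 Dp_eq_vu2 E4p_eq hκ2 D_eq_v2u)
open ModularCurve (qExpand coeffMap)
open ModularForm (E₄)

noncomputable section

universe u

namespace Fermat.Agent.PR

theorem tri_two_eq_up (τ : ℍ) : tri 2 0 1 τ = up 2 τ := by
  apply UpperHalfPlane.ext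
  rw [coe_tri, coe_up]
  push_cast
  ring

section Fn

variable {M : ℕ} [NeZero M] (B : Bez 2 M)

/-- the factor -/
def wfac (τ : ℍ) : ℂ := (M : ℂ) * τ + B.w

theorem E4_smul_SL (γ : SL(2, ℤ)) (τ : ℍ) :
    E₄ (γ • τ) = ((γ 1 0 : ℂ) * τ + γ 1 1) ^ 4 * E₄ τ := by
  have h := smul_of_SL E₄ γ τ
  rw [ModularGroup.denom_apply] at h
  exact_mod_cast h

theorem E4_W (τ : ℍ) : E₄ (B.W τ) = 16 * wfac B τ ^ 4 * E4p 2 τ := by
  rw [Bez.W, E4_smul_SL, E4p, ← tri_two_eq_up]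
  have h3 : (B.g0 1 0 : ℂ) = M := by
    have : B.g0 1 0 = M := rfl
    rw [this]; norm_num
  have h4 : (B.g0 1 1 : ℂ) = 2 * B.w := by
    have : B.g0 1 1 = (2 : ℕ) * B.w := rfl
    rw [this]; push_cast; ring
  rw [h3, h4, coe_tri, wfac]
  push_cast
  ring

theorem E4p_W (τ : ℍ) : E4p 2 (B.W τ) = wfac B τ ^ 4 * E₄ τ := by
  have h1 := B.W_eq (d := 1) τ
  have h2 : up 2 (B.W τ) = B.g1 • τ := by
    rw [← tri_two_eq_up]
    have e1 : tri (2 * 1) 0 1 (B.W τ) = tri 2 0 1 (B.W τ) := rfl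
    have e2 : tri 1 0 1 (B.g1 • τ) = B.g1 • τ := by
      apply UpperHalfPlane.ext
      rw [coe_tri]
      push_cast
      ring
    rw [← e1, h1, e2]
  rw [E4p, h2, E4_smul_SL]
  have h7 : (B.g1 1 0 : ℂ) = M := by
    have : B.g1 1 0 = M := rfl
    rw [this]; norm_num
  have h8 : (B.g1 1 1 : ℂ) = B.w := rfl
  rw [h7, h8, wfac]

theorem uF_W (τ : ℍ) : uF 2 (B.W τ) = wfac B τ ^ 4 * vF 2 τ / 16 := by
  rw [uF, vF, E4_W, E4p_W]
  push_cast
  ring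

theorem vF_W (τ : ℍ) : vF 2 (B.W τ) = 256 * (wfac B τ ^ 4 * uF 2 τ) := by
  rw [uF, vF, E4_W, E4p_W]
  push_cast
  ring

theorem wfac_ne_zero (τ : ℍ) : wfac B τ ≠ 0 := by
  intro h
  have h1 := vF2_ne (B.W τ)
  rw [vF_W, h] at h1
  apply h1
  ring

theorem tI_W (τ : ℍ) : tI haupt2 (B.W τ) * tI haupt2 τ = 4096 := by
  rw [tI_eq, tI_eq, uF_W, vF_W]
  have h1 := wfac_ne_zero B τ
  have h2 := vF2_ne τ
  have h3 := uF2_ne τ
  field_simp
  norm_num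

end Fn

section Two

variable {p : ℕ} [NeZero p] (B : Bez 2 p)

/-- the Bézout data at level `2` -/
def bezTwo : Bez 2 1 := ⟨B.w, p * B.y, by
  have := B.det
  push_cast at this ⊢
  linarith⟩

theorem tri_W (τ : ℍ) : tri p 0 1 (B.W τ) = (bezTwo B).W (tri p 0 1 τ) := by
  apply UpperHalfPlane.ext
  have c1 := coe_smul_SL B.g0 (tri 2 0 1 τ)
  have c2 := coe_smul_SL (bezTwo B).g0 (tri 2 0 1 (tri p 0 1 τ))
  rw [Bez.W, Bez.W, coe_tri, c1, c2, coe_tri, coe_tri, coe_tri]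
  have h1 : (B.g0 0 0 : ℂ) = 1 := by
    have : B.g0 0 0 = 1 := rfl
    rw [this]; norm_num
  have h2 : (B.g0 0 1 : ℂ) = B.y := rfl
  have h3 : (B.g0 1 0 : ℂ) = p := by
    have : B.g0 1 0 = p := rfl
    rw [this]; norm_num
  have h4 : (B.g0 1 1 : ℂ) = 2 * B.w := by
    have : B.g0 1 1 = (2 : ℕ) * B.w := rfl
    rw [this]; push_cast; ring
  have k1 : ((bezTwo B).g0 0 0 : ℂ) = 1 := by
    have : (bezTwo B).g0 0 0 = 1 := rfl
    rw [this]; norm_num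
  have k2 : ((bezTwo B).g0 0 1 : ℂ) = p * B.y := by
    have : (bezTwo B).g0 0 1 = p * B.y := rfl
    rw [this]; push_cast; ring
  have k3 : ((bezTwo B).g0 1 0 : ℂ) = 1 := by
    have : (bezTwo B).g0 1 0 = ((1 : ℕ) : ℤ) := rfl
    rw [this]; norm_num
  have k4 : ((bezTwo B).g0 1 1 : ℂ) = 2 * B.w := by
    have : (bezTwo B).g0 1 1 = (2 : ℕ) * B.w := rfl
    rw [this]; push_cast; ring
  rw [h1, h2, h3, h4, k1, k2, k3, k4]
  push_cast
  ring

theorem wfac_tri (τ : ℍ) : wfac (bezTwo B) (tri p 0 1 τ) = wfac B τ := by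
  rw [wfac, wfac, coe_tri]
  have : (bezTwo B).w = B.w := rfl
  rw [this]
  push_cast
  ring

theorem tI_tri_W (τ : ℍ) : tI haupt2 (tri p 0 1 (B.W τ)) * tI haupt2 (tri p 0 1 τ) = 4096 := by
  rw [tri_W]
  exact tI_W (bezTwo B) _

/-- `v(τ)/v(pτ)` is exchanged with `u(τ)/u(pτ)` -/
theorem vF_div_W (τ : ℍ) : vF 2 (B.W τ) / vF 2 (tri p 0 1 (B.W τ)) =
    uF 2 τ / uF 2 (tri p 0 1 τ) := by
  rw [tri_W, vF_W, vF_W, wfac_tri]
  have h1 := wfac_ne_zero B τ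
  rw [mul_div_mul_left _ _ (by norm_num : (256 : ℂ) ≠ 0), mul_div_mul_left _ _ (pow_ne_zero 4 h1)]

theorem uF_div_W (τ : ℍ) : uF 2 (B.W τ) / uF 2 (tri p 0 1 (B.W τ)) =
    vF 2 τ / vF 2 (tri p 0 1 τ) := by
  rw [tri_W, uF_W, uF_W, wfac_tri]
  have h1 := wfac_ne_zero B τ
  rw [div_div_div_cancel_right₀ (by norm_num : (16 : ℂ) ≠ 0),
    mul_div_mul_left _ _ (pow_ne_zero 4 h1)]

theorem vF_smul_tri {γ : SL(2, ℤ)} (hγ : γ ∈ Gamma0 (2 * p)) (τ : ℍ) :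
    vF 2 (γ • τ) / vF 2 (tri p 0 1 (γ • τ)) = vF 2 τ / vF 2 (tri p 0 1 τ) := by
  rw [Gamma0_mem, ZMod.intCast_zmod_eq_zero_iff_dvd] at hγ
  obtain ⟨r, hr⟩ := hγ
  have hdet := γ.det_coe
  rw [Matrix.det_fin_two] at hdet
  have hr' : γ 1 0 = p * (2 * r) := by rw [hr]; push_cast; ring
  let γ' : SL(2, ℤ) := ⟨!![γ 0 0, p * γ 0 1; 2 * r, γ 1 1], by
    rw [Matrix.det_fin_two_of]
    rw [hr'] at hdet
    linear_combination hdet⟩
  have e1 : γ' 1 0 = 2 * r := rfl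
  have e2 : γ' 1 1 = γ 1 1 := rfl
  have h1 := tri_smul (d := p) (γ := γ) (γ' := γ') (a := p) (d' := 1) (b := 0)
    (by simp [γ']; ring) (by simp [γ']) (by simp [γ', hr']; ring) (by simp [γ']) τ
  have hm1 : γ ∈ Gamma0 2 := by
    rw [Gamma0_mem, ZMod.intCast_zmod_eq_zero_iff_dvd, hr']
    exact ⟨p * r, by push_cast; ring⟩
  have hm2 : γ' ∈ Gamma0 2 := by
    rw [Gamma0_mem, ZMod.intCast_zmod_eq_zero_iff_dvd, e1]
    exact ⟨r, by push_cast; ring⟩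
  have key : ∀ (g : SL(2, ℤ)) (hg : g ∈ Gamma0 2) (z : ℍ),
      vF 2 (g • z) = ((g 1 0 : ℂ) * z + g 1 1) ^ 4 * vF 2 z := by
    intro g hg z
    have := Fermat.Agent.ESCore.vF_smul 2 g hg z
    rwa [ModularGroup.denom_apply] at this
  rw [h1, key γ hm1, key γ' hm2, e1, e2, hr']
  have n1 : (((p * (2 * r) : ℤ) : ℂ)) * (τ : ℂ) + γ 1 1 ≠ 0 := by
    rw [← hr']
    exact denom_SL_ne_zero γ τ
  have n3 : ((2 * r : ℤ) : ℂ) * (tri p 0 1 τ : ℂ) + γ 1 1 =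
      (((p * (2 * r) : ℤ) : ℂ)) * (τ : ℂ) + γ 1 1 := by
    rw [coe_tri]
    push_cast
    ring
  rw [n3, mul_div_mul_left _ _ (pow_ne_zero 4 n1)]

end Two

section Field

open Fermat.Agent.CB (PsiS psi hasExp_psi phi_four tS_mul_TS)

variable {p : ℕ} [NeZero p] {N : ℕ} [NeZero N] {L : Type*} [Field L]

theorem psi_pow_four (τ : ℍ) : psi 2 2 p τ ^ 4 = vF 2 τ / vF 2 (tri p 0 1 τ) := by
  rw [psi, mul_pow, inv_pow, phi_four, phi_four, div_eq_mul_inv]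

theorem psi4_mem (hN : N = 2 * p) (ι : L →+* ℂ) : PsiS 2 2 p L ^ 4 ∈ F0 L N := by
  have hinv : IsInv N (psi 2 2 p ^ 4) := by
    intro γ hγ τ
    rw [Pi.pow_apply, Pi.pow_apply, psi_pow_four, psi_pow_four]
    subst hN
    exact vF_smul_tri hγ τ
  exact mem_F0_of_holC (ι := ι) ⟨_, mem_modFun_of_MB (pow_mem (Fermat.Agent.CB.psi_mem_MB 2 2 p).1 4)
    hinv, hinv, (hasExp_psi ι).pow 4⟩

/-- `w₂` exchanges the unit `v/v_p` with `u/u_p`. -/
theorem wF_psi4 (B : Bez 2 p) (ι : L →+* ℂ) (h2 : Nat.Prime 2) (hN : N = 2 * p) (h : F0 L N)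
    (hh : (h : LaurentSeries L) = PsiS 2 2 p L ^ 4) :
    (B.wF ι h2 hN h : LaurentSeries L) * tS L 2 16 =
      PsiS 2 2 p L ^ 4 * qExpand L p (tS L 2 16) := by
  have e1 : HasExp ι (qN 1) (psi 2 2 p ^ 4) (h : LaurentSeries L) := by
    rw [hh]; exact (hasExp_psi ι).pow 4
  have e2 : HasExp (RingHom.id ℂ) (qN 1) (tI haupt2) (tS ℂ 2 16) := hasExp_tI haupt2 _
  have e3 : HasExp (RingHom.id ℂ) (qN 1) (fun τ => tI haupt2 (tri p 0 1 τ))
      (qExpand ℂ p (tS ℂ 2 16)) :=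
    e2.qExpand (s' := qN 1) p (fun τ => tri p 0 1 τ) (fun τ => Fermat.Agent.ModFun.qN_one_tri_one p τ)
  have hinv : HasExp (RingHom.id ℂ) (qN 1) (tI haupt2)⁻¹
      (coeffMap (Int.castRingHom ℂ) (HahnSeries.ofPowerSeries ℤ ℤ (Fermat.Agent.ESCore.TS 2 16))) := by
    have h1 : HasExp (Int.castRingHom ℂ) (qN 1) (haupt2).t
        (HahnSeries.ofPowerSeries ℤ ℤ (Fermat.Agent.ESCore.TS 2 16)) :=
      Fermat.Agent.CB.hasExp_of_hasQ haupt2.hasQ
    refine (h1.coeffMap (Int.castRingHom ℂ) (RingHom.id_comp _)).congr fun τ => ?_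
    rw [Pi.inv_apply, tI, inv_inv]
  have e4 : HasExp (RingHom.id ℂ) (qN 1) (B.slash (psi 2 2 p ^ 4))
      (PsiS 2 2 p ℂ ^ 4 * qExpand ℂ p (tS ℂ 2 16) *
        coeffMap (Int.castRingHom ℂ) (HahnSeries.ofPowerSeries ℤ ℤ (Fermat.Agent.ESCore.TS 2 16))) := by
    refine ((((hasExp_psi (RingHom.id ℂ)).pow 4).mul e3).mul hinv).congr fun τ => ?_
    rw [B.slash_apply, Pi.pow_apply, psi_pow_four, vF_div_W, Pi.mul_apply, Pi.mul_apply,
      Pi.pow_apply, psi_pow_four, Pi.inv_apply, tI_eq, tI_eq]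
    have n1 := vF2_ne τ
    have n2 := uF2_ne τ
    have n3 := vF2_ne (tri p 0 1 τ)
    have n4 := uF2_ne (tri p 0 1 τ)
    field_simp
  have h3 := B.wF_hasExp h2 hN e1 e4
  have hinj : Function.Injective (coeffMap ι) := RingHom.injective (coeffMap ι)
  apply hinj
  have h5 : coeffMap ι (PsiS 2 2 p L) = PsiS 2 2 p ℂ :=
    ((hasExp_psi ι).coeffMap ι (RingHom.id_comp ι)).unique Function.injective_id
      (isParam_qN 1) (hasExp_psi (RingHom.id ℂ))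
  rw [map_mul, h3, map_mul, map_pow, h5, coeffMap_qExpand, coeffMap_tS]
  have h6 := tS_mul_TS (K := ℂ)
  linear_combination (PsiS 2 2 p ℂ ^ 4 * qExpand ℂ p (tS ℂ 2 16)) * h6

/-- `w₂(t) t = 4096` -/
theorem wF_t (B : Bez 2 p) (ι : L →+* ℂ) (h2 : Nat.Prime 2) (hN : N = 2 * p) (h : F0 L N)
    (hh : (h : LaurentSeries L) = tS L 2 16) :
    (B.wF ι h2 hN h : LaurentSeries L) * tS L 2 16 = 4096 := by
  have e1 : HasExp ι (qN 1) (tI haupt2) (h : LaurentSeries L) := by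
    rw [hh]; exact hasExp_tI haupt2 _
  have hinv : HasExp (RingHom.id ℂ) (qN 1) (tI haupt2)⁻¹
      (coeffMap (Int.castRingHom ℂ) (HahnSeries.ofPowerSeries ℤ ℤ (Fermat.Agent.ESCore.TS 2 16))) := by
    have h1 : HasExp (Int.castRingHom ℂ) (qN 1) (haupt2).t
        (HahnSeries.ofPowerSeries ℤ ℤ (Fermat.Agent.ESCore.TS 2 16)) :=
      Fermat.Agent.CB.hasExp_of_hasQ haupt2.hasQ
    refine (h1.coeffMap (Int.castRingHom ℂ) (RingHom.id_comp _)).congr fun τ => ?_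
    rw [Pi.inv_apply, tI, inv_inv]
  have e4 : HasExp (RingHom.id ℂ) (qN 1) (B.slash (tI haupt2))
      (HahnSeries.C (4096 : ℂ) *
        coeffMap (Int.castRingHom ℂ) (HahnSeries.ofPowerSeries ℤ ℤ (Fermat.Agent.ESCore.TS 2 16))) := by
    refine (hinv.smul (4096 : ℂ)).congr fun τ => ?_
    rw [B.slash_apply, RingHom.id_apply, Pi.inv_apply, ← tI_W B τ]
    have := tI_ne_zero haupt2 τ
    field_simp
  have h3 := B.wF_hasExp h2 hN e1 e4
  have hinj : Function.Injective (coeffMap ι) := RingHom.injective (coeffMap ι)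
  apply hinj
  rw [map_mul, h3, coeffMap_tS, map_ofNat, map_ofNat]
  have h6 := tS_mul_TS (K := ℂ)
  linear_combination 4096 * h6

/-- `w₂(t_p) t_p = 4096` -/
theorem wF_tp (B : Bez 2 p) (ι : L →+* ℂ) (h2 : Nat.Prime 2) (hN : N = 2 * p) (h : F0 L N)
    (hh : (h : LaurentSeries L) = qExpand L p (tS L 2 16)) :
    (B.wF ι h2 hN h : LaurentSeries L) * qExpand L p (tS L 2 16) = 4096 := by
  have e0 : HasExp ι (qN 1) (tI haupt2) (tS L 2 16) := hasExp_tI haupt2 _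
  have e1 : HasExp ι (qN 1) (fun τ => tI haupt2 (tri p 0 1 τ)) (h : LaurentSeries L) := by
    rw [hh]
    exact e0.qExpand (s' := qN 1) p (fun τ => tri p 0 1 τ)
      (fun τ => Fermat.Agent.ModFun.qN_one_tri_one p τ)
  have hinv : HasExp (RingHom.id ℂ) (qN 1) (tI haupt2)⁻¹
      (coeffMap (Int.castRingHom ℂ) (HahnSeries.ofPowerSeries ℤ ℤ (Fermat.Agent.ESCore.TS 2 16))) := by
    have h1 : HasExp (Int.castRingHom ℂ) (qN 1) (haupt2).t
        (HahnSeries.ofPowerSeries ℤ ℤ (Fermat.Agent.ESCore.TS 2 16)) :=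
      Fermat.Agent.CB.hasExp_of_hasQ haupt2.hasQ
    refine (h1.coeffMap (Int.castRingHom ℂ) (RingHom.id_comp _)).congr fun τ => ?_
    rw [Pi.inv_apply, tI, inv_inv]
  have hinv' := hinv.qExpand (s' := qN 1) p (fun τ => tri p 0 1 τ)
    (fun τ => Fermat.Agent.ModFun.qN_one_tri_one p τ)
  have e4 : HasExp (RingHom.id ℂ) (qN 1) (B.slash (fun τ => tI haupt2 (tri p 0 1 τ)))
      (HahnSeries.C (4096 : ℂ) * qExpand ℂ p
        (coeffMap (Int.castRingHom ℂ) (HahnSeries.ofPowerSeries ℤ ℤ (Fermat.Agent.ESCore.TS 2 16)))) := by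
    refine (hinv'.smul (4096 : ℂ)).congr fun τ => ?_
    rw [B.slash_apply, RingHom.id_apply, Pi.inv_apply, ← tI_tri_W B τ]
    have := tI_ne_zero haupt2 (tri p 0 1 τ)
    field_simp
  have h3 := B.wF_hasExp h2 hN e1 e4
  have hinj : Function.Injective (coeffMap ι) := RingHom.injective (coeffMap ι)
  apply hinj
  rw [map_mul, h3, coeffMap_qExpand, coeffMap_tS, map_ofNat, map_ofNat]
  have h6 : qExpand ℂ p (tS ℂ 2 16) * qExpand ℂ p
    (coeffMap (Int.castRingHom ℂ) (HahnSeries.ofPowerSeries ℤ ℤ (Fermat.Agent.ESCore.TS 2 16))) = 1 := by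
    rw [← map_mul, tS_mul_TS, map_one]
  linear_combination 4096 * h6

end Field

end Fermat.Agent.PR
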